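import Mathlib.RingTheory.LaurentSeries
import Mathlib.RingTheory.Derivation.Basic
import Fermat.Prelude.Def_ModularCurve_X0
import Fermat.Prelude.Def_ModularCurve_LaurentCoeff

/-!
# Substitutions `q ↦ u·qᵏ` on Laurent series, and the derivation `q d/dq`
-/

set_option autoImplicit false

noncomputable section

open HahnSeries ModularCurve

namespace Fermat.Agent.ModularFunctionField

variable {R S : Type*} [CommRing R] [CommRing S]

/-- Multiply the coefficient of `qⁿ` by `uⁿ`, i.e. the substitution `q ↦ u·q`. -/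
def twist (u : Rˣ) : LaurentSeries R →+* LaurentSeries R where
  toFun x :=
    { coeff := fun n => ((u ^ n : Rˣ) : R) * x.coeff n
      isPWO_support' := x.isPWO_support'.mono fun n hn => by
        simp only [Function.mem_support] at hn ⊢
        exact right_ne_zero_of_mul hn }
  map_zero' := by ext n; simp
  map_one' := by
    ext n
    rcases eq_or_ne n 0 with rfl | hn
    · simp [HahnSeries.coeff_one]
    · simp [HahnSeries.coeff_one, hn]
  map_add' x y := by ext n; simp [mul_add]
  map_mul' x y := by
    ext n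
    simp only [HahnSeries.coeff_mul, Finset.mul_sum]
    have hx : ∀ z : LaurentSeries R, ∀ i, ((u ^ i : Rˣ) : R) * z.coeff i ≠ 0 → z.coeff i ≠ 0 :=
      fun z i h => right_ne_zero_of_mul h
    symm
    refine Finset.sum_subset ?_ ?_ |>.trans (Finset.sum_congr rfl ?_)
    · intro p hp
      rw [Finset.mem_antidiagonal] at hp ⊢
      exact ⟨hx x _ hp.1, hx y _ hp.2.1, hp.2.2⟩
    · intro p hp hp'
      rw [Finset.mem_antidiagonal] at hp hp'
      simp only [HahnSeries.mem_support] at hp'
      by_contra h
      exact hp' ⟨left_ne_zero_of_mul h, right_ne_zero_of_mul h, hp.2.2⟩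
    · intro p hp
      rw [Finset.mem_antidiagonal] at hp
      show ((u ^ p.1 : Rˣ) : R) * x.coeff p.1 * (((u ^ p.2 : Rˣ) : R) * y.coeff p.2) = _
      rw [← hp.2.2, zpow_add, Units.val_mul]
      ring

/-- `q ↦ u q` multiplies the coefficient of `qⁿ` by `uⁿ`. -/
@[simp]
theorem twist_coeff (u : Rˣ) (x : LaurentSeries R) (n : ℤ) :
    (twist u x).coeff n = ((u ^ n : Rˣ) : R) * x.coeff n :=
  rfl

@[simp]
theorem twist_single (u : Rˣ) (k : ℤ) (r : R) :
    twist u (HahnSeries.single k r) = HahnSeries.single k (((u ^ k : Rˣ) : R) * r) := by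
  ext n
  rcases eq_or_ne n k with rfl | hn
  · simp
  · simp [HahnSeries.coeff_single_of_ne hn]

/-- `q ↦ u q` fixes constants. -/
theorem twist_C (u : Rˣ) (r : R) : twist u (HahnSeries.C r) = HahnSeries.C r := by
  simp [HahnSeries.C_apply]

/-- `q ↦ 1·q` is the identity. -/
@[simp]
theorem twist_one (x : LaurentSeries R) : twist (1 : Rˣ) x = x := by
  ext n; simp

/-- `q ↦ u q` composes multiplicatively in `u`. -/
theorem twist_twist (u v : Rˣ) (x : LaurentSeries R) : twist u (twist v x) = twist (u * v) x := by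
  ext n
  simp [mul_zpow, mul_assoc]

/-- `q ↦ u q` is injective. -/
theorem twist_injective (u : Rˣ) : Function.Injective (twist (R := R) u) := by
  intro x y h
  have := congrArg (twist u⁻¹) h
  simpa [twist_twist] using this

/-- Commuting `q ↦ u q` past `q ↦ qᵏ`. -/
theorem twist_qExpand (u : Rˣ) (k : ℕ) [NeZero k] (x : LaurentSeries R) :
    twist u (qExpand R k x) = qExpand R k (twist (u ^ k) x) := by
  ext n
  by_cases hn : (k : ℤ) ∣ n
  · obtain ⟨m, rfl⟩ := hn
    rw [twist_coeff, qExpand_coeff_mul, qExpand_coeff_mul, twist_coeff, zpow_mul]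
    simp
  · simp [qExpand_coeff_of_not_dvd k _ hn]

/-- The substitution `q ↦ u·qᵏ`. -/
def subst (u : Rˣ) (k : ℕ) [NeZero k] : LaurentSeries R →+* LaurentSeries R :=
  (qExpand R k).comp (twist u)

/-- `q ↦ u qᵏ` is `q ↦ u q` followed by `q ↦ qᵏ`. -/
theorem subst_apply (u : Rˣ) (k : ℕ) [NeZero k] (x : LaurentSeries R) :
    subst u k x = qExpand R k (twist u x) :=
  rfl

/-- The coefficient of `q^{kn}` after `q ↦ u qᵏ`. -/
@[simp]
theorem subst_coeff_mul (u : Rˣ) (k : ℕ) [NeZero k] (x : LaurentSeries R) (n : ℤ) :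
    (subst u k x).coeff ((k : ℤ) * n) = ((u ^ n : Rˣ) : R) * x.coeff n := by
  simp [subst_apply]

/-- After `q ↦ u qᵏ` only exponents divisible by `k` occur. -/
theorem subst_coeff_of_not_dvd (u : Rˣ) (k : ℕ) [NeZero k] (x : LaurentSeries R) {n : ℤ}
    (hn : ¬ (k : ℤ) ∣ n) : (subst u k x).coeff n = 0 :=
  qExpand_coeff_of_not_dvd k _ hn

/-- `q ↦ u qᵏ` fixes constants. -/
theorem subst_C (u : Rˣ) (k : ℕ) [NeZero k] (r : R) :
    subst u k (HahnSeries.C r) = HahnSeries.C r := by
  rw [subst_apply, twist_C, qExpand_C]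

/-- The substitution depends only on `u` and `k`. -/
theorem subst_congr {u v : Rˣ} {k l : ℕ} [NeZero k] [NeZero l] (hu : u = v) (hk : k = l)
    (x : LaurentSeries R) : subst u k x = subst v l x := by
  subst hu hk; rfl

/-- `q ↦ 1·qᵏ` is `qExpand`. -/
@[simp]
theorem subst_one (k : ℕ) [NeZero k] (x : LaurentSeries R) :
    subst (1 : Rˣ) k x = qExpand R k x := by
  simp [subst_apply]

/-- The composite of two substitutions. -/
theorem subst_subst (u v : Rˣ) (k l : ℕ) [NeZero k] [NeZero l] (x : LaurentSeries R) :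
    subst u k (subst v l x) = subst (u ^ l * v) (k * l) x := by
  simp only [subst_apply]
  rw [twist_qExpand, twist_twist, qExpand_qExpand]

/-- `q ↦ u qᵏ` is injective. -/
theorem subst_injective (u : Rˣ) (k : ℕ) [NeZero k] : Function.Injective (subst (R := R) u k) :=
  (qExpand_injective k).comp (twist_injective u)

/-- `q ↦ u q` is natural in the ring. -/
theorem coeffMap_twist (f : R →+* S) (u : Rˣ) (x : LaurentSeries R) :
    coeffMap f (twist u x) = twist (Units.map (f : R →* S) u) (coeffMap f x) := by
  ext n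
  rw [coeffMap_coeff, twist_coeff, map_mul, twist_coeff, coeffMap_coeff, ← map_zpow, Units.coe_map]
  rfl

/-- `q ↦ qᵏ` is natural in the ring. -/
theorem coeffMap_qExpand' (f : R →+* S) (k : ℕ) [NeZero k] (x : LaurentSeries R) :
    coeffMap f (qExpand R k x) = qExpand S k (coeffMap f x) := by
  ext n
  by_cases hn : (k : ℤ) ∣ n
  · obtain ⟨m, rfl⟩ := hn; simp
  · simp [qExpand_coeff_of_not_dvd k _ hn]

/-- `q ↦ u qᵏ` is natural in the ring. -/
theorem coeffMap_subst (f : R →+* S) (u : Rˣ) (k : ℕ) [NeZero k] (x : LaurentSeries R) :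
    coeffMap f (subst u k x) = subst (Units.map (f : R →* S) u) k (coeffMap f x) := by
  rw [subst_apply, subst_apply, coeffMap_qExpand', coeffMap_twist]

/-- An injective ring map is injective on series. -/
theorem coeffMap_injective (f : R →+* S) (hf : Function.Injective f) :
    Function.Injective (coeffMap f) := fun x y h =>
  HahnSeries.ext (funext fun n => hf (by
    rw [← coeffMap_coeff f x n, ← coeffMap_coeff f y n, h]))

/-- A ring map on constant series. -/
theorem coeffMap_C (f : R →+* S) (r : R) : coeffMap f (HahnSeries.C r) = HahnSeries.C (f r) := by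
  simp [HahnSeries.C_apply]

/-- The operator `θ = q d/dq`. -/
def theta (x : LaurentSeries R) : LaurentSeries R where
  coeff n := (n : R) * x.coeff n
  isPWO_support' := x.isPWO_support'.mono fun n hn => by
    simp only [Function.mem_support] at hn ⊢
    exact right_ne_zero_of_mul hn

/-- `θ` multiplies the coefficient of `qⁿ` by `n`. -/
@[simp]
theorem theta_coeff (x : LaurentSeries R) (n : ℤ) : (theta x).coeff n = (n : R) * x.coeff n := rfl

/-- `θ` is additive. -/
theorem theta_add (x y : LaurentSeries R) : theta (x + y) = theta x + theta y := by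
  ext n; simp [mul_add]

/-- `θ` kills constants. -/
theorem theta_C (r : R) : theta (HahnSeries.C r) = 0 := by
  ext n
  rcases eq_or_ne n 0 with rfl | hn
  · simp
  · simp [HahnSeries.C_apply, HahnSeries.coeff_single_of_ne hn]

/-- `θ` is a derivation. -/
theorem theta_mul (x y : LaurentSeries R) : theta (x * y) = theta x * y + x * theta y := by
  ext n
  have hx : ∀ z : LaurentSeries R, (theta z).support ⊆ z.support := fun z i hi => by
    simp only [HahnSeries.mem_support, theta_coeff] at hi ⊢
    exact right_ne_zero_of_mul hi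
  rw [theta_coeff, HahnSeries.coeff_add, HahnSeries.coeff_mul,
    HahnSeries.coeff_mul_left' x.isPWO_support (hx x),
    HahnSeries.coeff_mul_right' y.isPWO_support (hx y),
    Finset.mul_sum, ← Finset.sum_add_distrib]
  refine Finset.sum_congr rfl fun p hp => ?_
  rw [Finset.mem_antidiagonal] at hp
  rw [← hp.2.2, theta_coeff, theta_coeff, Int.cast_add]
  ring

/-- `θ` of a series in `qᵏ`. -/
theorem theta_qExpand (k : ℕ) [NeZero k] (x : LaurentSeries R) :
    theta (qExpand R k x) = HahnSeries.C (k : R) * qExpand R k (theta x) := by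
  ext n
  rw [HahnSeries.C_mul_eq_smul, HahnSeries.coeff_smul, theta_coeff, smul_eq_mul]
  by_cases hn : (k : ℤ) ∣ n
  · obtain ⟨m, rfl⟩ := hn
    simp only [qExpand_coeff_mul, theta_coeff]
    push_cast
    ring
  · simp [qExpand_coeff_of_not_dvd k _ hn]

/-- `θ` commutes with `q ↦ u q`. -/
theorem theta_twist (u : Rˣ) (x : LaurentSeries R) : theta (twist u x) = twist u (theta x) := by
  ext n; simp [mul_left_comm]

/-- `θ` after `q ↦ u qᵏ`. -/
theorem theta_subst (u : Rˣ) (k : ℕ) [NeZero k] (x : LaurentSeries R) :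
    theta (subst u k x) = HahnSeries.C (k : R) * subst u k (theta x) := by
  rw [subst_apply, theta_qExpand, theta_twist, subst_apply]

/-- `θ` is natural in the ring. -/
theorem coeffMap_theta (f : R →+* S) (x : LaurentSeries R) :
    coeffMap f (theta x) = theta (coeffMap f x) := by
  ext n; simp

end Fermat.Agent.ModularFunctionField
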