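import Fermat.Agent.ModularFunctionField.InvariantPoly

/-!
# Primitive upper triangular matrices of determinant `N`

`Tri N` indexes the cyclic subgroups of order `N`; it carries the action of `SL(2,ℤ)`.
-/

set_option autoImplicit false

noncomputable section

open Filter Complex ModularCurve
open UpperHalfPlane hiding I
open scoped Topology MatrixGroups Manifold

namespace Fermat.Agent.ModularFunctionField

/-- The triples `(a, b, d)` with `ad = N`, `b < d`, `gcd (a, b, d) = 1`. -/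
def triples (N : ℕ) : Finset (ℕ × ℕ × ℕ) :=
  ((Finset.range (N + 1)) ×ˢ ((Finset.range (N + 1)) ×ˢ (Finset.range (N + 1)))).filter
    fun x => x.1 * x.2.2 = N ∧ x.2.1 < x.2.2 ∧ Nat.gcd (Nat.gcd x.1 x.2.1) x.2.2 = 1

/-- The type of primitive Hermite matrices of determinant `N`. -/
abbrev Tri (N : ℕ) : Type := ↥(triples N)

namespace Tri

variable {N : ℕ} [NeZero N] (M : Tri N)

/-- The upper left entry. -/
def a : ℕ := M.1.1

/-- The upper right entry. -/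
def b : ℕ := M.1.2.1

/-- The lower right entry. -/
def d : ℕ := M.1.2.2

omit [NeZero N] in
theorem spec : M.a * M.d = N ∧ M.b < M.d ∧ Nat.gcd (Nat.gcd M.a M.b) M.d = 1 :=
  (Finset.mem_filter.mp M.2).2

omit [NeZero N] in
/-- `a d = N`. -/
theorem a_mul_d : M.a * M.d = N := M.spec.1

omit [NeZero N] in
/-- `b < d`. -/
theorem b_lt : M.b < M.d := M.spec.2.1

omit [NeZero N] in
/-- `gcd (a, b, d) = 1`. -/
theorem primitive : Nat.gcd (Nat.gcd M.a M.b) M.d = 1 := M.spec.2.2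

omit [NeZero N] in
/-- `d` is positive. -/
theorem d_pos : 0 < M.d := M.b_lt.pos

/-- `a` is positive. -/
theorem a_pos : 0 < M.a := by
  rcases Nat.eq_zero_or_pos M.a with h | h
  · exact absurd (by rw [← M.a_mul_d, h, zero_mul]) (NeZero.ne N)
  · exact h

instance instNeZeroA : NeZero M.a := ⟨M.a_pos.ne'⟩

/-- Constructor. -/
def mk (a b d : ℕ) (h1 : a * d = N) (h2 : b < d) (h3 : Nat.gcd (Nat.gcd a b) d = 1) : Tri N :=
  ⟨(a, b, d), by
    refine Finset.mem_filter.mpr ⟨?_, h1, h2, h3⟩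
    have hN := Nat.pos_of_ne_zero (NeZero.ne N)
    have ha : a ≤ N := Nat.le_of_dvd hN (Dvd.intro d h1)
    have hd : d ≤ N := Nat.le_of_dvd hN (Dvd.intro_left a h1)
    simp only [Finset.mem_product, Finset.mem_range]
    omega⟩

omit [NeZero N] in
/-- A triple is determined by its entries. -/
theorem ext' {M M' : Tri N} (ha : M.a = M'.a) (hb : M.b = M'.b) (hd : M.d = M'.d) : M = M' :=
  Subtype.ext (Prod.ext ha (Prod.ext hb hd))

/-- A triple is determined by `a` and `b`. -/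
theorem ext_a_b {M M' : Tri N} (ha : M.a = M'.a) (hb : M.b = M'.b) : M = M' :=
  ext' ha hb (Nat.eq_of_mul_eq_mul_left M.a_pos (by rw [M.a_mul_d]; rw [ha]; exact M'.a_mul_d.symm))

/-- The matrix `(N, 0, 1)` of `τ ↦ Nτ`. -/
def top : Tri N := mk N 0 1 (mul_one N) one_pos (by simp)

/-- The map `τ ↦ (aτ+b)/d`. -/
def map (τ : ℍ) : ℍ :=
  ⟨((M.a : ℂ) * τ + M.b) / M.d, by
    rw [Complex.div_natCast_im]
    simp only [Complex.add_im, Complex.mul_im, Complex.natCast_re, Complex.natCast_im, zero_mul,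
      add_zero]
    have := τ.im_pos
    have := M.d_pos
    have := M.a_pos
    positivity⟩

/-- The value of `τ ↦ (aτ+b)/d`. -/
theorem coe_map (τ : ℍ) : (M.map τ : ℂ) = ((M.a : ℂ) * τ + M.b) / M.d := rfl

/-- `τ ↦ (aτ+b)/d` tends to `i∞` at `i∞`. -/
theorem tendsto_map : Tendsto M.map atImInfty atImInfty := by
  refine tendsto_comap_iff.mpr ?_
  have h : ∀ τ : ℍ, (M.map τ).im = ((M.a : ℝ) / M.d) * τ.im := fun τ => by
    show (((M.a : ℂ) * τ + M.b) / M.d).im = _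
    rw [Complex.div_natCast_im]
    simp [Complex.add_im, Complex.mul_im]
    ring
  have hpos : (0 : ℝ) < (M.a : ℝ) / M.d := by
    have := M.d_pos
    have := M.a_pos
    positivity
  exact (tendsto_comap.const_mul_atTop hpos).congr fun τ => (h τ).symm

/-- Composition with `τ ↦ (aτ+b)/d` preserves holomorphy. -/
theorem mdiff_comp {f : ℍ → ℂ} (hf : MDiff f) : MDiff fun τ => f (M.map τ) := by
  rw [UpperHalfPlane.mdifferentiable_iff] at hf ⊢
  have h := hf.comp (s := upperHalfPlaneSet) (f := fun z : ℂ => ((M.a : ℂ) * z + M.b) / M.d)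
    (by fun_prop) fun z hz => (M.map ⟨z, hz⟩).im_pos
  refine h.congr fun z hz => ?_
  simp only [Function.comp_apply, ofComplex_apply_of_im_pos hz]
  have hz' : 0 < (((M.a : ℂ) * z + M.b) / M.d).im := (M.map ⟨z, hz⟩).im_pos
  rw [ofComplex_apply_of_im_pos hz']
  rfl

/-- Hermite normal form. -/
theorem exists_factor (p q r s : ℤ) (hdet : p * s - q * r = (N : ℤ))
    (hprim : ∀ l : ℤ, l ∣ p → l ∣ q → l ∣ r → l ∣ s → IsUnit l) :
    ∃ (γ : SL(2, ℤ)) (M : Tri N), (γ.1 0 0) * (M.a : ℤ) = p ∧ (γ.1 1 0) * (M.a : ℤ) = r ∧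
      (γ.1 0 0) * (M.b : ℤ) + (γ.1 0 1) * (M.d : ℤ) = q ∧
      (γ.1 1 0) * (M.b : ℤ) + (γ.1 1 1) * (M.d : ℤ) = s := by
  have hN : (0 : ℤ) < N := by exact_mod_cast Nat.pos_of_ne_zero (NeZero.ne N)
  have hne : p ≠ 0 ∨ r ≠ 0 := by
    by_contra h
    push Not at h
    rw [h.1, h.2] at hdet
    simp only [zero_mul, mul_zero, sub_zero] at hdet
    omega
  set g : ℤ := (Int.gcd p r : ℤ) with hg
  have hg0 : 0 < g := by
    rw [hg]
    exact_mod_cast Nat.pos_of_ne_zero fun h => by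
      rw [Int.gcd_eq_zero_iff] at h
      tauto
  obtain ⟨p', hp'⟩ : g ∣ p := Int.gcd_dvd_left p r
  obtain ⟨r', hr'⟩ : g ∣ r := Int.gcd_dvd_right p r
  have hb := Int.gcd_eq_gcd_ab p r
  set x := Int.gcdA p r
  set y := Int.gcdB p r
  have hxy : x * p' + y * r' = 1 := by
    refine mul_left_cancel₀ hg0.ne' ?_
    rw [mul_one]
    conv_rhs => rw [hg, hb]
    rw [hp', hr']
    ring
  set b₀ := x * q + y * s with hb₀
  set d := -r' * q + p' * s with hd
  have hgd : g * d = N := by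
    rw [hd, ← hdet, hp', hr']; ring
  have hd0 : 0 < d := by nlinarith
  set b' := b₀ % d with hb'
  set t := b₀ / d
  have hbt : b₀ = b' + t * d := by
    rw [hb', mul_comm t]; exact (Int.emod_add_mul_ediv b₀ d).symm
  have hb'0 : 0 ≤ b' := Int.emod_nonneg _ hd0.ne'
  have hb'd : b' < d := Int.emod_lt_of_pos _ hd0
  lift b' to ℕ using hb'0 with bn hbn
  obtain ⟨dn, hdn⟩ : ∃ dn : ℕ, (dn : ℤ) = d := ⟨d.toNat, Int.toNat_of_nonneg hd0.le⟩
  have hq : q = p' * bn + (t * p' - y) * dn := by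
    rw [hdn]
    linear_combination p' * hbt + p' * hb₀.symm - q * hxy + (-y) * hd
  have hs : s = r' * bn + (x + t * r') * dn := by
    rw [hdn]
    linear_combination r' * hbt + r' * hb₀.symm - s * hxy + x * hd
  refine ⟨⟨!![p', t * p' - y; r', x + t * r'], by rw [Matrix.det_fin_two_of]; linear_combination hxy⟩,
    mk (Int.gcd p r) bn dn ?_ ?_ ?_, ?_, ?_, ?_, ?_⟩
  · have : (((Int.gcd p r) * dn : ℕ) : ℤ) = N := by push_cast; rw [hdn, ← hg, hgd]
    exact_mod_cast this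
  · have : (bn : ℤ) < dn := by rw [hdn]; exact hb'd
    exact_mod_cast this
  · set l := Nat.gcd (Nat.gcd (Int.gcd p r) bn) dn with hl
    have h1 : (l : ℤ) ∣ g := by
      rw [hg]; exact_mod_cast (Nat.gcd_dvd_left _ _).trans (Nat.gcd_dvd_left _ _)
    have h2 : (l : ℤ) ∣ bn := by exact_mod_cast (Nat.gcd_dvd_left _ _).trans (Nat.gcd_dvd_right _ _)
    have h3 : (l : ℤ) ∣ dn := by exact_mod_cast Nat.gcd_dvd_right _ _
    have := hprim l (hp' ▸ h1.mul_right _) (hq ▸ dvd_add (h2.mul_left _) (h3.mul_left _))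
      (hr' ▸ h1.mul_right _) (hs ▸ dvd_add (h2.mul_left _) (h3.mul_left _))
    simpa [Int.isUnit_iff_natAbs_eq] using this
  · show p' * (g : ℤ) = p
    rw [hp', mul_comm]
  · show r' * (g : ℤ) = r
    rw [hr', mul_comm]
  · exact hq.symm
  · exact hs.symm

/-- `M γ = γ' M'` -/
theorem exists_smul (γ : SL(2, ℤ)) :
    ∃ (γ' : SL(2, ℤ)) (M' : Tri N),
      (γ'.1 0 0) * (M'.a : ℤ) = (M.a : ℤ) * γ.1 0 0 + (M.b : ℤ) * γ.1 1 0 ∧
      (γ'.1 1 0) * (M'.a : ℤ) = (M.d : ℤ) * γ.1 1 0 ∧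
      (γ'.1 0 0) * (M'.b : ℤ) + (γ'.1 0 1) * (M'.d : ℤ) =
        (M.a : ℤ) * γ.1 0 1 + (M.b : ℤ) * γ.1 1 1 ∧
      (γ'.1 1 0) * (M'.b : ℤ) + (γ'.1 1 1) * (M'.d : ℤ) = (M.d : ℤ) * γ.1 1 1 := by
  have hdet : γ.1 0 0 * γ.1 1 1 - γ.1 0 1 * γ.1 1 0 = 1 := by
    rw [← Matrix.det_fin_two]; exact γ.2
  have hN : (M.a : ℤ) * M.d = N := by exact_mod_cast M.a_mul_d
  refine exists_factor _ _ _ _ ?_ ?_
  · linear_combination ((M.a : ℤ) * M.d) * hdet + hN
  · intro l h1 h2 h3 h4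
    have ha : l ∣ (M.a : ℤ) := by
      refine (dvd_sub (h1.mul_left (γ.1 1 1)) (h2.mul_left (γ.1 1 0))).trans (dvd_of_eq ?_)
      linear_combination ((M.a : ℤ)) * hdet
    have hb : l ∣ (M.b : ℤ) := by
      refine (dvd_sub (h2.mul_left (γ.1 0 0)) (h1.mul_left (γ.1 0 1))).trans (dvd_of_eq ?_)
      linear_combination ((M.b : ℤ)) * hdet
    have hd : l ∣ (M.d : ℤ) := by
      refine (dvd_sub (h4.mul_left (γ.1 0 0)) (h3.mul_left (γ.1 0 1))).trans (dvd_of_eq ?_)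
      linear_combination ((M.d : ℤ)) * hdet
    rw [Int.isUnit_iff_natAbs_eq, ← Nat.dvd_one, ← M.primitive]
    exact Nat.dvd_gcd (Nat.dvd_gcd (Int.natAbs_dvd_natAbs.mpr ha)
      (Int.natAbs_dvd_natAbs.mpr hb)) (Int.natAbs_dvd_natAbs.mpr hd)

/-- The image of `M` under `γ`. -/
def act (γ : SL(2, ℤ)) (M : Tri N) : Tri N := (M.exists_smul γ).choose_spec.choose

/-- `γ'` with `M γ = γ' (act γ M)`. -/
def actMatrix (γ : SL(2, ℤ)) (M : Tri N) : SL(2, ℤ) := (M.exists_smul γ).choose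

/-- `M (γτ) = γ' (M'τ)` for `M' = act γ M`, with the identity of automorphy factors. -/
theorem map_smul (γ : SL(2, ℤ)) (τ : ℍ) :
    M.map (γ • τ) = actMatrix γ M • (act γ M).map τ ∧
      (M.d : ℂ) * ((γ.1 1 0 : ℂ) * τ + γ.1 1 1) =
        ((actMatrix γ M).1 1 0 * ((act γ M).map τ : ℂ) + (actMatrix γ M).1 1 1) * (act γ M).d := by
  obtain ⟨h1, h2, h3, h4⟩ := (M.exists_smul γ).choose_spec.choose_spec
  change (actMatrix γ M).1 0 0 * ((act γ M).a : ℤ) = _ at h1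
  change (actMatrix γ M).1 1 0 * ((act γ M).a : ℤ) = _ at h2
  change (actMatrix γ M).1 0 0 * ((act γ M).b : ℤ) +
    (actMatrix γ M).1 0 1 * ((act γ M).d : ℤ) = _ at h3
  change (actMatrix γ M).1 1 0 * ((act γ M).b : ℤ) +
    (actMatrix γ M).1 1 1 * ((act γ M).d : ℤ) = _ at h4
  set g := actMatrix γ M
  set M' := act γ M
  have hd : (M.d : ℂ) ≠ 0 := by exact_mod_cast M.d_pos.ne'
  have hd' : (M'.d : ℂ) ≠ 0 := by exact_mod_cast M'.d_pos.ne'
  have c1 : (g.1 0 0 : ℂ) * M'.a = (M.a : ℂ) * γ.1 0 0 + (M.b : ℂ) * γ.1 1 0 := by exact_mod_cast h1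
  have c2 : (g.1 1 0 : ℂ) * M'.a = (M.d : ℂ) * γ.1 1 0 := by exact_mod_cast h2
  have c3 : (g.1 0 0 : ℂ) * M'.b + (g.1 0 1 : ℂ) * M'.d =
      (M.a : ℂ) * γ.1 0 1 + (M.b : ℂ) * γ.1 1 1 := by exact_mod_cast h3
  have c4 : (g.1 1 0 : ℂ) * M'.b + (g.1 1 1 : ℂ) * M'.d = (M.d : ℂ) * γ.1 1 1 := by exact_mod_cast h4
  have hden : (M.d : ℂ) * ((γ.1 1 0 : ℂ) * τ + γ.1 1 1) =
      ((g.1 1 0 : ℂ) * (M'.map τ : ℂ) + g.1 1 1) * M'.d := by
    rw [coe_map]; field_simp; linear_combination -(τ : ℂ) * c2 - c4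
  refine ⟨UpperHalfPlane.ext ?_, hden⟩
  have hne : (γ.1 1 0 : ℂ) * τ + γ.1 1 1 ≠ 0 := by
    intro h
    refine denom_ne_zero (γ : GL (Fin 2) ℝ) τ ?_
    simp [denom, h]
  have hne' : (g.1 1 0 : ℂ) * (M'.map τ : ℂ) + g.1 1 1 ≠ 0 := by
    intro h; rw [h, zero_mul] at hden; exact mul_ne_zero hd hne hden
  rw [coe_specialLinearGroup_apply, coe_map, coe_specialLinearGroup_apply]
  simp only [algebraMap_int_eq, eq_intCast, Complex.ofReal_intCast]
  rw [eq_div_iff hne']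
  have hnum : ((g.1 0 0 : ℂ) * (M'.map τ : ℂ) + g.1 0 1) * M'.d =
      (M.a : ℂ) * ((γ.1 0 0 : ℂ) * τ + γ.1 0 1) + (M.b : ℂ) * ((γ.1 1 0 : ℂ) * τ + γ.1 1 1) := by
    rw [coe_map]; field_simp; linear_combination (τ : ℂ) * c1 + c3
  refine mul_right_cancel₀ hd' ?_
  rw [hnum, mul_assoc, ← hden]
  have hne2 : (τ : ℂ) * (γ.1 1 0 : ℂ) + γ.1 1 1 ≠ 0 := by rwa [mul_comm]
  field_simp [hne2]

end Tri

end Fermat.Agent.ModularFunctionField
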