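import Mathlib.Data.Nat.Squarefree
import Mathlib.Algebra.BigOperators.Intervals
import Fermat.Agent.ModularFunctionField.Triples

/-!
# There are `ψ(N)` primitive triples
-/

set_option autoImplicit false

noncomputable section

open Finset ModularCurve

namespace Fermat.Agent.ModularFunctionField

/-- The squares dividing `N`, by their roots. -/
def squareRoots (N : ℕ) : Finset ℕ := N.divisors.filter fun g => g * g ∣ N

theorem mem_squareRoots {N g : ℕ} (hN : N ≠ 0) : g ∈ squareRoots N ↔ g * g ∣ N := by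
  simp only [squareRoots, Finset.mem_filter, Nat.mem_divisors]
  exact ⟨fun h => h.2, fun h => ⟨⟨(Dvd.intro g rfl).trans h, hN⟩, h⟩⟩

theorem eq_of_sq_mul_squarefree {g h s t : ℕ} (hg : g ≠ 0) (hh : h ≠ 0) (hs : Squarefree s)
    (ht : Squarefree t) (he : g * g * s = h * h * t) : g = h := by
  refine Nat.eq_of_factorization_eq hg hh fun p => ?_
  have hs0 := hs.ne_zero
  have ht0 := ht.ne_zero
  have := congrArg (fun n => n.factorization p) he
  simp only [Nat.factorization_mul (mul_ne_zero hg hg) hs0, Nat.factorization_mul hg hg,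
    Nat.factorization_mul (mul_ne_zero hh hh) ht0, Nat.factorization_mul hh hh,
    Finsupp.add_apply] at this
  have := hs.natFactorization_le_one p
  have := ht.natFactorization_le_one p
  omega

/-- `∑_{g² ∣ N} ψ(N/g²) = σ(N)`. -/
theorem sum_squareRoots_dedekindPsi {N : ℕ} (hN : N ≠ 0) :
    ∑ g ∈ squareRoots N, dedekindPsi (N / (g * g)) = ∑ d ∈ N.divisors, d := by
  rw [← Nat.sum_div_divisors N fun d => d]
  simp only [dedekindPsi]
  rw [Finset.sum_sigma']
  refine Finset.sum_bij (fun x _ => x.1 * x.1 * x.2) ?_ ?_ ?_ ?_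
  · rintro ⟨g, s⟩ hx
    simp only [Finset.mem_sigma, mem_squareRoots hN, Finset.mem_filter, Nat.mem_divisors] at hx ⊢
    exact ⟨Nat.mul_dvd_of_dvd_div hx.1 hx.2.1.1, hN⟩
  · rintro ⟨g, s⟩ hx ⟨h, t⟩ hy he
    simp only [Finset.mem_sigma, mem_squareRoots hN, Finset.mem_filter, Nat.mem_divisors] at hx hy
    dsimp only at he
    have hg : g ≠ 0 := by rintro rfl; exact hN (Nat.eq_zero_of_zero_dvd (by simpa using hx.1))
    have hh : h ≠ 0 := by rintro rfl; exact hN (Nat.eq_zero_of_zero_dvd (by simpa using hy.1))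
    obtain rfl := eq_of_sq_mul_squarefree hg hh hx.2.2 hy.2.2 he
    rw [Nat.eq_of_mul_eq_mul_left (Nat.pos_of_ne_zero (mul_ne_zero hg hg)) he]
  · intro d hd
    obtain ⟨hd, -⟩ := Nat.mem_divisors.mp hd
    obtain ⟨s, g, -, hg, he, hs⟩ :=
      Nat.sq_mul_squarefree_of_pos (Nat.pos_of_ne_zero (ne_zero_of_dvd_ne_zero hN hd))
    rw [sq] at he
    refine ⟨⟨g, s⟩, ?_, he⟩
    simp only [Finset.mem_sigma, mem_squareRoots hN, Finset.mem_filter, Nat.mem_divisors]
    have h1 : g * g ∣ N := (Dvd.intro s he).trans hd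
    exact ⟨h1, ⟨Nat.dvd_div_of_mul_dvd (he ▸ hd), Nat.div_ne_zero_iff_of_dvd h1 |>.mpr
      ⟨hN, mul_ne_zero hg.ne' hg.ne'⟩⟩, hs⟩
  · rintro ⟨g, s⟩ -
    exact Nat.div_div_eq_div_mul N (g * g) s

/-- All Hermite triples of determinant `N`, primitive or not. -/
def allTriples (N : ℕ) : Finset ((_ : ℕ) × ℕ) := N.divisors.sigma fun d => Finset.range d

theorem card_allTriples (N : ℕ) : (allTriples N).card = ∑ d ∈ N.divisors, d := by
  simp [allTriples]

/-- A triple of determinant `N` is `g` times a primitive triple of determinant `N/g²`. -/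
theorem sum_squareRoots_card {N : ℕ} (hN : N ≠ 0) :
    ∑ g ∈ squareRoots N, (triples (N / (g * g))).card = (allTriples N).card := by
  rw [← Finset.card_sigma]
  refine Finset.card_bij (fun x _ => (⟨x.1 * x.2.2.2, x.1 * x.2.2.1⟩ : (_ : ℕ) × ℕ)) ?_ ?_ ?_
  · rintro ⟨g, a, b, d⟩ hx
    simp only [Finset.mem_sigma, mem_squareRoots hN, triples, Finset.mem_filter] at hx
    simp only [allTriples, Finset.mem_sigma, Nat.mem_divisors, Finset.mem_range]
    have he : g * g * (a * d) = N := by rw [hx.2.2.1, Nat.mul_div_cancel' hx.1]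
    have hg : g ≠ 0 := by rintro rfl; simp at he; exact hN he.symm
    refine ⟨⟨Dvd.intro (g * a) ?_, hN⟩, Nat.mul_lt_mul_of_pos_left hx.2.2.2.1 (Nat.pos_of_ne_zero hg)⟩
    rw [← he]; ring
  · rintro ⟨g, a, b, d⟩ hx ⟨h, a', b', d'⟩ hy he
    simp only [Finset.mem_sigma, mem_squareRoots hN, triples, Finset.mem_filter] at hx hy
    simp only [Sigma.mk.injEq, heq_eq_eq] at he
    obtain ⟨hd, hb⟩ := he
    have e1 : g * g * (a * d) = N := by rw [hx.2.2.1, Nat.mul_div_cancel' hx.1]
    have e2 : h * h * (a' * d') = N := by rw [hy.2.2.1, Nat.mul_div_cancel' hy.1]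
    have hd0 : 0 < g * d := by
      rcases Nat.eq_zero_or_pos (g * d) with h0 | h0
      · exfalso; apply hN; rw [← e1, show g * g * (a * d) = g * a * (g * d) by ring, h0, mul_zero]
      · exact h0
    have ha : g * a = h * a' := by
      refine Nat.eq_of_mul_eq_mul_right hd0 ?_
      calc g * a * (g * d) = g * g * (a * d) := by ring
        _ = h * a' * (h * d') := by rw [e1, ← e2]; ring
        _ = h * a' * (g * d) := by rw [hd]
    have hgh : g = h := by
      have k1 : Nat.gcd (Nat.gcd (g * a) (g * b)) (g * d) = g := by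
        rw [Nat.gcd_mul_left, Nat.gcd_mul_left, hx.2.2.2.2, mul_one]
      have k2 : Nat.gcd (Nat.gcd (h * a') (h * b')) (h * d') = h := by
        rw [Nat.gcd_mul_left, Nat.gcd_mul_left, hy.2.2.2.2, mul_one]
      rw [← k1, ha, hb, hd, k2]
    subst hgh
    have hg : 0 < g := Nat.pos_of_mul_pos_right hd0
    rw [Nat.eq_of_mul_eq_mul_left hg ha, Nat.eq_of_mul_eq_mul_left hg hb,
      Nat.eq_of_mul_eq_mul_left hg hd]
  · rintro ⟨D, B⟩ hx
    simp only [allTriples, Finset.mem_sigma, Nat.mem_divisors, Finset.mem_range] at hx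
    obtain ⟨A, hA⟩ := hx.1.1
    set g := Nat.gcd (Nat.gcd A B) D with hg
    have hg0 : 0 < g := Nat.gcd_pos_of_pos_right _ hx.2.pos
    obtain ⟨a, ha⟩ : g ∣ A := (Nat.gcd_dvd_left _ _).trans (Nat.gcd_dvd_left _ _)
    obtain ⟨b, hb⟩ : g ∣ B := (Nat.gcd_dvd_left _ _).trans (Nat.gcd_dvd_right _ _)
    obtain ⟨d, hd⟩ : g ∣ D := Nat.gcd_dvd_right _ _
    have hN' : N = g * g * (a * d) := by rw [hA, ha, hd]; ring
    have hdiv : N / (g * g) = a * d := by
      rw [hN', Nat.mul_div_cancel_left _ (Nat.mul_pos hg0 hg0)]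
    have hbd : b < d := Nat.lt_of_mul_lt_mul_left (a := g) (by rw [← hb, ← hd]; exact hx.2)
    have hgcd : Nat.gcd (Nat.gcd a b) d = 1 := by
      have := hg.symm
      rw [ha, hb, hd, Nat.gcd_mul_left, Nat.gcd_mul_left] at this
      exact (Nat.mul_eq_left hg0.ne').mp this
    refine ⟨⟨g, a, b, d⟩, ?_, by simp [← hb, ← hd]⟩
    simp only [Finset.mem_sigma, mem_squareRoots hN, triples, Finset.mem_filter,
      Finset.mem_product, Finset.mem_range, hdiv]
    have had : a * d ≠ 0 := fun h => hN (by rw [hN', h, mul_zero])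
    have := Nat.le_mul_of_pos_right a (Nat.pos_of_ne_zero (right_ne_zero_of_mul had))
    have := Nat.le_mul_of_pos_left d (Nat.pos_of_ne_zero (left_ne_zero_of_mul had))
    exact ⟨Dvd.intro _ hN'.symm, ⟨by omega, by omega, by omega⟩, trivial, hbd, hgcd⟩

/-- There are `ψ(N)` primitive triples of determinant `N`. -/
theorem card_triples (N : ℕ) [NeZero N] : (triples N).card = dedekindPsi N := by
  have hN : N ≠ 0 := NeZero.ne N
  clear ‹NeZero N›
  induction N using Nat.strong_induction_on with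
  | _ n ih =>
    have hn : n ≠ 0 := hN
    have h := (sum_squareRoots_card hn).trans
      ((card_allTriples n).trans (sum_squareRoots_dedekindPsi hn).symm)
    have h1 : 1 ∈ squareRoots n := (mem_squareRoots hn).mpr (one_dvd n)
    rw [← Finset.sum_erase_add _ _ h1, ← Finset.sum_erase_add _ _ h1, one_mul, Nat.div_one] at h
    have : ∀ g ∈ (squareRoots n).erase 1,
        (triples (n / (g * g))).card = dedekindPsi (n / (g * g)) := by
      intro g hg
      obtain ⟨hg1, hg2⟩ := Finset.mem_erase.mp hg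
      rw [mem_squareRoots hn] at hg2
      have hg0 : g ≠ 0 := by rintro rfl; exact hn (Nat.eq_zero_of_zero_dvd (by simpa using hg2))
      exact ih _ (Nat.div_lt_self (Nat.pos_of_ne_zero hn) (by nlinarith [show 2 ≤ g by omega]))
        (Nat.div_ne_zero_iff_of_dvd hg2 |>.mpr ⟨hn, mul_ne_zero hg0 hg0⟩)
    rw [Finset.sum_congr rfl this] at h
    exact Nat.add_left_cancel h

/-- `Tri N` has `ψ(N)` elements. -/
theorem card_tri (N : ℕ) [NeZero N] : Fintype.card (Tri N) = dedekindPsi N := by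
  rw [Fintype.card_coe, card_triples]

end Fermat.Agent.ModularFunctionField
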