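import Fermat.Agent.ModularFunctionField.FamilyPoly
import Fermat.Agent.ModularFunctionField.Count

/-!
# The modular polynomial `Φ_N` over `ℤ`
-/

set_option autoImplicit false

noncomputable section

open Filter Complex ModularCurve
open UpperHalfPlane hiding I
open scoped Topology MatrixGroups Manifold Polynomial

namespace Fermat.Agent.ModularFunctionField

variable {N : ℕ} [NeZero N]

/-- The action of `ζ ↦ ζᵏ` on triples. -/
def Tri.scale (k : ℕ) (hk : k.Coprime N) (M : Tri N) : Tri N :=
  Tri.mk M.a (k * M.b % M.d) M.d M.a_mul_d (Nat.mod_lt _ M.d_pos) (by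
    have e : Nat.gcd M.d (k * M.b % M.d) = Nat.gcd M.d (k * M.b) := by
      rw [Nat.gcd_comm]; exact (Nat.gcd_rec _ _).symm
    rw [Nat.gcd_assoc, Nat.gcd_comm _ M.d, e]
    have hkd : Nat.Coprime k M.d := hk.coprime_dvd_right (Dvd.intro_left M.a M.a_mul_d)
    rw [Nat.Coprime.gcd_mul_left_cancel_right M.b hkd]
    calc Nat.gcd M.a (Nat.gcd M.d M.b) = Nat.gcd (Nat.gcd M.a M.b) M.d := by
          rw [Nat.gcd_comm M.d, Nat.gcd_assoc]
      _ = 1 := M.primitive)

/-- `ζ ↦ ζᵏ` permutes the series of `j ((aτ+b)/d)` as it permutes the triples. -/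
theorem jRoot_scale {R : Type*} [CommRing R] {u : Rˣ} (hu : u ^ N = 1) {k : ℕ} (hk : k.Coprime N)
    (M : Tri N) : jRoot (u ^ k) 1 M = jRoot u 1 (M.scale k hk) := by
  show subst ((u ^ k) ^ (M.b * M.a * 1)) (M.a * M.a * 1) (jqModC R) =
    subst (u ^ ((k * M.b % M.d) * M.a * 1)) (M.a * M.a * 1) (jqModC R)
  refine subst_congr ?_ rfl _
  rw [← pow_mul]
  have hN : M.d * M.a = N := by rw [mul_comm, M.a_mul_d]
  conv_lhs => rw [show k * (M.b * M.a * 1) = (k * M.b) * M.a by ring,
    ← Nat.mod_add_div (k * M.b) M.d, add_mul, pow_add,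
    show M.d * (k * M.b / M.d) * M.a = (M.d * M.a) * (k * M.b / M.d) by ring, hN, pow_mul _ N, hu,
    one_pow, mul_one]
  rw [mul_one]

instance instIsDomainCyc : IsDomain (Cyc N) := cycC_injective.isDomain

variable (N)

/-- `∏ (X - j ((aτ+b)/d))` over the primitive triples of determinant `N` has coefficients
in `ℤ[j]`. -/
theorem exists_modularPoly :
    ∃ Φ : Polynomial ℤ[X], Φ.Monic ∧ Φ.natDegree = dedekindPsi N ∧
      Φ.map ((evalJT (Cyc N) N).comp (Polynomial.mapRingHom (Int.castRingHom (Cyc N)))) =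
        ∏ M : Tri N, (Polynomial.X - Polynomial.C (jRoot (cycUnit N) 1 M)) ∧
      ∀ τ, Φ.map ((Polynomial.evalRingHom (jFun τ)).comp
          (Polynomial.mapRingHom (Int.castRingHom ℂ))) =
        ∏ M : Tri N, (Polynomial.X - Polynomial.C (jFun (M.map τ))) := by
  classical
  obtain ⟨P, hmon, hdeg, hmap, han⟩ := exists_familyPoly (cycC N) cycC_injective
    (fun M τ => jFun (M.map τ)) (fun M : Tri N => jRoot (cycUnit N) 1 M)
    (fun M => M.mdiff_comp mdiff_jFun)
    (fun M => by rw [coeffMap_jRoot, map_cycUnit_cycC]; exact hasExp_jRoot 1 (mul_one N) M)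
    (fun γ M τ => jFun_map_smul γ M τ)
  have hconj : ∀ f : Cyc N →+* ℂ, P.map ((evalJT ℂ N).comp (Polynomial.mapRingHom f)) =
      ∏ M : Tri N,
        (Polynomial.X - Polynomial.C (jRoot (Units.map (f : Cyc N →* ℂ) (cycUnit N)) 1 M)) := by
    intro f
    have := congrArg (Polynomial.map (coeffMap f)) hmap
    rw [Polynomial.map_map, show (coeffMap f).comp (evalJT (Cyc N) N) =
      (evalJT ℂ N).comp (Polynomial.mapRingHom f) from RingHom.ext (coeffMap_evalJT f N)] at this
    simpa [Polynomial.map_prod, coeffMap_jRoot] using this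
  have hfix : ∀ (i : ℕ) (k : ℕ) (hk : k.Coprime N),
      (P.coeff i).map (cycConj hk) = (P.coeff i).map (cycC N) := by
    intro i k hk
    refine evalJT_injective N ?_
    have h1 := hconj (cycConj hk)
    have h2 := hconj (cycC N)
    have hu : rootUnit N ^ N = 1 := (isPrimitiveRoot_rootUnit N).pow_eq_one
    rw [map_cycUnit_cycConj] at h1
    rw [map_cycUnit_cycC] at h2
    have hinj : Function.Injective fun M : Tri N => M.scale k hk := by
      intro M M' h
      refine jRoot_injective (R := ℂ) ((isPrimitiveRoot_rootUnit N).pow_of_coprime k hk) 1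
        (mul_one N) ?_
      simp only at h
      rw [jRoot_scale hu hk, jRoot_scale hu hk, h]
    have hprod : ∏ M : Tri N, (Polynomial.X - Polynomial.C (jRoot (rootUnit N ^ k) 1 M)) =
        ∏ M : Tri N, (Polynomial.X - Polynomial.C (jRoot (rootUnit N) 1 M)) := by
      simp only [jRoot_scale hu hk]
      exact Equiv.prod_comp (Equiv.ofBijective _ (Finite.injective_iff_bijective.mp hinj))
        fun M => Polynomial.X - Polynomial.C (jRoot (rootUnit N) 1 M)
    have h3 := congrArg (fun Q : Polynomial (LaurentSeries ℂ) => Q.coeff i)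
      (h1.trans (hprod.trans h2.symm))
    simpa [Polynomial.coeff_map] using h3
  have hrange : ∀ i, P.coeff i ∈ (Polynomial.mapRingHom (Int.castRingHom (Cyc N))).range := by
    intro i
    have hint : ∀ j, ∃ n : ℤ, (P.coeff i).coeff j = (n : Cyc N) := fun j =>
      exists_int_of_forall_conj _ fun k hk => by
        rw [← Polynomial.coeff_map, hfix i k hk, Polynomial.coeff_map]
    have : P.coeff i ∈ Polynomial.lifts (Int.castRingHom (Cyc N)) := by
      rw [Polynomial.lifts_iff_coeff_lifts]
      exact fun j => ⟨(hint j).choose, (hint j).choose_spec.symm⟩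
    obtain ⟨q, hq⟩ := this
    exact ⟨q, hq⟩
  have hlift : P ∈ Polynomial.lifts (Polynomial.mapRingHom (Int.castRingHom (Cyc N))) := by
    rw [Polynomial.lifts_iff_coeff_lifts]
    exact fun i => hrange i
  obtain ⟨Φ, hΦ, hΦdeg, hΦmon⟩ := Polynomial.lifts_and_natDegree_eq_and_monic hlift hmon
  refine ⟨Φ, hΦmon, ?_, ?_, fun τ => ?_⟩
  · rw [hΦdeg, hdeg, card_tri]
  · rw [← Polynomial.map_map, hΦ, hmap]
  · rw [← han τ, ← hΦ, Polynomial.map_map]
    congr 1
    rw [RingHom.comp_assoc, Polynomial.mapRingHom_comp,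
      Subsingleton.elim ((cycC N).comp (Int.castRingHom (Cyc N))) (Int.castRingHom ℂ)]

/-- The modular polynomial `Φ_N ∈ ℤ[Y][X]`. -/
def modularPoly : Polynomial ℤ[X] := (exists_modularPoly N).choose

/-- `Φ_N` is monic in `X`. -/
theorem modularPoly_monic : (modularPoly N).Monic := (exists_modularPoly N).choose_spec.1

/-- `Φ_N` has degree `ψ(N)` in `X`. -/
theorem modularPoly_natDegree : (modularPoly N).natDegree = dedekindPsi N :=
  (exists_modularPoly N).choose_spec.2.1

/-- `Φ_N(j τ, X) = ∏ (X - j ((aτ+b)/d))`. -/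
theorem modularPoly_map_jFun (τ : ℍ) :
    (modularPoly N).map ((Polynomial.evalRingHom (jFun τ)).comp
        (Polynomial.mapRingHom (Int.castRingHom ℂ))) =
      ∏ M : Tri N, (Polynomial.X - Polynomial.C (jFun (M.map τ))) :=
  (exists_modularPoly N).choose_spec.2.2.2 τ

/-- `Φ_N` evaluated at `j` in `R((q_N))`. -/
def evalPhi (R : Type*) [CommRing R] : ℤ[X] →+* LaurentSeries R :=
  (evalJT R N).comp (Polynomial.mapRingHom (Int.castRingHom R))

variable {N}

theorem coeffMap_comp_evalPhi {R S : Type*} [CommRing R] [CommRing S] (f : R →+* S) :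
    (coeffMap f).comp (evalPhi N R) = evalPhi N S := by
  refine RingHom.ext fun p => ?_
  rw [RingHom.comp_apply, evalPhi, RingHom.comp_apply, coeffMap_evalJT, evalPhi, RingHom.comp_apply,
    Polynomial.coe_mapRingHom, Polynomial.coe_mapRingHom, Polynomial.map_map,
    Subsingleton.elim (f.comp (Int.castRingHom R)) (Int.castRingHom S)]

/-- `Φ_N(j, X) = ∏ (X - j ((aτ+b)/d))` as series over any domain containing a primitive root. -/
theorem modularPoly_map_evalPhi {R : Type*} [CommRing R] [IsDomain R] {u : Rˣ}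
    (hu : IsPrimitiveRoot u N) :
    (modularPoly N).map (evalPhi N R) =
      ∏ M : Tri N, (Polynomial.X - Polynomial.C (jRoot u 1 M)) := by
  have hu' : IsPrimitiveRoot (u : R) N := IsPrimitiveRoot.coe_units_iff.mpr hu
  have h0 : (modularPoly N).map (evalPhi N (Cyc N)) =
      ∏ M : Tri N, (Polynomial.X - Polynomial.C (jRoot (cycUnit N) 1 M)) :=
    (exists_modularPoly N).choose_spec.2.2.1
  have h := congrArg (Polynomial.map (coeffMap (cycHom (u : R) hu'))) h0
  rw [Polynomial.map_map, coeffMap_comp_evalPhi] at h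
  simpa [Polynomial.map_prod, coeffMap_jRoot, map_cycUnit] using h

/-- The modular polynomial data of every level. -/
def modularPolynomialData (N : ℕ) [NeZero N] : ModularPolynomialData N where
  Φ := modularPoly N
  monic := modularPoly_monic N
  natDegree_eq := modularPoly_natDegree N
  eval_eq_zero := by
    apply qExpand_injective N
    apply coeffMap_injective (algebraMap ℚ ℂ) (algebraMap ℚ ℂ).injective
    rw [map_zero, map_zero, ← RingHom.comp_apply, Polynomial.hom_eval₂]
    have h1 : ((coeffMap (algebraMap ℚ ℂ)).comp (qExpand ℚ N)).comp evalAtJ = evalPhi N ℂ := by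
      refine Polynomial.ringHom_ext' (Subsingleton.elim _ _) ?_
      rw [RingHom.comp_apply, evalAtJ_X, RingHom.comp_apply, coeffMap_qExpand', evalPhi,
        RingHom.comp_apply, Polynomial.coe_mapRingHom, Polynomial.map_X, evalJT_X, jT,
        ← jqModC_rat, coeffMap_jqC]
    have h2 : ((coeffMap (algebraMap ℚ ℂ)).comp (qExpand ℚ N)) (jqN N) =
        jRoot (rootUnit N) 1 (Tri.top : Tri N) := by
      rw [RingHom.comp_apply, jqN, coeffMap_qExpand', coeffMap_qExpand', ← jqModC_rat, coeffMap_jqC,
        qExpand_qExpand, jRoot_top]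
      exact qExpand_congr (mul_one (N * N)).symm _
    rw [h1, h2, ← Polynomial.eval_map, modularPoly_map_evalPhi (isPrimitiveRoot_rootUnit N),
      Polynomial.eval_prod]
    exact Finset.prod_eq_zero (Finset.mem_univ Tri.top) (by simp)

end Fermat.Agent.ModularFunctionField
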