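import Fermat.Agent.ModularFunctionField.Orbit
import Fermat.Prelude.Def_ModularCurve_X0ModL

/-!
# Degree and generation over a field without roots of unity

For every field `K` in which `N` is invertible: `j(q^N)` has minimal polynomial `Φ_N` of degree
`ψ(N)` over `K(j)` inside `K((q))`, and it generates `K(j(q^d) : d ∣ N)`.
-/

set_option autoImplicit false

noncomputable section

open ModularCurve
open scoped Polynomial IntermediateField

namespace Fermat.Agent.ModularFunctionField

variable (K : Type*) [Field K] (N : ℕ) [NeZero N]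

/-- `K(j)` inside `K((q))`. -/
abbrev jField : IntermediateField K (LaurentSeries K) := K⟮jqModC K⟯

/-- `ℤ[Y] → K(j)`. -/
def evalJField : ℤ[X] →+* jField K :=
  Polynomial.eval₂RingHom (Int.castRingHom _) (IntermediateField.AdjoinSimple.gen K (jqModC K))

/-- `Φ_N(j, X)` over `K(j)`. -/
def phiJ : Polynomial (jField K) := (modularPoly N).map (evalJField K)

theorem phiJ_monic : (phiJ K N).Monic := (modularPoly_monic N).map _

theorem phiJ_natDegree : (phiJ K N).natDegree = dedekindPsi N := by
  rw [phiJ, (modularPoly_monic N).natDegree_map, modularPoly_natDegree]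

/-- The change of coefficients and of variable `K((q)) → L((q_N))`. -/
def lvlHom (L : Type*) [Field L] [Algebra K L] : LaurentSeries K →+* LaurentSeries L :=
  (qExpand L N).comp (coeffMap (algebraMap K L))

section

variable (L : Type*) [Field L] [Algebra K L]

theorem lvlHom_injective : Function.Injective (lvlHom K N L) :=
  (qExpand_injective N).comp (coeffMap_injective _ (algebraMap K L).injective)

theorem lvlHom_jq : lvlHom K N L (jqModC K) = jT L N := by
  rw [lvlHom, RingHom.comp_apply, coeffMap_jqC, jT]

theorem lvlHom_C (c : K) : lvlHom K N L (HahnSeries.C c) = HahnSeries.C (algebraMap K L c) := by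
  rw [lvlHom, RingHom.comp_apply, coeffMap_C, qExpand_C]

theorem lvlHom_jqd {u : Lˣ} {m k : ℕ} [NeZero m] [NeZero k] (hmk : m * k = N) :
    lvlHom K N L (qExpand K m (jqModC K)) = jRoot u k (Tri.top : Tri m) := by
  rw [lvlHom, RingHom.comp_apply, coeffMap_qExpand', coeffMap_jqC, qExpand_qExpand, jRoot_top]
  exact qExpand_congr (by rw [← hmk]; ring) _

theorem lvlHom_jqN {u : Lˣ} : lvlHom K N L (jqNModC K N) = jRoot u 1 (Tri.top : Tri N) :=
  lvlHom_jqd K N L (mul_one N)

theorem lvlHom_mem_baseField {x : LaurentSeries K} (hx : x ∈ jField K) :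
    lvlHom K N L x ∈ baseField L N := by
  induction hx using IntermediateField.adjoin_induction with
  | mem x hx =>
    rw [Set.mem_singleton_iff.mp hx, lvlHom_jq]
    exact jT_mem_baseField L N
  | algebraMap c =>
    rw [algebraMap_laurentSeries_eq_single, show HahnSeries.single (0 : ℤ) c = HahnSeries.C c from rfl,
      lvlHom_C]
    exact C_mem_baseField L N _
  | add x y hx hy ihx ihy => rw [map_add]; exact add_mem ihx ihy
  | inv x hx ihx => rw [map_inv₀]; exact inv_mem ihx
  | mul x y hx hy ihx ihy => rw [map_mul]; exact mul_mem ihx ihy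

/-- `K(j) → L(j)`. -/
def baseHom : jField K →+* baseField L N :=
  ((lvlHom K N L).comp (algebraMap (jField K) (LaurentSeries K))).codRestrict _
    fun x => lvlHom_mem_baseField K N L x.2

theorem phiJ_map_baseHom : (phiJ K N).map (baseHom K N L) = phiBase L N N := by
  rw [phiJ, Polynomial.map_map, phiBase]
  congr 1
  refine Polynomial.ringHom_ext' (Subsingleton.elim _ _) (Subtype.ext ?_)
  simp only [RingHom.comp_apply, evalJField, evalBase, Polynomial.coe_eval₂RingHom,
    Polynomial.eval₂_X]
  exact lvlHom_jq K N L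

theorem lvlHom_eval_phiJ (x : LaurentSeries K) :
    lvlHom K N L (Polynomial.aeval x (phiJ K N)) =
      Polynomial.aeval (lvlHom K N L x) (phiBase L N N) := by
  rw [Polynomial.aeval_def, Polynomial.aeval_def, Polynomial.hom_eval₂, ← phiJ_map_baseHom K,
    Polynomial.eval₂_map]
  rfl

end

variable {K N}

/-- An algebraic closure of `K` contains a primitive `N`-th root of unity. -/
theorem exists_primitive (hN : (N : K) ≠ 0) :
    ∃ u : (AlgebraicClosure K)ˣ, IsPrimitiveRoot u N := by
  have : NeZero (N : AlgebraicClosure K) := ⟨by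
    rw [← map_natCast (algebraMap K (AlgebraicClosure K))]
    exact (map_ne_zero _).mpr hN⟩
  obtain ⟨z, hz⟩ := HasEnoughRootsOfUnity.prim (M := AlgebraicClosure K) (n := N)
  exact ⟨(hz.isUnit (NeZero.ne N)).unit, hz.isUnit_unit (NeZero.ne N)⟩

/-- `Φ_N(j, X)` is irreducible over `K(j)` when `N` is invertible in `K`. -/
theorem phiJ_irreducible (hN : (N : K) ≠ 0) : Irreducible (phiJ K N) := by
  obtain ⟨u, hu⟩ := exists_primitive hN
  refine Polynomial.Monic.irreducible_of_irreducible_map (baseHom K N (AlgebraicClosure K)) _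
    (phiJ_monic K N) ?_
  rw [phiJ_map_baseHom, ← minpoly_jRoot_eq hu (Tri.top : Tri N)]
  refine minpoly.irreducible ⟨phiBase _ N N, phiBase_monic _ N N, ?_⟩
  rw [← Polynomial.eval_map, phiBase_map hu (mul_one N), Polynomial.eval_prod]
  exact Finset.prod_eq_zero (Finset.mem_univ Tri.top) (by simp)

/-- `Φ_N(j, X)` is separable over `K(j)` when `N` is invertible in `K`. -/
theorem phiJ_separable (hN : (N : K) ≠ 0) : (phiJ K N).Separable := by
  obtain ⟨u, hu⟩ := exists_primitive hN
  have h := phiBase_separable hu (mul_one N)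
  rw [← phiJ_map_baseHom K] at h
  exact Polynomial.separable_map _ |>.mp h

/-- `Φ_N(j, j(q^N)) = 0` in `K((q))`. -/
theorem aeval_phiJ (hN : (N : K) ≠ 0) : Polynomial.aeval (jqNModC K N) (phiJ K N) = 0 := by
  obtain ⟨u, hu⟩ := exists_primitive hN
  refine lvlHom_injective K N (AlgebraicClosure K) ?_
  rw [map_zero, lvlHom_eval_phiJ, lvlHom_jqN K N _ (u := u), Polynomial.aeval_def,
    ← Polynomial.eval_map, phiBase_map hu (mul_one N), Polynomial.eval_prod]
  exact Finset.prod_eq_zero (Finset.mem_univ Tri.top) (by simp)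

/-- `j(q^N)` is integral over `K(j)`. -/
theorem isIntegral_jqNModC (hN : (N : K) ≠ 0) : IsIntegral (jField K) (jqNModC K N) :=
  ⟨phiJ K N, phiJ_monic K N, aeval_phiJ hN⟩

/-- The minimal polynomial of `j(q^N)` over `K(j)` is `Φ_N` in every characteristic prime to `N`. -/
theorem minpoly_jqNModC (hN : (N : K) ≠ 0) : minpoly (jField K) (jqNModC K N) = phiJ K N :=
  (minpoly.eq_of_irreducible_of_monic (phiJ_irreducible hN) (aeval_phiJ hN) (phiJ_monic K N)).symm

/-- `j(q^N)` has degree `ψ(N)` over `K(j)`. -/
theorem natDegree_minpoly_jqNModC (hN : (N : K) ≠ 0) :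
    (minpoly (jField K) (jqNModC K N)).natDegree = dedekindPsi N := by
  rw [minpoly_jqNModC hN, phiJ_natDegree]

/-- `j(q^N)` is separable over `K(j)`. -/
theorem isSeparable_jqNModC (hN : (N : K) ≠ 0) : IsSeparable (jField K) (jqNModC K N) := by
  rw [IsSeparable, minpoly_jqNModC hN]
  exact phiJ_separable hN

/-! ### Descent of the generation statement -/

/-- Apply a linear functional to the coefficients. -/
def coeffLin {L : Type*} [Field L] [Algebra K L] (r : L →ₗ[K] K) (x : LaurentSeries L) :
    LaurentSeries K where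
  coeff k := r (x.coeff k)
  isPWO_support' := x.isPWO_support.mono fun k hk h => hk (by simp [h])

section

variable {L : Type*} [Field L] [Algebra K L] (r : L →ₗ[K] K)

/-- `coeffLin` is additive. -/
theorem coeffLin_add (x y : LaurentSeries L) :
    coeffLin r (x + y) = coeffLin r x + coeffLin r y := by
  ext k; simp [coeffLin]

/-- `coeffLin` sends zero to zero. -/
theorem coeffLin_zero : coeffLin r (0 : LaurentSeries L) = 0 := by
  ext k; simp [coeffLin]

/-- `coeffLin` is linear over `K((q))`. -/
theorem coeffLin_mul_coeffMap (a : LaurentSeries L) (z : LaurentSeries K) :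
    coeffLin r (a * coeffMap (algebraMap K L) z) = coeffLin r a * z := by
  ext k
  have hs : (coeffMap (algebraMap K L) z).support ⊆ z.support := fun i hi h => hi (by simp [h])
  have ht : (coeffLin r a).support ⊆ a.support := fun i hi h => hi (by simp [coeffLin, h])
  show r ((a * coeffMap (algebraMap K L) z).coeff k) = _
  rw [HahnSeries.coeff_mul_left' a.isPWO_support ht, HahnSeries.coeff_mul_right' z.isPWO_support hs,
    map_sum]
  refine Finset.sum_congr rfl fun ij _ => ?_
  rw [coeffMap_coeff, mul_comm, ← Algebra.smul_def, map_smul, smul_eq_mul, mul_comm]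
  rfl

/-- `coeffLin` on constants. -/
theorem coeffLin_C (c : L) : coeffLin r (HahnSeries.C c) = HahnSeries.C (r c) := by
  ext k
  show r _ = _
  rcases eq_or_ne k 0 with rfl | hk
  · simp
  · simp [HahnSeries.C_apply, HahnSeries.coeff_single_of_ne hk]

end

/-- Evaluation at `j` in the parameter `q_N` is evaluation at `j` followed by `q ↦ q^N`. -/
theorem evalJT_eq (L : Type*) [Field L] (p : L[X]) :
    evalJT L N p = qExpand L N (Polynomial.eval₂ HahnSeries.C (jqModC L) p) := by
  rw [Polynomial.hom_eval₂]
  have : (qExpand L N).comp HahnSeries.C = HahnSeries.C := RingHom.ext fun c => qExpand_C N c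
  rw [this]
  rfl

/-- `j(q^d)` lies in `K(j, j(q^N))`. -/
theorem jqd_mem_adjoin (hN : (N : K) ≠ 0) {d : ℕ} [NeZero d] (hd : d ∣ N) :
    qExpand K d (jqModC K) ∈
      IntermediateField.adjoin K ({jqModC K, jqNModC K N} : Set (LaurentSeries K)) := by
  obtain ⟨k, hk⟩ := hd
  have : NeZero k := ⟨fun h => NeZero.ne N (by rw [hk, h, mul_zero])⟩
  set L := AlgebraicClosure K
  obtain ⟨u, hu⟩ := exists_primitive hN
  have hmem := jRoot_top_level_mem hu (m := d) hk.symm
  set ev : L[X] →+* LaurentSeries L := Polynomial.eval₂RingHom HahnSeries.C (jqModC L)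
  have hev : ∀ Q : L[X], evalJT L N Q = qExpand L N (ev Q) := fun Q => evalJT_eq L Q
  -- every element of `L(J, X)` is `P(J, X) / Q(J)` with monic `Q`
  have key : ∀ z ∈ Algebra.adjoin (baseField L N) ({jRoot u 1 (Tri.top : Tri N)} : Set _),
      ∃ (Q : L[X]) (P : L[X][X]), Q.Monic ∧
        evalJT L N Q * z = P.eval₂ (evalJT L N) (jRoot u 1 (Tri.top : Tri N)) := by
    intro z hz
    rw [Algebra.adjoin_singleton_eq_range_aeval, AlgHom.mem_range] at hz
    obtain ⟨p, rfl⟩ := hz
    induction p using Polynomial.induction_on' with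
    | add p q hp hq =>
      obtain ⟨Q, P, hQ, hP⟩ := hp
      obtain ⟨Q', P', hQ', hP'⟩ := hq
      refine ⟨Q * Q', Polynomial.C Q' * P + Polynomial.C Q * P', hQ.mul hQ', ?_⟩
      rw [map_add, map_mul, Polynomial.eval₂_add, Polynomial.eval₂_mul, Polynomial.eval₂_mul,
        Polynomial.eval₂_C, Polynomial.eval₂_C, ← hP, ← hP']
      ring
    | monomial n c =>
      obtain ⟨A, B, hAB⟩ := (IntermediateField.mem_adjoin_simple_iff L _).mp c.2
      have haev : ∀ A : L[X], Polynomial.aeval (jT L N) A = evalJT L N A := fun A => by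
        rw [Polynomial.aeval_def, evalJT, Polynomial.coe_eval₂RingHom]
        congr 1
        exact RingHom.ext fun c => algebraMap_laurentSeries_eq_single L c
      rw [haev, haev] at hAB
      rcases eq_or_ne B 0 with hB | hB
      · refine ⟨1, 0, Polynomial.monic_one, ?_⟩
        rw [hB, map_zero, div_zero] at hAB
        rw [Polynomial.aeval_monomial, IntermediateField.algebraMap_apply, hAB]
        simp
      · refine ⟨Polynomial.C B.leadingCoeff⁻¹ * B,
          Polynomial.monomial n (Polynomial.C B.leadingCoeff⁻¹ * A), ?_, ?_⟩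
        · rw [mul_comm]; exact Polynomial.monic_mul_leadingCoeff_inv hB
        · rw [Polynomial.aeval_monomial, IntermediateField.algebraMap_apply, hAB,
            Polynomial.eval₂_monomial, map_mul, map_mul]
          have : evalJT L N B ≠ 0 := (map_ne_zero_iff _ (evalJT_injective N)).mpr hB
          field_simp
  have halg : (IntermediateField.adjoin (baseField L N)
      ({jRoot u 1 (Tri.top : Tri N)} : Set _)).toSubalgebra =
      Algebra.adjoin (baseField L N) ({jRoot u 1 (Tri.top : Tri N)} : Set _) := by
    apply IntermediateField.adjoin_simple_toSubalgebra_of_isAlgebraic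
    refine IsIntegral.isAlgebraic ⟨phiBase L N N, phiBase_monic L N N, ?_⟩
    rw [← Polynomial.eval_map, phiBase_map hu (mul_one N), Polynomial.eval_prod]
    exact Finset.prod_eq_zero (Finset.mem_univ Tri.top) (by simp)
  obtain ⟨Q, P, hQ, hP⟩ := key _ (by rw [← halg]; exact hmem)
  -- move to the parameter `q`
  have hX : jRoot u 1 (Tri.top : Tri N) = qExpand L N (jqNModC L N) := by
    rw [jRoot_top, jqNModC, qExpand_qExpand]
    exact qExpand_congr (by ring) _
  have hY : jRoot u k (Tri.top : Tri d) = qExpand L N (qExpand L d (jqModC L)) := by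
    rw [jRoot_top, qExpand_qExpand]
    exact qExpand_congr (by rw [hk]; ring) _
  have hq : ev Q * qExpand L d (jqModC L) = P.eval₂ ev (jqNModC L N) := by
    apply qExpand_injective N
    rw [map_mul, ← hev, ← hY, hP, hX, Polynomial.hom_eval₂]
    congr 1
    exact RingHom.ext hev
  -- take coefficients with a `K`-linear retraction `L → K`
  obtain ⟨r, hr⟩ := LinearMap.exists_leftInverse_of_injective (Algebra.linearMap K L)
    (LinearMap.ker_eq_bot.mpr (algebraMap K L).injective)
  have hr1 : r 1 = 1 := by simpa using LinearMap.congr_fun hr 1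
  set F := IntermediateField.adjoin K ({jqModC K, jqNModC K N} : Set (LaurentSeries K))
  have hJ : jqModC K ∈ F := IntermediateField.subset_adjoin K _ (Set.mem_insert _ _)
  have hXF : jqNModC K N ∈ F := IntermediateField.subset_adjoin K _ (Set.mem_insert_of_mem _ rfl)
  have hCF : ∀ c : K, HahnSeries.C c ∈ F := fun c => by
    have := F.algebraMap_mem c
    rwa [algebraMap_laurentSeries_eq_single] at this
  have hpow : ∀ (c : L) (m i : ℕ),
      coeffLin r (HahnSeries.C c * jqModC L ^ m * jqNModC L N ^ i) =
        HahnSeries.C (r c) * jqModC K ^ m * jqNModC K N ^ i := fun c m i => by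
    rw [mul_assoc, ← coeffMap_jqModC (algebraMap K L), ← coeffMap_jqNModC (algebraMap K L) N,
      ← map_pow, ← map_pow, ← map_mul, coeffLin_mul_coeffMap, coeffLin_C, mul_assoc]
  have hsum : ∀ (i : ℕ) (A : L[X]), coeffLin r (ev A * jqNModC L N ^ i) ∈ F := by
    intro i A
    induction A using Polynomial.induction_on' with
    | add p q hp hq => rw [map_add, add_mul, coeffLin_add]; exact add_mem hp hq
    | monomial m c =>
      rw [show ev (Polynomial.monomial m c) = HahnSeries.C c * jqModC L ^ m from
        Polynomial.eval₂_monomial _ _, hpow]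
      exact mul_mem (mul_mem (hCF _) (pow_mem hJ _)) (pow_mem hXF _)
  have hR : ∀ P : L[X][X], coeffLin r (P.eval₂ ev (jqNModC L N)) ∈ F := by
    intro P
    induction P using Polynomial.induction_on' with
    | add p q hp hq => rw [Polynomial.eval₂_add, coeffLin_add]; exact add_mem (hp) (hq)
    | monomial i A => rw [Polynomial.eval₂_monomial]; exact hsum i A
  -- the retracted denominator is monic, hence nonzero
  set Q₀ : K[X] := ∑ m ∈ Finset.range (Q.natDegree + 1), Polynomial.monomial m (r (Q.coeff m))
  have hQ₀ : coeffLin r (ev Q) = Polynomial.eval₂ HahnSeries.C (jqModC K) Q₀ := by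
    have hlin : ∀ (s : Finset ℕ) (f : ℕ → LaurentSeries L),
        coeffLin r (∑ m ∈ s, f m) = ∑ m ∈ s, coeffLin r (f m) := fun s f =>
      map_sum (AddMonoidHom.mk' (coeffLin r) (coeffLin_add r)) f s
    rw [show ev Q = ∑ m ∈ Finset.range (Q.natDegree + 1),
      HahnSeries.C (Q.coeff m) * jqModC L ^ m * jqNModC L N ^ 0 from ?_, hlin, Polynomial.eval₂_finsetSum]
    · exact Finset.sum_congr rfl fun m _ => by
        rw [hpow, pow_zero, mul_one, Polynomial.eval₂_monomial]
    · simp only [pow_zero, mul_one]
      exact Polynomial.eval₂_eq_sum_range _ _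
  have hQ₀0 : Q₀ ≠ 0 := fun h => by
    have h1 : Q₀.coeff Q.natDegree = 1 := by
      simp only [Q₀, Polynomial.finsetSum_coeff, Polynomial.coeff_monomial, Finset.sum_ite_eq',
        Finset.self_mem_range_succ, if_true, hQ.coeff_natDegree, hr1]
    rw [h, Polynomial.coeff_zero] at h1
    exact zero_ne_one h1
  have hden : coeffLin r (ev Q) ∈ F := by simpa using hsum 0 Q
  have hden0 : coeffLin r (ev Q) ≠ 0 := by
    rw [hQ₀]
    intro h
    apply hQ₀0
    refine evalJT_injective (R := K) N ?_
    rw [map_zero, evalJT_eq, h, map_zero]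
  have heq := congrArg (coeffLin r) hq
  rw [← coeffMap_jqModC (algebraMap K L), ← coeffMap_qExpand', coeffLin_mul_coeffMap] at heq
  have : qExpand K d (jqModC K) =
      coeffLin r (P.eval₂ ev (jqNModC L N)) / coeffLin r (ev Q) := by
    rw [eq_div_iff hden0, mul_comm]; exact heq
  rw [this]
  exact div_mem (hR P) hden

/-- `K(j(q^d) : d ∣ N) = K(j, j(q^N))`. -/
theorem modularFunctionFieldFullC_eq (hN : (N : K) ≠ 0) :
    modularFunctionFieldFullC K N = modularFunctionFieldC K N := by
  refine le_antisymm ?_ (modularFunctionFieldC_le_full K N)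
  rw [modularFunctionFieldFullC, IntermediateField.adjoin_le_iff]
  rintro x ⟨d, hne, hd, rfl⟩
  exact jqd_mem_adjoin hN hd

/-- `K(j(q^d) : d ∣ N)` is the simple extension of `K(j)` by `j(q^N)`. -/
theorem modularFunctionFieldFullC_eq_restrictScalars (hN : (N : K) ≠ 0) :
    modularFunctionFieldFullC K N =
      IntermediateField.restrictScalars K (IntermediateField.adjoin (jField K) {jqNModC K N}) := by
  rw [modularFunctionFieldFullC_eq hN, modularFunctionFieldC,
    IntermediateField.adjoin_simple_adjoin_simple]

/-- `[K(j, j(q^N)) : K(j)] = ψ(N)`. -/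
theorem finrank_adjoin_jqNModC (hN : (N : K) ≠ 0) :
    Module.finrank (jField K) (IntermediateField.adjoin (jField K) {jqNModC K N}) =
      dedekindPsi N := by
  rw [IntermediateField.adjoin.finrank (isIntegral_jqNModC hN), natDegree_minpoly_jqNModC hN]

/-- `ψ(N) + 1` elements of the function field are dependent over `K(j)`. -/
theorem not_linearIndependent_of_mem (hN : (N : K) ≠ 0) {n : ℕ} (hn : dedekindPsi N < n)
    (v : Fin n → LaurentSeries K) (hv : ∀ i, v i ∈ modularFunctionFieldFullC K N) :
    ¬ LinearIndependent (jField K) v := by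
  intro hli
  set E := IntermediateField.adjoin (jField K) ({jqNModC K N} : Set (LaurentSeries K))
  have : FiniteDimensional (jField K) E :=
    IntermediateField.adjoin.finiteDimensional (isIntegral_jqNModC hN)
  have hv' : ∀ i, v i ∈ E := fun i => by
    have := hv i
    rwa [modularFunctionFieldFullC_eq_restrictScalars hN] at this
  have hli' : LinearIndependent (jField K) (fun i => (⟨v i, hv' i⟩ : E)) :=
    LinearIndependent.of_comp E.val.toLinearMap hli
  have := hli'.fintype_card_le_finrank
  rw [Fintype.card_fin, finrank_adjoin_jqNModC hN] at this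
  omega

/-- The powers `j(q^N)ⁱ`, `i < ψ(N)`, are linearly independent over `K(j)`. -/
theorem linearIndependent_pow_jqNModC (hN : (N : K) ≠ 0) :
    LinearIndependent (jField K) (fun i : Fin (dedekindPsi N) => jqNModC K N ^ (i : ℕ)) := by
  have h := linearIndependent_pow (K := jField K) (jqNModC K N)
  rw [natDegree_minpoly_jqNModC hN] at h
  exact h

end Fermat.Agent.ModularFunctionField
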