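import Mathlib.NumberTheory.ModularForms.QExpansion
import Mathlib.Analysis.Normed.Group.Tannery
import Fermat.Agent.ModularFunctionField.Twist

/-!
# Laurent `q`-expansions of functions on the upper half plane

`HasExp N f s` says that `f τ = ∑ sₙ q_Nⁿ` with `q_N = exp (2πiτ/N)` for all `τ` of large enough
imaginary part.
-/

set_option autoImplicit false

noncomputable section

open Filter Complex HahnSeries ModularCurve
open UpperHalfPlane hiding I
open scoped Topology

namespace Fermat.Agent.ModularFunctionField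

/-- `f` is the sum of the Laurent series `s` in `exp (2πiτ/N)` near `i∞`. -/
def HasExp (N : ℕ) (f : ℍ → ℂ) (s : LaurentSeries ℂ) : Prop :=
  ∀ᶠ τ : ℍ in atImInfty,
    HasSum (fun n : ℤ => s.coeff n * Function.Periodic.qParam (N : ℝ) τ ^ n) (f τ)

variable {M N : ℕ} {f g : ℍ → ℂ} {s t : LaurentSeries ℂ}

local notation "𝕢" => Function.Periodic.qParam

namespace HasExp

/-- An expansion depends only on the values near `i∞`. -/
theorem congr' (hf : HasExp N f s) (h : f =ᶠ[atImInfty] g) : HasExp N g s := by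
  filter_upwards [hf, h] with τ h1 h2
  rwa [← h2]

/-- An expansion depends only on the function. -/
theorem congr (hf : HasExp N f s) (h : ∀ τ, f τ = g τ) : HasExp N g s :=
  hf.congr' (Eventually.of_forall h)

/-- Rewrite the series of an expansion. -/
theorem congr_series (hf : HasExp N f s) (h : s = t) : HasExp N f t := h ▸ hf

/-- The expansion of `c q_Nᵐ`. -/
theorem single (N : ℕ) (m : ℤ) (c : ℂ) :
    HasExp N (fun τ : ℍ => c * 𝕢 (N : ℝ) τ ^ m) (HahnSeries.single m c) := by
  refine Eventually.of_forall fun τ => ?_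
  have h := hasSum_single (f := fun n : ℤ =>
    (HahnSeries.single m c).coeff n * 𝕢 (N : ℝ) τ ^ n) m
    (fun n hn => by simp [HahnSeries.coeff_single_of_ne hn])
  simpa using h

/-- The expansion of a constant. -/
theorem const (N : ℕ) (c : ℂ) : HasExp N (fun _ : ℍ => c) (HahnSeries.C c) :=
  ((single N 0 c).congr (g := fun _ : ℍ => c) fun τ => by simp).congr_series
    (by simp [HahnSeries.C_apply])

/-- The expansion of `0`. -/
theorem zero (N : ℕ) : HasExp N (fun _ : ℍ => (0 : ℂ)) 0 :=
  (const N 0).congr_series (map_zero _)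

/-- The expansion of `1`. -/
theorem one (N : ℕ) : HasExp N (fun _ : ℍ => (1 : ℂ)) 1 :=
  (const N 1).congr_series (map_one _)

/-- Expansions add. -/
theorem add (hf : HasExp N f s) (hg : HasExp N g t) :
    HasExp N (fun τ => f τ + g τ) (s + t) := by
  filter_upwards [hf, hg] with τ h1 h2
  simpa [add_mul] using h1.add h2

/-- Expansions commute with negation. -/
theorem neg (hf : HasExp N f s) : HasExp N (fun τ => -f τ) (-s) := by
  filter_upwards [hf] with τ h1
  simpa [neg_mul] using h1.neg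

/-- Expansions subtract. -/
theorem sub (hf : HasExp N f s) (hg : HasExp N g t) :
    HasExp N (fun τ => f τ - g τ) (s - t) := by
  simpa [sub_eq_add_neg] using hf.add hg.neg

/-- The expansion of a product is the product of the expansions. -/
theorem mul (hf : HasExp N f s) (hg : HasExp N g t) :
    HasExp N (fun τ => f τ * g τ) (s * t) := by
  filter_upwards [hf, hg] with τ h1 h2
  set q := 𝕢 (N : ℝ) τ
  have hq : q ≠ 0 := Function.Periodic.qParam_ne_zero _
  have hsum : Summable fun p : ℤ × ℤ => s.coeff p.1 * q ^ p.1 * (t.coeff p.2 * q ^ p.2) :=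
    summable_mul_of_summable_norm (f := fun i : ℤ => s.coeff i * q ^ i)
      (g := fun i : ℤ => t.coeff i * q ^ i)
      (summable_norm_iff.mpr h1.summable) (summable_norm_iff.mpr h2.summable)
  have h := h1.mul h2 hsum
  rw [← (Equiv.sigmaFiberEquiv fun p : ℤ × ℤ => p.1 + p.2).hasSum_iff] at h
  refine h.sigma fun n => ?_
  rw [show (fun c : {p : ℤ × ℤ // p.1 + p.2 = n} =>
      ((fun p : ℤ × ℤ => s.coeff p.1 * q ^ p.1 * (t.coeff p.2 * q ^ p.2)) ∘
        (Equiv.sigmaFiberEquiv fun p : ℤ × ℤ => p.1 + p.2)) ⟨n, c⟩) =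
      (fun p : ℤ × ℤ => s.coeff p.1 * t.coeff p.2 * q ^ n) ∘
        ((↑) : {p : ℤ × ℤ // p.1 + p.2 = n} → ℤ × ℤ) from funext fun c => by
    simp only [Function.comp_apply, Equiv.sigmaFiberEquiv_apply]
    have hc : q ^ n = q ^ (c : ℤ × ℤ).1 * q ^ (c : ℤ × ℤ).2 := by
      rw [← zpow_add₀ hq, c.2]
    rw [hc]
    ring]
  rw [HahnSeries.coeff_mul, Finset.sum_mul]
  refine (hasSum_subtype_iff_indicator
    (f := fun p : ℤ × ℤ => s.coeff p.1 * t.coeff p.2 * q ^ n)
    (s := {p : ℤ × ℤ | p.1 + p.2 = n})).mpr ?_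
  have key := hasSum_sum_of_ne_finset_zero
    (f := ({p : ℤ × ℤ | p.1 + p.2 = n} : Set (ℤ × ℤ)).indicator
      fun p : ℤ × ℤ => s.coeff p.1 * t.coeff p.2 * q ^ n)
    (s := Finset.antidiagonal s.isPWO_support t.isPWO_support n) (L := .unconditional _)
    (fun p hp => by
      by_cases hpn : p ∈ {p : ℤ × ℤ | p.1 + p.2 = n}
      · rw [Set.indicator_of_mem hpn]
        rw [Finset.mem_antidiagonal] at hp
        by_contra hne
        exact hp ⟨left_ne_zero_of_mul (left_ne_zero_of_mul hne),
          right_ne_zero_of_mul (left_ne_zero_of_mul hne), hpn⟩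
      · rw [Set.indicator_of_notMem hpn])
  convert key using 1
  refine Finset.sum_congr rfl fun p hp => ?_
  rw [Finset.mem_antidiagonal] at hp
  exact (Set.indicator_of_mem (s := {p : ℤ × ℤ | p.1 + p.2 = n}) hp.2.2
    (fun p : ℤ × ℤ => s.coeff p.1 * t.coeff p.2 * q ^ n)).symm

/-- Expansions commute with powers. -/
theorem pow (hf : HasExp N f s) : ∀ k : ℕ, HasExp N (fun τ => f τ ^ k) (s ^ k)
  | 0 => by simpa using one N
  | k + 1 => by simpa [pow_succ] using (hf.pow k).mul hf

/-- Expansions commute with finite sums. -/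
theorem sum {ι : Type*} (I : Finset ι) {F : ι → ℍ → ℂ} {S : ι → LaurentSeries ℂ}
    (h : ∀ i ∈ I, HasExp N (F i) (S i)) :
    HasExp N (fun τ => ∑ i ∈ I, F i τ) (∑ i ∈ I, S i) := by
  classical
  induction I using Finset.induction_on with
  | empty => simpa using zero N
  | insert a I ha ih =>
    simpa [Finset.sum_insert ha] using (h a (Finset.mem_insert_self _ _)).add
      (ih fun i hi => h i (Finset.mem_insert_of_mem hi))

/-- Expansions commute with finite products. -/
theorem prod {ι : Type*} (I : Finset ι) {F : ι → ℍ → ℂ} {S : ι → LaurentSeries ℂ}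
    (h : ∀ i ∈ I, HasExp N (F i) (S i)) :
    HasExp N (fun τ => ∏ i ∈ I, F i τ) (∏ i ∈ I, S i) := by
  classical
  induction I using Finset.induction_on with
  | empty => simpa using one N
  | insert a I ha ih =>
    simpa [Finset.prod_insert ha] using (h a (Finset.mem_insert_self _ _)).mul
      (ih fun i hi => h i (Finset.mem_insert_of_mem hi))

/-- Composition with a map multiplying the parameter to a power. -/
theorem comp (hf : HasExp M f s) (φ : ℍ → ℍ) (hφ : Tendsto φ atImInfty atImInfty)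
    (u : ℂˣ) (k : ℕ) [NeZero k]
    (hq : ∀ τ : ℍ, 𝕢 (M : ℝ) (φ τ) = (u : ℂ) * 𝕢 (N : ℝ) τ ^ k) :
    HasExp N (fun τ => f (φ τ)) (subst u k s) := by
  filter_upwards [hφ.eventually hf] with τ hτ
  have hk : (k : ℤ) ≠ 0 := by exact_mod_cast NeZero.ne k
  rw [← (mul_right_injective₀ hk).hasSum_iff (f := fun n : ℤ =>
    (subst u k s).coeff n * 𝕢 (N : ℝ) τ ^ n) (fun n hn => by
      rw [subst_coeff_of_not_dvd u k s (fun ⟨m, hm⟩ => hn ⟨m, hm.symm⟩), zero_mul])]
  refine hτ.congr_fun fun n => ?_
  simp only [Function.comp_apply, subst_coeff_mul, hq, mul_zpow, Units.val_zpow_eq_zpow_val]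
  rw [zpow_mul, zpow_natCast]
  ring

/-- Changing the width. -/
theorem qExpand (hf : HasExp M f s) (k : ℕ) [NeZero k] (hN : N = M * k) (hM : M ≠ 0) :
    HasExp N f (ModularCurve.qExpand ℂ k s) := by
  have h := hf.comp (N := N) id tendsto_id 1 k fun τ => ?_
  · simpa using h
  · subst hN
    rw [Units.val_one, one_mul, ← zpow_natCast, Function.Periodic.qParam, Function.Periodic.qParam,
      ← Complex.exp_int_mul, id]
    congr 1
    have : (M : ℂ) ≠ 0 := by exact_mod_cast hM
    have : (k : ℂ) ≠ 0 := by exact_mod_cast NeZero.ne k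
    push_cast
    field_simp

/-- A function whose expansion has no negative terms tends to the constant term at `i∞`. -/
theorem tendsto (hN : N ≠ 0) (hf : HasExp N f s) (hs : ∀ n : ℤ, n < 0 → s.coeff n = 0) :
    Tendsto f atImInfty (𝓝 (s.coeff 0)) := by
  obtain ⟨τ₀, hτ₀⟩ := hf.exists
  set q₀ := 𝕢 (N : ℝ) τ₀
  have hq₀ : q₀ ≠ 0 := Function.Periodic.qParam_ne_zero _
  have hN' : (0 : ℝ) < N := by exact_mod_cast Nat.pos_of_ne_zero hN
  have hlim := qParam_tendsto_atImInfty hN'
  have key : Tendsto (fun τ : ℍ => ∑' n : ℤ, s.coeff n * 𝕢 (N : ℝ) τ ^ n) atImInfty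
      (𝓝 (∑' n : ℤ, if n = 0 then s.coeff 0 else 0)) := by
    refine tendsto_tsum_of_dominated_convergence (bound := fun n => ‖s.coeff n * q₀ ^ n‖)
      (summable_norm_iff.mpr hτ₀.summable) (fun n => ?_) ?_
    · rcases lt_trichotomy n 0 with hn | rfl | hn
      · simp [hs n hn, hn.ne]
      · simp
      · lift n to ℕ using hn.le
        have hn' : n ≠ 0 := by intro h; simp [h] at hn
        simpa [zero_pow hn', hn'] using (hlim.pow n).const_mul (s.coeff (n : ℤ))
    · have hev : ∀ᶠ τ : ℍ in atImInfty, ‖𝕢 (N : ℝ) τ‖ < ‖q₀‖ := by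
        have := hlim.norm
        rw [norm_zero] at this
        exact this.eventually (gt_mem_nhds (norm_pos_iff.mpr hq₀))
      filter_upwards [hev] with τ hτ n
      rcases lt_or_ge n 0 with hn | hn
      · simp [hs n hn]
      · lift n to ℕ using hn
        rw [zpow_natCast, zpow_natCast, norm_mul, norm_mul, norm_pow, norm_pow]
        gcongr
  rw [tsum_ite_eq] at key
  refine key.congr' ?_
  filter_upwards [hf] with τ hτ
  exact hτ.tsum_eq

/-- The expansion of a function vanishing near `i∞` is zero. -/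
theorem eq_zero (hN : N ≠ 0) (hf : HasExp N f s) (h : f =ᶠ[atImInfty] 0) : s = 0 := by
  by_contra hs
  have h1 : HasExp N (fun τ : ℍ => 1 * 𝕢 (N : ℝ) τ ^ (-s.order) * f τ)
      (HahnSeries.single (-s.order) 1 * s) := (single N (-s.order) 1).mul hf
  have h2 := h1.tendsto hN fun n hn => by
    rw [HahnSeries.coeff_single_mul, one_mul, sub_neg_eq_add]
    exact HahnSeries.coeff_eq_zero_of_lt_order (by omega)
  have h3 : Tendsto (fun τ : ℍ => 1 * 𝕢 (N : ℝ) τ ^ (-s.order) * f τ) atImInfty (𝓝 0) := by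
    refine tendsto_const_nhds.congr' ?_
    filter_upwards [h] with τ hτ
    simp [hτ]
  have h4 := tendsto_nhds_unique h2 h3
  rw [HahnSeries.coeff_single_mul, one_mul, sub_neg_eq_add, zero_add] at h4
  exact HahnSeries.coeff_order_eq_zero.not.mpr hs h4

/-- Expansions are unique. -/
theorem unique (hN : N ≠ 0) (hf : HasExp N f s) (hg : HasExp N f t) : s = t := by
  rw [← sub_eq_zero]
  exact (hf.sub hg).eq_zero hN (Eventually.of_forall fun τ => sub_self _)

/-- The expansions of `f` and `1/f` are inverse to each other. -/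
theorem inv (hN : N ≠ 0) (hf : HasExp N f s) (hg : HasExp N (fun τ => (f τ)⁻¹) t)
    (hne : ∀ τ, f τ ≠ 0) : s * t = 1 :=
  (hf.mul hg).unique hN ((one N).congr fun τ => (mul_inv_cancel₀ (hne τ)).symm)

end HasExp

/-- The `q`-expansion of a periodic holomorphic function bounded at infinity is an expansion in
this sense. -/
theorem hasExp_qExpansion {f : ℍ → ℂ} (hN : N ≠ 0)
    (hfper : Function.Periodic (f ∘ UpperHalfPlane.ofComplex) (N : ℝ))
    (hfhol : MDifferentiable (modelWithCornersSelf ℂ ℂ) (modelWithCornersSelf ℂ ℂ) f)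
    (hfbdd : IsBoundedAtImInfty f) :
    HasExp N f (HahnSeries.ofPowerSeries ℤ ℂ (qExpansion (N : ℝ) f)) := by
  refine Eventually.of_forall fun τ => ?_
  have h := hasSum_qExpansion (by exact_mod_cast Nat.pos_of_ne_zero hN) hfper hfhol hfbdd τ
  rw [← Nat.cast_injective.hasSum_iff (f := fun n : ℤ =>
    (HahnSeries.ofPowerSeries ℤ ℂ (qExpansion (N : ℝ) f)).coeff n * 𝕢 (N : ℝ) τ ^ n)
    (fun n hn => by
      rw [ofPowerSeries_coeff_of_neg _ (not_le.mp fun h0 => hn ⟨n.toNat, Int.toNat_of_nonneg h0⟩),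
        zero_mul])]
  refine h.congr_fun fun n => ?_
  rw [Function.comp_apply, HahnSeries.ofPowerSeries_apply_coeff, zpow_natCast, smul_eq_mul]

end Fermat.Agent.ModularFunctionField
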