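import Fermat.Agent.ModularFunctionField.Twist
import Fermat.Prelude.Def_ModularCurve_JqCoeff

/-!
# The formal series `j`, `Δ` and `E₄` over an arbitrary commutative ring
-/

set_option autoImplicit false

noncomputable section

open HahnSeries ModularCurve

namespace Fermat.Agent.ModularFunctionField

variable (R : Type*) [CommRing R] {S : Type*} [CommRing S]

/-- A power series with integer coefficients as a Laurent series over `R`. -/
def intSeries : PowerSeries ℤ →+* LaurentSeries R :=
  (HahnSeries.ofPowerSeries ℤ R).comp (PowerSeries.map (Int.castRingHom R))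

/-- The coefficients of `intSeries` are those of the integral power series. -/
theorem intSeries_coeff_natCast (p : PowerSeries ℤ) (n : ℕ) :
    (intSeries R p).coeff (n : ℤ) = ((PowerSeries.coeff n p : ℤ) : R) := by
  simp [intSeries, HahnSeries.ofPowerSeries_apply_coeff]

/-- `intSeries` has no negative exponents. -/
theorem intSeries_coeff_of_neg (p : PowerSeries ℤ) {n : ℤ} (hn : n < 0) :
    (intSeries R p).coeff n = 0 :=
  ofPowerSeries_coeff_of_neg _ hn

variable {R} in
/-- `intSeries` is natural in the ring. -/
theorem coeffMap_intSeries (f : R →+* S) (p : PowerSeries ℤ) :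
    coeffMap f (intSeries R p) = intSeries S p := by
  ext n
  rcases lt_or_ge n 0 with hn | hn
  · rw [coeffMap_coeff, intSeries_coeff_of_neg _ _ hn, intSeries_coeff_of_neg _ _ hn, map_zero]
  · lift n to ℕ using hn
    rw [coeffMap_coeff, intSeries_coeff_natCast, intSeries_coeff_natCast, map_intCast]

/-- The series of `Δ`, namely `q ∏ (1-qⁿ)²⁴`, over `R`. -/
def deltaC : LaurentSeries R := HahnSeries.single (1 : ℤ) 1 * intSeries R dedekindEtaUnit

/-- The series of `1/Δ` over `R`. -/
def deltaInvC : LaurentSeries R :=
  HahnSeries.single (-1 : ℤ) 1 * intSeries R dedekindEtaUnitInv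

/-- The series of `E₄` over `R`. -/
def e4C : LaurentSeries R := intSeries R eisenstein4

/-- The series of `1/Δ` is inverse to that of `Δ`. -/
theorem deltaC_mul_deltaInvC : deltaC R * deltaInvC R = 1 := by
  rw [deltaC, deltaInvC, mul_mul_mul_comm, HahnSeries.single_mul_single, ← map_mul,
    dedekindEtaUnit_mul_inv, map_one, mul_one, add_neg_cancel, mul_one, HahnSeries.single_zero_one]

/-- `j = E₄³/Δ` as formal series. -/
theorem jqModC_eq : jqModC R = e4C R ^ 3 * deltaInvC R := by
  show HahnSeries.single (-1 : ℤ) 1 * intSeries R jNum = _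
  rw [jNum, map_mul, map_pow, deltaInvC, e4C]
  ring

variable {R} in
/-- The series of `Δ` is natural in the ring. -/
@[simp]
theorem coeffMap_deltaC (f : R →+* S) : coeffMap f (deltaC R) = deltaC S := by
  rw [deltaC, map_mul, coeffMap_single, map_one, coeffMap_intSeries, deltaC]

variable {R} in
/-- The series of `1/Δ` is natural in the ring. -/
@[simp]
theorem coeffMap_deltaInvC (f : R →+* S) : coeffMap f (deltaInvC R) = deltaInvC S := by
  rw [deltaInvC, map_mul, coeffMap_single, map_one, coeffMap_intSeries, deltaInvC]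

variable {R} in
@[simp]
theorem coeffMap_e4C (f : R →+* S) : coeffMap f (e4C R) = e4C S := coeffMap_intSeries f _

variable {R} in
/-- The series of `j` is natural in the ring. -/
@[simp]
theorem coeffMap_jqC (f : R →+* S) : coeffMap f (jqModC R) = jqModC S := by
  simp [jqModC_eq]

/-- `Δ = q + ⋯`. -/
theorem deltaC_coeff_one : (deltaC R).coeff 1 = 1 := by
  rw [deltaC, HahnSeries.coeff_single_mul, one_mul, sub_self,
    show (0 : ℤ) = ((0 : ℕ) : ℤ) from rfl, intSeries_coeff_natCast,
    PowerSeries.coeff_zero_eq_constantCoeff, constantCoeff_dedekindEtaUnit, Int.cast_one]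

/-- `Δ` has no terms below `q`. -/
theorem deltaC_coeff_of_lt {n : ℤ} (hn : n < 1) : (deltaC R).coeff n = 0 := by
  rw [deltaC, HahnSeries.coeff_single_mul, one_mul]
  exact intSeries_coeff_of_neg _ _ (by omega)

/-- `E₄ = 1 + ⋯`. -/
theorem e4C_coeff_zero : (e4C R).coeff 0 = 1 := by
  rw [e4C, show (0 : ℤ) = ((0 : ℕ) : ℤ) from rfl, intSeries_coeff_natCast,
    PowerSeries.coeff_zero_eq_constantCoeff, constantCoeff_eisenstein4, Int.cast_one]

end Fermat.Agent.ModularFunctionField
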