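import Mathlib.NumberTheory.ModularForms.Discriminant
import Mathlib.NumberTheory.ModularForms.EisensteinSeries.QExpansion
import Mathlib.NumberTheory.BernoulliPolynomials
import Mathlib.Analysis.Complex.LocallyUniformLimit
import Mathlib.Analysis.Calculus.Deriv.Polynomial
import Fermat.Agent.ModularFunctionField.Expansion
import Fermat.Agent.ModularFunctionField.Series

/-!
# The `q`-expansions of `Δ`, `1/Δ` and `E₄`
-/

set_option autoImplicit false

noncomputable section

open Filter Complex ModularCurve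
open UpperHalfPlane hiding I
open scoped Topology MatrixGroups Manifold

namespace Fermat.Agent.ModularFunctionField

local notation "𝕢" => Function.Periodic.qParam
local notation "Δ" => ModularForm.discriminant

/-- The function `q ↦ ∏ (1 - qⁿ)`. -/
def eulerFun (q : ℂ) : ℂ := ∏' n : ℕ, (1 - q ^ (n + 1))

theorem tendstoLocallyUniformlyOn_iteratedDeriv_eulerFun (m : ℕ) :
    TendstoLocallyUniformlyOn
      (fun s : Finset ℕ => iteratedDeriv m fun q : ℂ => ∏ n ∈ s, (1 - q ^ (n + 1)))
      (iteratedDeriv m eulerFun) atTop (Metric.ball 0 1) := by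
  induction m with
  | zero =>
    simp only [iteratedDeriv_zero]
    exact ModularForm.multipliableLocallyUniformlyOn_one_sub_pow.hasProdLocallyUniformlyOn
  | succ m ih =>
    simp only [iteratedDeriv_succ]
    exact ih.deriv (Eventually.of_forall fun s => by
      have h : ContDiff ℂ ((m + 1 : ℕ) : ℕ∞) fun q : ℂ => ∏ n ∈ s, (1 - q ^ (n + 1)) := by
        fun_prop
      exact (h.differentiable_iteratedDeriv m (by exact_mod_cast Nat.lt_succ_self m)).differentiableOn)
      Metric.isOpen_ball

theorem iteratedDeriv_polynomial_eval (p : Polynomial ℂ) (m : ℕ) :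
    iteratedDeriv m (fun q => p.eval q) = fun q => (Polynomial.derivative^[m] p).eval q := by
  induction m with
  | zero => simp
  | succ m ih =>
    rw [iteratedDeriv_succ, ih, Function.iterate_succ_apply']
    funext q
    exact Polynomial.deriv _

open scoped PowerSeries.WithPiTopology in
/-- The coefficients of the partial products stabilise to those of `∏ (1 - qⁿ)`. -/
theorem eventually_coeff_prod_eq (m : ℕ) :
    ∀ᶠ s : Finset ℕ in atTop,
      (PowerSeries.coeff m) (∏ n ∈ s, (1 - PowerSeries.X ^ (n + 1) : PowerSeries ℤ))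
        = (PowerSeries.coeff m) etaProd := by
  have h := (PowerSeries.WithPiTopology.multipliable_one_sub_X_pow ℤ).hasProd
  rw [HasProd, PowerSeries.WithPiTopology.tendsto_iff_coeff_tendsto] at h
  simpa [etaProd] using h m

/-- The Taylor coefficients of `∏ (1 - qⁿ)` at `0` are those of the formal product. -/
theorem iteratedDeriv_eulerFun_zero (m : ℕ) :
    iteratedDeriv m eulerFun 0 = (m.factorial : ℂ) * ((PowerSeries.coeff m etaProd : ℤ) : ℂ) := by
  have h := (tendstoLocallyUniformlyOn_iteratedDeriv_eulerFun m).tendsto_at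
    (Metric.mem_ball_self one_pos)
  refine tendsto_nhds_unique h (tendsto_const_nhds.congr' ?_)
  filter_upwards [eventually_coeff_prod_eq m] with s hs
  set P : Polynomial ℤ := ∏ n ∈ s, (1 - Polynomial.X ^ (n + 1)) with hP
  have h1 : (P : PowerSeries ℤ) = ∏ n ∈ s, (1 - PowerSeries.X ^ (n + 1)) := by
    rw [hP, ← Polynomial.coeToPowerSeries.ringHom_apply, map_prod]
    simp [Polynomial.coeToPowerSeries.ringHom_apply]
  have h2 : (fun q : ℂ => ∏ n ∈ s, (1 - q ^ (n + 1))) =
      fun q => (P.map (Int.castRingHom ℂ)).eval q := by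
    funext q
    simp [hP, Polynomial.map_prod, Polynomial.eval_prod]
  rw [h2, iteratedDeriv_polynomial_eval]
  simp only [← Polynomial.coeff_zero_eq_eval_zero, Polynomial.coeff_iterate_derivative, zero_add,
    Nat.descFactorial_self, Polynomial.coeff_map, eq_intCast, nsmul_eq_mul]
  rw [← hs, ← h1, Polynomial.coeff_coe]

/-- A function holomorphic on the unit disc, evaluated at `q`, has its Taylor series as
expansion. -/
theorem hasExp_of_differentiableOn {G : ℂ → ℂ} (hG : DifferentiableOn ℂ G (Metric.ball 0 1))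
    (s : PowerSeries ℂ)
    (hs : ∀ m, iteratedDeriv m G 0 = (m.factorial : ℂ) * PowerSeries.coeff m s) :
    HasExp 1 (fun τ : ℍ => G (𝕢 1 τ)) (HahnSeries.ofPowerSeries ℤ ℂ s) := by
  refine Eventually.of_forall fun τ => ?_
  have hq : 𝕢 1 (τ : ℂ) ∈ Metric.ball (0 : ℂ) 1 := by
    simpa using UpperHalfPlane.norm_qParam_lt_one 1 τ
  have h := hasSum_taylorSeries_on_ball hG hq
  rw [← Nat.cast_injective.hasSum_iff (f := fun n : ℤ =>
    (HahnSeries.ofPowerSeries ℤ ℂ s).coeff n * 𝕢 ((1 : ℕ) : ℝ) τ ^ n) (fun n hn => by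
      rw [ofPowerSeries_coeff_of_neg _ (not_le.mp fun h0 => hn ⟨n.toNat, Int.toNat_of_nonneg h0⟩),
        zero_mul])]
  refine h.congr_fun fun n => ?_
  have : (n.factorial : ℂ) ≠ 0 := by exact_mod_cast n.factorial_ne_zero
  simp only [Function.comp_apply, HahnSeries.ofPowerSeries_apply_coeff, zpow_natCast, hs,
    smul_eq_mul, sub_zero, Nat.cast_one]
  field_simp

/-- The expansion of `∏ (1 - qⁿ)`. -/
theorem hasExp_eulerFun :
    HasExp 1 (fun τ : ℍ => eulerFun (𝕢 1 τ)) (intSeries ℂ etaProd) :=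
  hasExp_of_differentiableOn (G := eulerFun) ModularForm.differentiableOn_tprod_one_sub_pow _ fun m => by
    rw [iteratedDeriv_eulerFun_zero, PowerSeries.coeff_map]
    rfl

/-- `Δ = q ∏ (1 - qⁿ)²⁴`. -/
theorem discriminant_eq_qParam_mul (τ : ℍ) : Δ τ = 𝕢 1 τ * eulerFun (𝕢 1 τ) ^ 24 := by
  rw [ModularForm.discriminant_eq_q_prod, eulerFun,
    ← (ModularForm.multipliable_one_sub_pow
      (by simpa using UpperHalfPlane.norm_qParam_lt_one 1 τ)).tprod_pow]

/-- The expansion of `Δ` is `q ∏ (1 - qⁿ)²⁴`. -/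
theorem hasExp_discriminant : HasExp 1 Δ (deltaC ℂ) := by
  have h := (HasExp.single 1 1 1).mul (hasExp_eulerFun.pow 24)
  refine (h.congr fun τ => ?_).congr_series ?_
  · simp [discriminant_eq_qParam_mul]
  · rw [deltaC, dedekindEtaUnit, map_pow]

/-- `∏ (1 - qⁿ)` has no zero in the unit disc. -/
theorem eulerFun_ne_zero {q : ℂ} (hq : ‖q‖ < 1) : eulerFun q ≠ 0 := by
  have key : ∀ n : ℕ, 1 - q ^ (n + 1) ≠ 0 := fun n => sub_ne_zero.mpr fun h => by
    have := congrArg norm h
    rw [norm_one, norm_pow] at this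
    exact (pow_lt_one₀ (norm_nonneg q) hq (Nat.succ_ne_zero n)).ne' this
  have := tprod_one_add_ne_zero_of_summable (f := fun n : ℕ => -q ^ (n + 1))
    (fun n => by simpa [← sub_eq_add_neg] using key n)
    (by simpa using (summable_nat_add_iff 1).mpr (summable_geometric_of_lt_one (norm_nonneg _) hq))
  simpa [eulerFun, ← sub_eq_add_neg] using this

/-- The expansion of `1/Δ` is the formal inverse of that of `Δ`. -/
theorem hasExp_discriminant_inv : HasExp 1 (fun τ => (Δ τ)⁻¹) (deltaInvC ℂ) := by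
  have hd : DifferentiableOn ℂ (fun q => (eulerFun q ^ 24)⁻¹) (Metric.ball 0 1) :=
    (ModularForm.differentiableOn_tprod_one_sub_pow.fun_pow 24).fun_inv fun q hq =>
      pow_ne_zero _ (eulerFun_ne_zero (by simpa using hq))
  obtain ⟨s, hs⟩ : ∃ s : PowerSeries ℂ, ∀ m,
      iteratedDeriv m (fun q => (eulerFun q ^ 24)⁻¹) 0 = (m.factorial : ℂ) * PowerSeries.coeff m s :=
    ⟨PowerSeries.mk fun m => iteratedDeriv m (fun q => (eulerFun q ^ 24)⁻¹) 0 / m.factorial,
      fun m => by rw [PowerSeries.coeff_mk, mul_div_cancel₀]; exact_mod_cast m.factorial_ne_zero⟩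
  have h := ((HasExp.single 1 (-1) 1).mul (hasExp_of_differentiableOn hd s hs)).congr
    (g := fun τ => (Δ τ)⁻¹) fun τ => by simp [discriminant_eq_qParam_mul, mul_comm]
  refine h.congr_series ?_
  have h2 := hasExp_discriminant.inv one_ne_zero h ModularForm.discriminant_ne_zero
  calc _ = (deltaInvC ℂ * deltaC ℂ) * _ := by rw [mul_comm (deltaInvC ℂ), deltaC_mul_deltaInvC, one_mul]
    _ = deltaInvC ℂ := by rw [mul_assoc, h2, mul_one]

/-- The expansion of `E₄` is `1 + 240 ∑ σ₃(n) qⁿ`. -/
theorem hasExp_E4 : HasExp 1 (ModularForm.E₄ : ℍ → ℂ) (e4C ℂ) := by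
  have h := hasExp_qExpansion (N := 1) one_ne_zero
    (SlashInvariantFormClass.periodic_comp_ofComplex ModularForm.E₄
      (by simp : ((1 : ℕ) : ℝ) ∈ (𝒮ℒ).strictPeriods))
    (ModularFormClass.holo ModularForm.E₄) (ModularFormClass.bdd_at_infty ModularForm.E₄)
  refine h.congr_series ?_
  rw [e4C, intSeries, RingHom.comp_apply]
  congr 1
  ext n
  rw [Nat.cast_one, show (ModularForm.E₄ : ModularForm 𝒮ℒ 4) = ModularForm.E (by norm_num) from rfl,
    EisensteinSeries.E_qExpansion_coeff (by norm_num) (by decide), PowerSeries.coeff_map]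
  rcases eq_or_ne n 0 with rfl | hn
  · simp [eisenstein4]
  · rw [if_neg hn, eisenstein4, PowerSeries.coeff_mk, if_neg hn,
      bernoulli_eq_bernoulli'_of_ne_one (by decide), bernoulli'_four, ArithmeticFunction.sigma_apply]
    push_cast [eq_intCast]
    norm_num

/-- The modular function `j = E₄³/Δ`. -/
def jFun (τ : ℍ) : ℂ := ModularForm.E₄ τ ^ 3 * (Δ τ)⁻¹

/-- The formal series of `j` is the expansion of the function `j`. -/
theorem hasExp_jFun : HasExp 1 jFun (jqModC ℂ) :=
  ((hasExp_E4.pow 3).mul hasExp_discriminant_inv).congr_series (jqModC_eq ℂ).symm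

end Fermat.Agent.ModularFunctionField
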