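import Mathlib.NumberTheory.ModularForms.Derivative
import Mathlib.NumberTheory.ModularForms.LevelOne.GradedRing
import Mathlib.NumberTheory.ModularForms.EisensteinSeries.E2.Summable
import Fermat.Agent.ModularFunctionField.EtaProduct

/-!
# Level one: invariance of `j`, Ramanujan's identity for `E₄`, and `(θj)⁶ = j⁴(j-1728)³Δ`
-/

set_option autoImplicit false

noncomputable section

open Filter Complex ModularCurve Derivative
open UpperHalfPlane hiding I
open scoped Topology MatrixGroups Manifold ModularForm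

namespace Fermat.Agent.ModularFunctionField

local notation "𝕢" => Function.Periodic.qParam
local notation "Δ" => ModularForm.discriminant

/-- The slash action of weight zero is composition. -/
theorem slash_zero_apply (f : ℍ → ℂ) (γ : SL(2, ℤ)) (τ : ℍ) :
    (f ∣[(0 : ℤ)] γ) τ = f (γ • τ) := by
  rw [ModularForm.SL_slash_apply]
  simp

/-- A form of level one is invariant under the slash action of `SL(2,ℤ)`. -/
theorem slash_eq_self {F : Type*} [FunLike F ℍ ℂ] {k : ℤ} [SlashInvariantFormClass F 𝒮ℒ k] (f : F)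
    (γ : SL(2, ℤ)) : (f : ℍ → ℂ) ∣[k] γ = f :=
  SlashInvariantFormClass.slash_action_eq f _ ⟨γ, rfl⟩

/-- A modular form of level one from an invariant holomorphic function bounded at `i∞`. -/
def formOfInvariant (k : ℤ) (f : ℍ → ℂ) (hinv : ∀ γ : SL(2, ℤ), f ∣[k] γ = f)
    (hol : MDiff f) (hbdd : IsBoundedAtImInfty f) : ModularForm 𝒮ℒ k where
  toFun := f
  slash_action_eq' A hA := by
    obtain ⟨A, rfl⟩ := hA
    exact hinv A
  holo' := hol
  bdd_at_cusps' hc := by
    rw [Subgroup.IsArithmetic.isCusp_iff_isCusp_SL2Z] at hc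
    rw [OnePoint.isBoundedAt_iff_forall_SL2Z hc]
    intro γ _
    rw [hinv γ]
    exact hbdd

/-- An invariant holomorphic function bounded at `i∞` is constant. -/
theorem eq_const_of_invariant (f : ℍ → ℂ) (hinv : ∀ (γ : SL(2, ℤ)) (τ : ℍ), f (γ • τ) = f τ)
    (hol : MDiff f) (hbdd : IsBoundedAtImInfty f) : ∃ c, f = Function.const ℍ c :=
  ModularFormClass.levelOne_weight_zero_const (formOfInvariant 0 f
    (fun γ => funext fun τ => by rw [slash_zero_apply, hinv]) hol hbdd)

/-- Expansion of `D f = (2πi)⁻¹ df/dτ` for a modular form. -/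
theorem hasExp_D {k : ℤ} (f : ModularForm 𝒮ℒ k) {s : LaurentSeries ℂ} (hs : HasExp 1 (f : ℍ → ℂ) s) :
    HasExp 1 (D (f : ℍ → ℂ)) (theta s) := by
  have hper : Function.Periodic ((f : ℍ → ℂ) ∘ UpperHalfPlane.ofComplex) ((1 : ℕ) : ℝ) :=
    SlashInvariantFormClass.periodic_comp_ofComplex f (by simp)
  obtain rfl : s = _ := hs.unique one_ne_zero
    (hasExp_qExpansion (N := 1) one_ne_zero hper (ModularFormClass.holo f)
      (ModularFormClass.bdd_at_infty f))
  set G := cuspFunction ((1 : ℕ) : ℝ) (f : ℍ → ℂ) with hGdef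
  have hG : DifferentiableOn ℂ G (Metric.ball 0 1) :=
    differentiableOn_cuspFunction_ball (by norm_num) hper (ModularFormClass.holo f)
      (ModularFormClass.bdd_at_infty f)
  have h1 := (HasExp.single 1 1 1).mul (hasExp_of_differentiableOn (hG.deriv Metric.isOpen_ball)
    (PowerSeries.mk fun m => ((m + 1 : ℕ) : ℂ) *
      PowerSeries.coeff (m + 1) (qExpansion ((1 : ℕ) : ℝ) (f : ℍ → ℂ))) fun m => by
    rw [PowerSeries.coeff_mk, qExpansion_coeff, ← hGdef, ← iteratedDeriv_succ', Nat.factorial_succ]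
    have : ((m.factorial : ℕ) : ℂ) ≠ 0 := by exact_mod_cast m.factorial_ne_zero
    push_cast
    field_simp)
  refine (h1.congr fun τ => ?_).congr_series ?_
  · show 1 * 𝕢 ((1 : ℕ) : ℝ) τ ^ (1 : ℤ) * deriv G (𝕢 1 τ) = D (f : ℍ → ℂ) τ
    have hq : 𝕢 1 (τ : ℂ) ∈ Metric.ball (0 : ℂ) 1 := by
      simpa using UpperHalfPlane.norm_qParam_lt_one 1 τ
    have hd : HasDerivAt (fun z : ℂ => 𝕢 1 z) (2 * Real.pi * I * 𝕢 1 τ) τ := by
      simpa [Function.Periodic.qParam, mul_comm] using
        ((hasDerivAt_id (τ : ℂ)).const_mul (2 * Real.pi * I)).cexp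
    have hG' : HasDerivAt G (deriv G (𝕢 1 τ)) (𝕢 1 τ) :=
      (hG.differentiableAt (Metric.isOpen_ball.mem_nhds hq)).hasDerivAt
    have heq : ((f : ℍ → ℂ) ∘ UpperHalfPlane.ofComplex) =ᶠ[𝓝 (τ : ℂ)] fun z => G (𝕢 1 z) := by
      filter_upwards [isOpen_upperHalfPlaneSet.mem_nhds τ.im_pos] with z hz
      have := eq_cuspFunction (h := ((1 : ℕ) : ℝ)) ⟨z, hz⟩ (by norm_num) hper
      rw [Function.comp_apply, ofComplex_apply_of_im_pos hz, hGdef]
      simpa using this.symm
    rw [normalizedDerivOfComplex, ((hG'.comp (τ : ℂ) hd).congr_of_eventuallyEq heq).deriv,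
      zpow_one, Nat.cast_one]
    field_simp [Complex.two_pi_I_ne_zero]
  · ext n
    rw [HahnSeries.coeff_single_mul, one_mul, theta_coeff]
    rcases lt_trichotomy n 0 with hn | rfl | hn
    · rw [ofPowerSeries_coeff_of_neg _ (by omega), ofPowerSeries_coeff_of_neg _ hn, mul_zero]
    · rw [ofPowerSeries_coeff_of_neg _ (by omega), Int.cast_zero, zero_mul]
    · lift n to ℕ using hn.le
      obtain ⟨m, rfl⟩ : ∃ m, n = m + 1 := ⟨n - 1, by omega⟩
      rw [show ((m + 1 : ℕ) : ℤ) - 1 = (m : ℤ) by push_cast; ring,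
        HahnSeries.ofPowerSeries_apply_coeff, HahnSeries.ofPowerSeries_apply_coeff,
        PowerSeries.coeff_mk]
      simp

/-- The series of `E₂`, defined as `θΔ/Δ`. -/
def e2Series : LaurentSeries ℂ := theta (deltaC ℂ) * deltaInvC ℂ

/-- `DΔ = E₂Δ`. -/
theorem D_discriminant (τ : ℍ) : D Δ τ = EisensteinSeries.E2 τ * Δ τ := by
  have hΔ : (Δ ∘ UpperHalfPlane.ofComplex) =ᶠ[𝓝 (τ : ℂ)] fun z => ModularForm.eta z ^ 24 := by
    filter_upwards [isOpen_upperHalfPlaneSet.mem_nhds τ.im_pos] with z hz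
    simp [ModularForm.discriminant, ofComplex_apply_of_im_pos hz]
  have he : ModularForm.eta (τ : ℂ) ≠ 0 := ModularForm.eta_ne_zero τ.2
  have hlog := ModularForm.logDeriv_eta_eq_E2 τ
  rw [logDeriv_apply, div_eq_iff he] at hlog
  rw [normalizedDerivOfComplex, hΔ.deriv_eq,
    ((ModularForm.differentiableAt_eta_of_mem_upperHalfPlaneSet τ.2).hasDerivAt.fun_pow 24).deriv, hlog,
    ModularForm.discriminant]
  field_simp [Complex.two_pi_I_ne_zero]
  push_cast
  ring

/-- The expansion of `E₂` is `θΔ/Δ`. -/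
theorem hasExp_E2 : HasExp 1 EisensteinSeries.E2 e2Series := by
  have h := (hasExp_D (formOfInvariant 12 Δ
    (fun γ => slash_eq_self CuspForm.discriminant γ)
    (ModularFormClass.holo CuspForm.discriminant)
    (ModularFormClass.bdd_at_infty CuspForm.discriminant)) hasExp_discriminant).mul
    hasExp_discriminant_inv
  refine h.congr fun τ => ?_
  show D Δ τ * (Δ τ)⁻¹ = _
  rw [D_discriminant, mul_inv_cancel_right₀ (ModularForm.discriminant_ne_zero τ)]

/-- The series of `E₂` is `1 + O(q)`. -/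
theorem e2Series_coeff_zero : e2Series.coeff 0 = 1 ∧ ∀ n : ℤ, n < 0 → e2Series.coeff n = 0 := by
  have h1 : theta (deltaC ℂ) = HahnSeries.single (1 : ℤ) 1 *
      (intSeries ℂ dedekindEtaUnit + theta (intSeries ℂ dedekindEtaUnit)) := by
    rw [deltaC, theta_mul]
    have : theta (HahnSeries.single (1 : ℤ) (1 : ℂ)) = HahnSeries.single (1 : ℤ) 1 := by
      ext n
      rcases eq_or_ne n 1 with rfl | hn
      · simp
      · simp [HahnSeries.coeff_single_of_ne hn]
    rw [this, mul_add]
  set P : PowerSeries ℂ := (PowerSeries.map (Int.castRingHom ℂ) dedekindEtaUnit +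
    PowerSeries.mk fun n => (n : ℂ) *
      PowerSeries.coeff n (PowerSeries.map (Int.castRingHom ℂ) dedekindEtaUnit)) *
    PowerSeries.map (Int.castRingHom ℂ) dedekindEtaUnitInv with hP
  have h2 : e2Series = HahnSeries.ofPowerSeries ℤ ℂ P := by
    have h3 : theta (intSeries ℂ dedekindEtaUnit) = HahnSeries.ofPowerSeries ℤ ℂ
        (PowerSeries.mk fun n => (n : ℂ) *
          PowerSeries.coeff n (PowerSeries.map (Int.castRingHom ℂ) dedekindEtaUnit)) := by
      ext n
      rcases lt_or_ge n 0 with hn | hn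
      · rw [theta_coeff, intSeries_coeff_of_neg _ _ hn, ofPowerSeries_coeff_of_neg _ hn, mul_zero]
      · lift n to ℕ using hn
        rw [theta_coeff, intSeries_coeff_natCast, HahnSeries.ofPowerSeries_apply_coeff,
          PowerSeries.coeff_mk, PowerSeries.coeff_map]
        simp
    rw [e2Series, h1, h3, deltaInvC, hP, map_mul, map_add, mul_mul_mul_comm,
      HahnSeries.single_mul_single, mul_one, add_neg_cancel, HahnSeries.single_zero_one, one_mul]
    rfl
  refine ⟨?_, fun n hn => by rw [h2, ofPowerSeries_coeff_of_neg _ hn]⟩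
  rw [h2, show (0 : ℤ) = ((0 : ℕ) : ℤ) from rfl, HahnSeries.ofPowerSeries_apply_coeff, hP,
    PowerSeries.coeff_zero_eq_constantCoeff, map_mul, map_add]
  simp [PowerSeries.constantCoeff_mk, ← PowerSeries.coeff_zero_eq_constantCoeff,
    PowerSeries.coeff_map]
  simp [PowerSeries.coeff_zero_eq_constantCoeff, constantCoeff_dedekindEtaUnit,
    constantCoeff_dedekindEtaUnitInv]

/-- Ramanujan: `3·D E₄ = E₂E₄ - E₆`. -/
theorem three_D_E4 (τ : ℍ) :
    3 * D (ModularForm.E₄ : ℍ → ℂ) τ =
      EisensteinSeries.E2 τ * ModularForm.E₄ τ - ModularForm.E₆ τ := by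
  set f := serreDerivative ((4 : ℤ) : ℂ) (ModularForm.E₄ : ℍ → ℂ) with hf
  have hinv : ∀ γ : SL(2, ℤ), f ∣[(6 : ℤ)] γ = f := fun γ =>
    serreDerivative_slash_invariant (k := 4) (ModularFormClass.holo ModularForm.E₄)
      (slash_eq_self ModularForm.E₄ γ)
  have hexp : HasExp 1 f (theta (e4C ℂ) - HahnSeries.C ((4 : ℂ) * 12⁻¹) * e2Series * e4C ℂ) :=
    (((hasExp_D ModularForm.E₄ hasExp_E4).sub
      (((HasExp.const 1 ((4 : ℂ) * 12⁻¹)).mul hasExp_E2).mul hasExp_E4))).congr fun z => by
        simp [hf]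
  obtain ⟨he2, he2'⟩ := e2Series_coeff_zero
  have he4' : ∀ n : ℤ, n < 0 → (e4C ℂ).coeff n = 0 := fun n hn => intSeries_coeff_of_neg _ _ hn
  have hlim : Tendsto f atImInfty (𝓝 (-(1 / 3 : ℂ))) := by
    have h1 := (hasExp_D ModularForm.E₄ hasExp_E4).tendsto one_ne_zero fun n hn => by
      rw [theta_coeff, he4' n hn, mul_zero]
    have h2 := hasExp_E2.tendsto one_ne_zero he2'
    have h3 := hasExp_E4.tendsto one_ne_zero he4'
    rw [theta_coeff, Int.cast_zero, zero_mul] at h1
    rw [he2] at h2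
    rw [e4C_coeff_zero] at h3
    have := h1.sub ((h2.const_mul ((4 : ℂ) * 12⁻¹)).mul h3)
    rw [show (0 : ℂ) - 4 * 12⁻¹ * 1 * 1 = -(1 / 3) by norm_num] at this
    exact this.congr fun z => by simp [hf]
  set F := formOfInvariant 6 f hinv
    (serreDerivative_mdifferentiable _ (ModularFormClass.holo ModularForm.E₄)) (hlim.isBigO_one ℝ)
  have hne : ModularForm.E₆ ≠ 0 := EisensteinSeries.E_ne_zero (by norm_num) (by decide)
  obtain ⟨c, hc⟩ : ∃ c : ℂ, c • ModularForm.E₆ = F :=
    exists_smul_eq_of_finrank_eq_one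
      (Module.rank_eq_one_iff_finrank_eq_one.mp ModularForm.levelOne_weight_six_rank_one) hne F
  have hc' : c = -(1 / 3) := by
    have h6 : Tendsto (ModularForm.E₆ : ℍ → ℂ) atImInfty (𝓝 1) := by
      have := (hasExp_qExpansion (N := 1) one_ne_zero
        (SlashInvariantFormClass.periodic_comp_ofComplex ModularForm.E₆ (by simp))
        (ModularFormClass.holo ModularForm.E₆)
        (ModularFormClass.bdd_at_infty ModularForm.E₆)).tendsto one_ne_zero
        fun n hn => ofPowerSeries_coeff_of_neg _ hn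
      rwa [show (0 : ℤ) = ((0 : ℕ) : ℤ) from rfl, HahnSeries.ofPowerSeries_apply_coeff,
        Nat.cast_one, show (ModularForm.E₆ : ModularForm 𝒮ℒ 6) = ModularForm.E (by norm_num) from rfl,
        EisensteinSeries.E_qExpansion_coeff_zero (by norm_num) (by decide)] at this
    refine tendsto_nhds_unique ?_ hlim
    have := h6.const_mul c
    rw [mul_one] at this
    exact this.congr fun z => congrFun (congrArg DFunLike.coe hc) z
  have hFz : c * ModularForm.E₆ τ = f τ := congrFun (congrArg DFunLike.coe hc) τ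
  rw [hc', hf, serreDerivative_apply] at hFz
  push_cast at hFz
  linear_combination (-3 : ℂ) * hFz

/-- `(θj)⁶ = j⁴ (j-1728)³ Δ`, over any commutative ring. -/
theorem theta_jqModC_pow_six (R : Type*) [CommRing R] :
    theta (jqModC R) ^ 6 = jqModC R ^ 4 * (jqModC R - 1728) ^ 3 * deltaC R := by
  suffices h : theta (jqModC ℤ) ^ 6 = jqModC ℤ ^ 4 * (jqModC ℤ - 1728) ^ 3 * deltaC ℤ by
    have := congrArg (coeffMap (Int.castRingHom R)) h
    simp only [map_pow, map_mul, map_sub, map_ofNat, coeffMap_theta, coeffMap_jqC, coeffMap_deltaC] at this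
    exact this
  apply coeffMap_injective (Int.castRingHom ℂ) Int.cast_injective
  simp only [map_pow, map_mul, map_sub, map_ofNat, coeffMap_theta, coeffMap_jqC, coeffMap_deltaC]
  set e := e4C ℂ
  set d := deltaC ℂ
  set i := deltaInvC ℂ
  have hdi : d * i = 1 := deltaC_mul_deltaInvC ℂ
  obtain ⟨e6, he6⟩ : ∃ s, HasExp 1 (ModularForm.E₆ : ℍ → ℂ) s :=
    ⟨_, hasExp_qExpansion (N := 1) one_ne_zero
      (SlashInvariantFormClass.periodic_comp_ofComplex ModularForm.E₆ (by simp))
      (ModularFormClass.holo ModularForm.E₆) (ModularFormClass.bdd_at_infty ModularForm.E₆)⟩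
  have h3 : 3 * theta e = e2Series * e - e6 := by
    have := (((HasExp.const 1 (3 : ℂ)).mul (hasExp_D ModularForm.E₄ hasExp_E4)).congr
      three_D_E4).unique one_ne_zero ((hasExp_E2.mul hasExp_E4).sub he6)
    rwa [map_ofNat] at this
  have hd : e ^ 3 - e6 ^ 2 = 1728 * d := by
    have h1 : HasExp 1 (fun τ : ℍ => 1728 * Δ τ) (HahnSeries.C 1728 * d) :=
      (HasExp.const 1 _).mul hasExp_discriminant
    have := ((hasExp_E4.pow 3).sub (he6.pow 2)).unique one_ne_zero (h1.congr fun τ => by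
      rw [ModularForm.discriminant_eq_E₄_cube_sub_E₆_sq]; ring)
    rwa [map_ofNat] at this
  have hti : theta i = -(e2Series * i) := by
    have h0 : theta d * i + d * theta i = 0 := by
      rw [← theta_mul, hdi, ← map_one HahnSeries.C, theta_C]
    have he2 : e2Series = theta d * i := rfl
    rw [he2]
    linear_combination i * h0 - theta i * hdi
  have hj : theta (jqModC ℂ) = -(i * e ^ 2 * e6) := by
    rw [jqModC_eq, pow_three, theta_mul, theta_mul, theta_mul, hti]
    linear_combination (e ^ 2 * i) * h3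
  rw [hj, jqModC_eq]
  have hsub : e ^ 3 * i - 1728 = i * e6 ^ 2 := by linear_combination i * hd + 1728 * hdi
  rw [hsub]
  linear_combination (-(e ^ 12 * i ^ 6 * e6 ^ 6)) * hdi

/-- `j` is `SL(2,ℤ)`-invariant. -/
theorem jFun_invariant (γ : SL(2, ℤ)) (τ : ℍ) : jFun (γ • τ) = jFun τ := by
  have h4 := congrFun (slash_eq_self ModularForm.E₄ γ) τ
  have h12 := congrFun (slash_eq_self CuspForm.discriminant γ) τ
  have hd := denom_ne_zero (γ : GL (Fin 2) ℝ) τ
  rw [ModularForm.SL_slash_apply] at h4 h12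
  rw [jFun, jFun, ← h4, ← CuspForm.coe_discriminant, ← h12]
  simp only [zpow_neg, zpow_ofNat]
  field_simp

/-- `j` is holomorphic. -/
theorem mdiff_jFun : MDiff jFun := by
  rw [UpperHalfPlane.mdifferentiable_iff]
  have h4 := UpperHalfPlane.mdifferentiable_iff.mp (ModularFormClass.holo ModularForm.E₄)
  have hd := UpperHalfPlane.mdifferentiable_iff.mp (ModularFormClass.holo CuspForm.discriminant)
  exact (h4.fun_pow 3).mul (hd.fun_inv fun z hz => by
    simpa using ModularForm.discriminant_ne_zero (UpperHalfPlane.ofComplex z))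

end Fermat.Agent.ModularFunctionField
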