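import Mathlib.RingTheory.RootsOfUnity.Complex
import Fermat.Agent.ModularFunctionField.LevelOne
import Fermat.Prelude.Thm_ModularCurve_coeff_jqModC_pow_self
import Fermat.Prelude.Thm_ModularCurve_coeff_jqModC_pow_of_lt
import Fermat.Prelude.Thm_ModularCurve_coeff_jqModC_neg_one

/-!
# Invariant holomorphic functions, meromorphic at `i∞`, are polynomials in `j`

The coefficients of the polynomial lie in any ring containing the `q`-expansion coefficients.
-/

set_option autoImplicit false

noncomputable section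

open Filter Complex ModularCurve
open UpperHalfPlane hiding I
open scoped Topology MatrixGroups Manifold

namespace Fermat.Agent.ModularFunctionField

local notation "𝕢" => Function.Periodic.qParam

/-- `j(q_Nᴺ)`: the series of `j` in the parameter `q_N`. -/
def jT (R : Type*) [CommRing R] (N : ℕ) [NeZero N] : LaurentSeries R :=
  qExpand R N (jqModC R)

/-- The series `jT` is natural in the ring. -/
@[simp]
theorem coeffMap_jT {R S : Type*} [CommRing R] [CommRing S] (f : R →+* S) (N : ℕ) [NeZero N] :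
    coeffMap f (jT R N) = jT S N := by
  rw [jT, coeffMap_qExpand', coeffMap_jqC, jT]

/-- `jᵏ` has leading coefficient one at `q_N^{-Nk}`. -/
theorem coeff_jT_pow_self (R : Type*) [CommRing R] (N : ℕ) [NeZero N] (k : ℕ) :
    (jT R N ^ k).coeff (-((N * k : ℕ) : ℤ)) = 1 := by
  rw [jT, ← map_pow, show -((N * k : ℕ) : ℤ) = (N : ℤ) * (-(k : ℤ)) by push_cast; ring,
    qExpand_coeff_mul]
  exact ModularCurve.coeff_jqModC_pow_self R k

/-- `jᵏ` has no terms below `q_N^{-Nk}`. -/
theorem coeff_jT_pow_of_lt (R : Type*) [CommRing R] (N : ℕ) [NeZero N] {k : ℕ} {i : ℤ}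
    (hi : i < -((N * k : ℕ) : ℤ)) : (jT R N ^ k).coeff i = 0 := by
  rw [jT, ← map_pow]
  by_cases h : (N : ℤ) ∣ i
  · obtain ⟨m, rfl⟩ := h
    rw [qExpand_coeff_mul]
    refine ModularCurve.coeff_jqModC_pow_of_lt R ?_
    push_cast at hi
    have : (N : ℤ) * m < (N : ℤ) * (-(k : ℤ)) := by linarith
    exact lt_of_mul_lt_mul_left this (Int.natCast_nonneg N)
  · exact qExpand_coeff_of_not_dvd N _ h

theorem hasExp_jFun_width (N : ℕ) [NeZero N] : HasExp N jFun (jT ℂ N) :=
  hasExp_jFun.qExpand N (one_mul N).symm one_ne_zero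

/-- The primitive root of unity `exp (2πi/N)` as a unit. -/
def rootUnit (N : ℕ) : ℂˣ := Units.mk0 (Complex.exp (2 * Real.pi * I / N)) (Complex.exp_ne_zero _)

/-- `exp (2πi/N)` is a primitive `N`-th root of unity. -/
theorem isPrimitiveRoot_rootUnit (N : ℕ) [NeZero N] : IsPrimitiveRoot (rootUnit N) N :=
  IsPrimitiveRoot.coe_units_iff.mp (Complex.isPrimitiveRoot_exp N (NeZero.ne N))

/-- Translations tend to `i∞` at `i∞`. -/
theorem tendsto_vadd_atImInfty (x : ℝ) : Tendsto (fun τ : ℍ => x +ᵥ τ) atImInfty atImInfty := by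
  refine tendsto_comap_iff.mpr ?_
  exact (tendsto_comap.congr fun τ => (vadd_im x τ).symm)

/-- `τ ↦ τ + 1` multiplies `q_N` by `exp (2πi/N)`. -/
theorem qParam_vadd_one (N : ℕ) (τ : ℍ) :
    𝕢 (N : ℝ) (((1 : ℝ) +ᵥ τ : ℍ) : ℂ) = (rootUnit N : ℂ) * 𝕢 (N : ℝ) τ ^ 1 := by
  rw [pow_one, rootUnit, Units.val_mk0, Function.Periodic.qParam, Function.Periodic.qParam,
    ← Complex.exp_add, coe_vadd]
  congr 1
  push_cast
  ring

/-- The expansion of an invariant function only has exponents divisible by the width. -/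
theorem invariant_coeff_eq_zero {R : Type*} [CommRing R] (ι : R →+* ℂ)
    (hι : Function.Injective ι) {N : ℕ} [NeZero N] {f : ℍ → ℂ} {s : LaurentSeries R}
    (hinv : ∀ (γ : SL(2, ℤ)) (τ : ℍ), f (γ • τ) = f τ) (hs : HasExp N f (coeffMap ι s))
    {i : ℤ} (hi : ¬ (N : ℤ) ∣ i) : s.coeff i = 0 := by
  have h := (hs.comp (N := N) (fun τ => (1 : ℝ) +ᵥ τ) (tendsto_vadd_atImInfty 1) (rootUnit N) 1
    (qParam_vadd_one N)).congr (g := f) fun τ => by rw [← modular_T_smul, hinv]
  have h2 := congrArg (fun t : LaurentSeries ℂ => t.coeff i) (hs.unique (NeZero.ne N) h)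
  simp only [coeffMap_coeff] at h2
  rw [show i = ((1 : ℕ) : ℤ) * i by simp, subst_coeff_mul, Nat.cast_one, one_mul,
    coeffMap_coeff] at h2
  have hne : ((rootUnit N ^ i : ℂˣ) : ℂ) - 1 ≠ 0 := sub_ne_zero.mpr fun h1 => hi
    (((isPrimitiveRoot_rootUnit N).zpow_eq_one_iff_dvd i).mp (Units.val_eq_one.mp h1))
  refine hι ?_
  rw [map_zero]
  refine (mul_eq_zero.mp (?_ : (((rootUnit N ^ i : ℂˣ) : ℂ) - 1) * ι (s.coeff i) = 0)).resolve_left hne
  linear_combination -h2

/-- An `SL(2,ℤ)`-invariant holomorphic function with an expansion over `R` at `i∞` is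
a polynomial in `j` with coefficients in `R`. -/
theorem exists_polynomial_of_invariant {R : Type*} [CommRing R] (ι : R →+* ℂ)
    (hι : Function.Injective ι) {N : ℕ} [NeZero N] {f : ℍ → ℂ} {s : LaurentSeries R}
    (hinv : ∀ (γ : SL(2, ℤ)) (τ : ℍ), f (γ • τ) = f τ) (hol : MDiff f)
    (hs : HasExp N f (coeffMap ι s)) :
    ∃ P : Polynomial R, s = P.eval₂ HahnSeries.C (jT R N) ∧
      ∀ τ, f τ = (P.map ι).eval (jFun τ) := by
  obtain ⟨n, hn⟩ : ∃ n : ℕ, ∀ i : ℤ, i < -(n : ℤ) → s.coeff i = 0 :=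
    ⟨(-s.order).toNat, fun i hi => HahnSeries.coeff_eq_zero_of_lt_order (by omega)⟩
  induction n generalizing f s with
  | zero =>
    have hbdd : IsBoundedAtImInfty f := (hs.tendsto (NeZero.ne N) fun i hi => by
      rw [coeffMap_coeff, hn i (by simpa using hi), map_zero]).isBigO_one ℝ
    obtain ⟨c, hc⟩ := eq_const_of_invariant f hinv hol hbdd
    have h2 := hs.unique (NeZero.ne N)
      ((HasExp.const N c).congr (g := f) fun τ => (congrFun hc τ).symm)
    have hc0 : c = ι (s.coeff 0) := by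
      have := congrArg (fun t : LaurentSeries ℂ => t.coeff 0) h2
      simpa [HahnSeries.C_apply] using this.symm
    refine ⟨Polynomial.C (s.coeff 0), ?_, fun τ => ?_⟩
    · refine coeffMap_injective ι hι ?_
      rw [h2, hc0, Polynomial.eval₂_C, coeffMap_C]
    · simpa [hc0] using congrFun hc τ
  | succ n ih =>
    set r := s.coeff (-((n + 1 : ℕ) : ℤ)) with hr
    by_cases hN : N ∣ n + 1
    · obtain ⟨k, hk⟩ := hN
      have hs' : HasExp N (fun τ => f τ - ι r * jFun τ ^ k)
          (coeffMap ι (s - HahnSeries.C r * jT R N ^ k)) := by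
        rw [map_sub, map_mul, map_pow, coeffMap_jT, coeffMap_C]
        exact hs.sub ((HasExp.const N _).mul ((hasExp_jFun_width N).pow k))
      obtain ⟨P, hP, hPτ⟩ := ih (fun γ τ => by
          simp only [Pi.sub_apply, Pi.mul_apply, Pi.pow_apply, hinv, jFun_invariant])
        (hol.sub (mdifferentiable_const.mul (mdiff_jFun.pow k))) hs' fun i hi => by
          rw [HahnSeries.coeff_sub, HahnSeries.C_mul_eq_smul, HahnSeries.coeff_smul, smul_eq_mul]
          rcases lt_or_eq_of_le (show i ≤ -((n + 1 : ℕ) : ℤ) by push_cast; omega) with h | h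
          · rw [hn i h, coeff_jT_pow_of_lt R N (by rw [← hk]; exact h), mul_zero, sub_zero]
          · subst h
            rw [hk, coeff_jT_pow_self, mul_one, hr, hk, sub_self]
      refine ⟨P + Polynomial.C r * Polynomial.X ^ k, ?_, fun τ => ?_⟩
      · rw [Polynomial.eval₂_add, ← hP, Polynomial.eval₂_mul, Polynomial.eval₂_C,
          Polynomial.eval₂_X_pow, sub_add_cancel]
      · simp [Polynomial.map_pow, ← hPτ τ]
    · have hr0 : r = 0 := invariant_coeff_eq_zero ι hι hinv hs fun h => hN (by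
        rw [dvd_neg] at h; exact_mod_cast h)
      refine ih hinv hol hs fun i hi => ?_
      rcases lt_or_eq_of_le (show i ≤ -((n + 1 : ℕ) : ℤ) by push_cast; omega) with h | h
      · exact hn i h
      · rw [h]; exact hr0

/-- `j : ℍ → ℂ` is surjective. -/
theorem jFun_surjective : Function.Surjective jFun := by
  intro a
  by_contra h
  push Not at h
  set g : ℍ → ℂ := fun τ => (jFun τ - a)⁻¹ with hg
  have hne : ∀ τ, jFun τ - a ≠ 0 := fun τ => sub_ne_zero.mpr (h τ)
  have hol : MDiff g := by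
    rw [UpperHalfPlane.mdifferentiable_iff]
    exact ((UpperHalfPlane.mdifferentiable_iff.mp mdiff_jFun).sub_const a).fun_inv fun z _ =>
      hne (UpperHalfPlane.ofComplex z)
  have hlim : Tendsto g atImInfty (𝓝 0) := by
    have h0 : Tendsto (fun τ : ℍ => (1 * 𝕢 ((1 : ℕ) : ℝ) τ ^ (1 : ℤ) * (jFun τ - a))) atImInfty
        (𝓝 ((HahnSeries.single (1 : ℤ) 1 * (jqModC ℂ - HahnSeries.C a)).coeff 0)) :=
      ((HasExp.single 1 1 1).mul (hasExp_jFun.sub (HasExp.const 1 a))).tendsto one_ne_zero
        fun n hn => by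
          rw [HahnSeries.coeff_single_mul, one_mul, HahnSeries.coeff_sub, HahnSeries.C_apply,
            HahnSeries.coeff_single_of_ne (by omega), sub_zero, ← pow_one (jqModC ℂ)]
          exact ModularCurve.coeff_jqModC_pow_of_lt ℂ (by push_cast; omega)
    rw [HahnSeries.coeff_single_mul, one_mul, HahnSeries.coeff_sub, HahnSeries.C_apply,
      HahnSeries.coeff_single_of_ne (by omega), sub_zero, zero_sub,
      ModularCurve.coeff_jqModC_neg_one] at h0
    have hq := UpperHalfPlane.qParam_tendsto_atImInfty (show (0 : ℝ) < ((1 : ℕ) : ℝ) by norm_num)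
    have := hq.mul (h0.inv₀ one_ne_zero)
    rw [zero_mul] at this
    refine this.congr fun τ => ?_
    have : 𝕢 ((1 : ℕ) : ℝ) (τ : ℂ) ≠ 0 := Function.Periodic.qParam_ne_zero _
    simp only [hg, one_mul, zpow_one]
    field_simp
  obtain ⟨c, hc⟩ := eq_const_of_invariant g (fun γ τ => by simp only [hg, jFun_invariant]) hol
    (hlim.isBigO_one ℝ)
  rw [hc] at hlim
  have hc0 : c = 0 := tendsto_nhds_unique tendsto_const_nhds hlim
  have := congrFun hc UpperHalfPlane.I
  rw [Function.const_apply, hc0] at this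
  exact inv_ne_zero (hne _) this

/-- Every complex number is a value of `j`. -/
theorem exists_jFun_eq (a : ℂ) : ∃ τ : ℍ, jFun τ = a := jFun_surjective a

end Fermat.Agent.ModularFunctionField
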