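import Mathlib.RingTheory.Polynomial.Cyclotomic.Roots
import Mathlib.RingTheory.AdjoinRoot
import Mathlib.FieldTheory.Minpoly.IsIntegrallyClosed
import Mathlib.RingTheory.RootsOfUnity.Complex
import Fermat.Agent.ModularFunctionField.InvariantPoly

/-!
# The ring `ℤ[ζ_N]` and its maps to fields
-/

set_option autoImplicit false

noncomputable section

open Polynomial

namespace Fermat.Agent.ModularFunctionField

variable (N : ℕ) [NeZero N]

/-- `ℤ[ζ_N]`. -/
abbrev Cyc : Type := AdjoinRoot (cyclotomic N ℤ)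

omit [NeZero N] in
theorem root_pow_eq_one : (AdjoinRoot.root (cyclotomic N ℤ) : Cyc N) ^ N = 1 := by
  obtain ⟨Q, hQ⟩ := cyclotomic.dvd_X_pow_sub_one N ℤ
  have := congrArg (aeval (AdjoinRoot.root (cyclotomic N ℤ))) hQ
  simp only [map_sub, map_pow, aeval_X, map_one, map_mul] at this
  rw [AdjoinRoot.aeval_eq, AdjoinRoot.mk_self, zero_mul, sub_eq_zero] at this
  exact this

/-- `ζ_N` as a unit of `ℤ[ζ_N]`. -/
def cycUnit : (Cyc N)ˣ := Units.ofPowEqOne _ N (root_pow_eq_one N) (NeZero.ne N)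

variable {N} {K : Type*} [CommRing K] [IsDomain K]

/-- The map `ℤ[ζ_N] → K` given by a primitive `N`-th root of unity. -/
def cycHom (z : K) (hz : IsPrimitiveRoot z N) : Cyc N →+* K :=
  AdjoinRoot.lift (Int.castRingHom K) z (by
    have h := hz.isRoot_cyclotomic (Nat.pos_of_ne_zero (NeZero.ne N))
    rwa [IsRoot, ← map_cyclotomic_int N K, eval_map] at h)

theorem cycHom_root (z : K) (hz : IsPrimitiveRoot z N) :
    cycHom z hz (AdjoinRoot.root (cyclotomic N ℤ)) = z :=
  AdjoinRoot.lift_root _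

/-- `cycHom` is evaluation at the root of unity. -/
theorem cycHom_mk (z : K) (hz : IsPrimitiveRoot z N) (p : ℤ[X]) :
    cycHom z hz (AdjoinRoot.mk _ p) = p.eval₂ (Int.castRingHom K) z :=
  AdjoinRoot.lift_mk _ p

/-- `cycHom` sends `ζ_N` to the chosen root of unity. -/
theorem map_cycUnit (u : Kˣ) (hu : IsPrimitiveRoot (u : K) N) :
    Units.map (cycHom (u : K) hu : Cyc N →* K) (cycUnit N) = u :=
  Units.ext (cycHom_root (u : K) hu)

variable (N)

/-- The embedding of `ℤ[ζ_N]` in `ℂ` with `ζ_N ↦ exp (2πi/N)`. -/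
def cycC : Cyc N →+* ℂ :=
  cycHom (rootUnit N : ℂ) (IsPrimitiveRoot.coe_units_iff.mpr (isPrimitiveRoot_rootUnit N))

/-- `cycC` sends `ζ_N` to `exp (2πi/N)`. -/
theorem map_cycUnit_cycC : Units.map (cycC N : Cyc N →* ℂ) (cycUnit N) = rootUnit N :=
  map_cycUnit _ _

variable {N}

/-- `ℤ[ζ_N]` embeds in every field of characteristic zero with a primitive `N`-th root
of unity. -/
theorem cycHom_injective {K : Type*} [Field K] [CharZero K] (z : K) (hz : IsPrimitiveRoot z N) :
    Function.Injective (cycHom z hz) := by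
  rw [injective_iff_map_eq_zero]
  intro x hx
  obtain ⟨p, rfl⟩ := AdjoinRoot.mk_surjective x
  rw [cycHom_mk] at hx
  rw [AdjoinRoot.mk_eq_zero, cyclotomic_eq_minpoly hz (Nat.pos_of_ne_zero (NeZero.ne N))]
  exact minpoly.isIntegrallyClosed_dvd (hz.isIntegral (Nat.pos_of_ne_zero (NeZero.ne N)))
    (by rwa [aeval_def, algebraMap_int_eq])

/-- `ℤ[ζ_N]` embeds in `ℂ`. -/
theorem cycC_injective : Function.Injective (cycC N) := cycHom_injective _ _

/-- The endomorphism `ζ_N ↦ ζ_Nᵏ` composed with the embedding in `ℂ`. -/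
def cycConj {k : ℕ} (hk : k.Coprime N) : Cyc N →+* ℂ :=
  cycHom ((rootUnit N : ℂ) ^ k)
    ((IsPrimitiveRoot.coe_units_iff.mpr (isPrimitiveRoot_rootUnit N)).pow_of_coprime k hk)

/-- `cycConj` sends `ζ_N` to `exp (2πi/N)ᵏ`. -/
theorem map_cycUnit_cycConj {k : ℕ} (hk : k.Coprime N) :
    Units.map (cycConj hk : Cyc N →* ℂ) (cycUnit N) = rootUnit N ^ k := by
  ext; rw [Units.val_pow_eq_pow_val]
  exact cycHom_root _
    ((IsPrimitiveRoot.coe_units_iff.mpr (isPrimitiveRoot_rootUnit N)).pow_of_coprime k hk)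

/-- An element of `ℤ[ζ_N]` fixed by every conjugation is an integer. -/
theorem exists_int_of_forall_conj (r : Cyc N)
    (h : ∀ (k : ℕ) (hk : k.Coprime N), cycConj hk r = cycC N r) :
    ∃ n : ℤ, r = (n : Cyc N) := by
  obtain ⟨p₀, rfl⟩ := AdjoinRoot.mk_surjective r
  set Φ := cyclotomic N ℤ
  set p := p₀ %ₘ Φ
  have hp : AdjoinRoot.mk Φ p₀ = AdjoinRoot.mk Φ p := by
    rw [AdjoinRoot.mk_eq_mk]
    exact ⟨p₀ /ₘ Φ, by linear_combination -(modByMonic_add_div p₀ Φ)⟩
  rw [hp] at h ⊢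
  set c : ℂ := cycC N (AdjoinRoot.mk Φ p) with hc
  set P : ℂ[X] := p.map (Int.castRingHom ℂ) - C c
  have hz := IsPrimitiveRoot.coe_units_iff.mpr (isPrimitiveRoot_rootUnit N)
  have hroot : ∀ w ∈ primitiveRoots N ℂ, P.IsRoot w := by
    intro w hw
    rw [mem_primitiveRoots (Nat.pos_of_ne_zero (NeZero.ne N)), hz.isPrimitiveRoot_iff] at hw
    obtain ⟨k, -, hk, rfl⟩ := hw
    have := h k hk
    rw [cycConj, cycHom_mk] at this
    rw [IsRoot, eval_sub, eval_map, eval_C, this, sub_self]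
  have hP : P = 0 := by
    refine eq_zero_of_natDegree_lt_card_of_eval_eq_zero' P (primitiveRoots N ℂ) hroot ?_
    rw [hz.card_primitiveRoots]
    have h1 : p.natDegree < N.totient := by
      rw [← natDegree_cyclotomic N ℤ]
      exact natDegree_modByMonic_lt p₀ (cyclotomic.monic N ℤ) fun h1 => by
        have := congrArg natDegree h1
        rw [natDegree_cyclotomic, natDegree_one] at this
        have := Nat.totient_pos.mpr (Nat.pos_of_ne_zero (NeZero.ne N))
        omega
    refine lt_of_le_of_lt ((natDegree_sub_le _ _).trans ?_) h1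
    rw [natDegree_C, max_eq_left (Nat.zero_le _)]
    exact natDegree_map_le
  refine ⟨p.coeff 0, ?_⟩
  have : p.natDegree = 0 := by
    have := congrArg natDegree (sub_eq_zero.mp hP)
    rwa [natDegree_C, natDegree_map_eq_of_injective Int.cast_injective] at this
  conv_lhs => rw [eq_C_of_natDegree_eq_zero this]
  rw [AdjoinRoot.mk_C]
  exact map_intCast (AdjoinRoot.of Φ) _

end Fermat.Agent.ModularFunctionField
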