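import Fermat.Agent.ModularFunctionField.Triples

/-!
# The series `j ((aτ+b)/d)` in the parameter `q_N`

For `M : Tri m` and `N = m * c`, `rootSubst u c M` is the substitution `q ↦ ζ_Nᵇᵃᶜ q_N^{a²c}`
corresponding to `τ ↦ (aτ+b)/d`.
-/

set_option autoImplicit false

noncomputable section

open Filter Complex ModularCurve
open UpperHalfPlane hiding I
open scoped Topology MatrixGroups Manifold

namespace Fermat.Agent.ModularFunctionField

variable {R S : Type*} [CommRing R] [CommRing S] {m : ℕ} [NeZero m]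

/-- The substitution corresponding to `τ ↦ (aτ+b)/d` in the parameter `q_{mc}`. -/
def rootSubst (u : Rˣ) (c : ℕ) [NeZero c] (M : Tri m) : LaurentSeries R →+* LaurentSeries R :=
  subst (u ^ (M.b * M.a * c)) (M.a * M.a * c)

/-- The series of `j ((aτ+b)/d)`. -/
def jRoot (u : Rˣ) (c : ℕ) [NeZero c] (M : Tri m) : LaurentSeries R :=
  rootSubst u c M (jqModC R)

/-- The leading coefficient of `j` after `q ↦ u qᵖ`. -/
theorem coeff_subst_jq_self (u : Rˣ) (p : ℕ) [NeZero p] :
    (subst u p (jqModC R)).coeff (-(p : ℤ)) = ((u⁻¹ : Rˣ) : R) := by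
  rw [show -(p : ℤ) = (p : ℤ) * (-1) by ring, subst_coeff_mul,
    ModularCurve.coeff_jqModC_neg_one, mul_one, zpow_neg_one]

/-- The coefficients of `j` after `q ↦ u qᵖ` vanish below `-p`. -/
theorem coeff_subst_jq_of_lt (u : Rˣ) (p : ℕ) [NeZero p] {i : ℤ} (hi : i < -(p : ℤ)) :
    (subst u p (jqModC R)).coeff i = 0 := by
  by_cases h : (p : ℤ) ∣ i
  · obtain ⟨n, rfl⟩ := h
    rw [subst_coeff_mul, ← pow_one (jqModC R),
      ModularCurve.coeff_jqModC_pow_of_lt R (b := 1), mul_zero]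
    rw [Nat.cast_one]
    refine lt_of_mul_lt_mul_left ?_ (Int.natCast_nonneg p)
    rw [mul_neg_one]
    exact hi
  · exact subst_coeff_of_not_dvd _ _ _ h

theorem coeffMap_rootSubst (f : R →+* S) (u : Rˣ) (c : ℕ) [NeZero c] (M : Tri m)
    (x : LaurentSeries R) :
    coeffMap f (rootSubst u c M x) = rootSubst (Units.map (f : R →* S) u) c M (coeffMap f x) := by
  rw [rootSubst, coeffMap_subst, map_pow, rootSubst]

/-- `jRoot` is natural in the ring. -/
theorem coeffMap_jRoot (f : R →+* S) (u : Rˣ) (c : ℕ) [NeZero c] (M : Tri m) :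
    coeffMap f (jRoot u c M) = jRoot (Units.map (f : R →* S) u) c M := by
  rw [jRoot, coeffMap_rootSubst, coeffMap_jqC, jRoot]

/-- The series of `j(mτ)`. -/
theorem jRoot_top (u : Rˣ) (c : ℕ) [NeZero c] :
    jRoot u c (Tri.top : Tri m) = qExpand R (m * m * c) (jqModC R) := by
  show subst (u ^ (0 * m * c)) (m * m * c) (jqModC R) = _
  rw [subst_congr (v := 1) (l := m * m * c) (by simp) rfl, subst_one]

/-- The leading coefficient of `jRoot`, and the vanishing below it. -/
theorem coeff_jRoot (u : Rˣ) (c : ℕ) [NeZero c] (M : Tri m) :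
    (jRoot u c M).coeff (-((M.a * M.a * c : ℕ) : ℤ)) =
        (((u ^ (M.b * M.a * c))⁻¹ : Rˣ) : R) ∧
      ∀ i : ℤ, i < -((M.a * M.a * c : ℕ) : ℤ) → (jRoot u c M).coeff i = 0 :=
  ⟨coeff_subst_jq_self _ _, fun _ => coeff_subst_jq_of_lt _ _⟩

/-- The series of `j ((aτ+b)/d)` has order `-a²c`. -/
theorem order_jRoot [Nontrivial R] (u : Rˣ) (c : ℕ) [NeZero c] (M : Tri m) :
    (jRoot u c M).order = -((M.a * M.a * c : ℕ) : ℤ) ∧ jRoot u c M ≠ 0 := by
  obtain ⟨h1, h2⟩ := coeff_jRoot u c M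
  have hc : (jRoot u c M).coeff (-((M.a * M.a * c : ℕ) : ℤ)) ≠ 0 := h1 ▸ Units.ne_zero _
  have hne : jRoot u c M ≠ 0 := HahnSeries.ne_zero_of_coeff_ne_zero hc
  refine ⟨le_antisymm (HahnSeries.order_le_of_coeff_ne_zero hc) ?_, hne⟩
  by_contra h
  exact HahnSeries.coeff_order_eq_zero.not.mpr hne (h2 _ (not_le.mp h))

/-- Distinct triples give distinct series. -/
theorem jRoot_injective [IsDomain R] {N : ℕ} {u : Rˣ}
    (hu : IsPrimitiveRoot u N) (c : ℕ) [NeZero c] (hN : m * c = N) :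
    Function.Injective (jRoot (m := m) u c) := by
  intro M M' h
  have ho := (order_jRoot u c M).1
  rw [h, (order_jRoot u c M').1] at ho
  have haa : M.a * M.a * c = M'.a * M'.a * c := by exact_mod_cast (neg_injective ho).symm
  have ha : M.a = M'.a := by
    have := Nat.eq_of_mul_eq_mul_right (Nat.pos_of_ne_zero (NeZero.ne c)) haa
    exact Nat.mul_self_inj.mp this
  refine Tri.ext_a_b ha ?_
  have hd : M.d = M'.d := Nat.eq_of_mul_eq_mul_left M.a_pos
    (by rw [M.a_mul_d, ha, M'.a_mul_d])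
  have h2 := (coeff_jRoot u c M).1
  rw [h, haa, (coeff_jRoot u c M').1, Units.val_inj, inv_inj] at h2
  have hN' : N = M.d * (M.a * c) :=
    calc N = M.a * M.d * c := by rw [M.a_mul_d, hN]
      _ = M.d * (M.a * c) := by ring
  have hz : u ^ ((((M.b * M.a * c : ℕ) : ℤ)) - ((M'.b * M'.a * c : ℕ) : ℤ)) = 1 := by
    rw [zpow_sub, zpow_natCast, zpow_natCast, h2, mul_inv_cancel]
  have hdvd := (hu.zpow_eq_one_iff_dvd _).mp hz
  rw [hN', ← ha, show ((M.b * M.a * c : ℕ) : ℤ) - ((M'.b * M.a * c : ℕ) : ℤ)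
      = ((M.b : ℤ) - M'.b) * ((M.a * c : ℕ) : ℤ) by push_cast; ring, Nat.cast_mul M.d] at hdvd
  have hac : ((M.a * c : ℕ) : ℤ) ≠ 0 := by
    exact_mod_cast mul_ne_zero M.a_pos.ne' (NeZero.ne c)
  have hb := Int.eq_zero_of_dvd_of_natAbs_lt_natAbs ((mul_dvd_mul_iff_right hac).mp hdvd) (by
    have := M.b_lt
    have := M'.b_lt
    omega)
  omega

/-! ### Analytic meaning -/

local notation "Δ" => ModularForm.discriminant

/-- Substituting in the series gives the expansion of `f ((aτ+b)/d)`. -/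
theorem hasExp_comp_map {N : ℕ} [NeZero N] (c : ℕ) [NeZero c] (hN : m * c = N) (M : Tri m)
    {f : ℍ → ℂ} {s : LaurentSeries ℂ} (hf : HasExp 1 f s) :
    HasExp N (fun τ => f (M.map τ)) (rootSubst (rootUnit N) c M s) := by
  refine hf.comp M.map M.tendsto_map _ _ fun τ => ?_
  have hN0 : (N : ℂ) ≠ 0 := by exact_mod_cast NeZero.ne N
  have hd : (M.d : ℂ) ≠ 0 := by exact_mod_cast M.d_pos.ne'
  have ha : (M.a : ℂ) ≠ 0 := by exact_mod_cast M.a_pos.ne'
  have hc : (c : ℂ) ≠ 0 := by exact_mod_cast NeZero.ne c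
  have hNC : (N : ℂ) = (M.a : ℂ) * M.d * c := by
    exact_mod_cast (show N = M.a * M.d * c by rw [M.a_mul_d, hN])
  rw [Units.val_pow_eq_pow_val, rootUnit, Units.val_mk0, Function.Periodic.qParam,
    Function.Periodic.qParam, ← Complex.exp_nat_mul, ← Complex.exp_nat_mul, ← Complex.exp_add,
    Tri.coe_map]
  congr 1
  push_cast
  rw [hNC]
  field_simp
  ring

/-- `jRoot` is the expansion of `j ((aτ+b)/d)` in `q_N`. -/
theorem hasExp_jRoot {N : ℕ} [NeZero N] (c : ℕ) [NeZero c] (hN : m * c = N) (M : Tri m) :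
    HasExp N (fun τ => jFun (M.map τ)) (jRoot (rootUnit N) c M) :=
  hasExp_comp_map c hN M hasExp_jFun

/-- `SL(2,ℤ)` permutes the functions `j ((aτ+b)/d)` as it permutes the triples. -/
theorem jFun_map_smul (γ : SL(2, ℤ)) (M : Tri m) (τ : ℍ) :
    jFun (M.map (γ • τ)) = jFun ((Tri.act γ M).map τ) := by
  rw [(M.map_smul γ τ).1, jFun_invariant]

theorem Tri.act_injective (γ : SL(2, ℤ)) : Function.Injective (Tri.act (N := m) γ) := by
  intro M M' h
  have key' : ∀ σ, jFun (M.map (γ • σ)) = jFun (M'.map (γ • σ)) := fun σ => by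
    rw [jFun_map_smul, jFun_map_smul, h]
  have key : ∀ τ, jFun (M.map τ) = jFun (M'.map τ) := fun τ => by
    simpa [smul_inv_smul] using key' (γ⁻¹ • τ)
  refine jRoot_injective (isPrimitiveRoot_rootUnit m) 1 (mul_one m) ?_
  exact (hasExp_jRoot 1 (mul_one m) M).unique (NeZero.ne m)
    ((hasExp_jRoot 1 (mul_one m) M').congr fun τ => (key τ).symm)

/-- The permutation of triples by `γ`. -/
def Tri.perm (γ : SL(2, ℤ)) : Equiv.Perm (Tri m) :=
  Equiv.ofBijective _ (Finite.injective_iff_bijective.mp (Tri.act_injective γ))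

/-- `a¹² Δ((aτ+b)/d)/Δ(τ)`. -/
def unitFun (M : Tri m) (τ : ℍ) : ℂ := (M.a : ℂ) ^ 12 * Δ (M.map τ) * (Δ τ)⁻¹

/-- `d¹² Δ(τ)/Δ((aτ+b)/d)`. -/
def unitInvFun (M : Tri m) (τ : ℍ) : ℂ := (M.d : ℂ) ^ 12 * (Δ (M.map τ))⁻¹ * Δ τ

/-- `Δ` has weight `12`. -/
theorem discriminant_smul (γ : SL(2, ℤ)) (τ : ℍ) :
    Δ (γ • τ) = ((γ.1 1 0 : ℂ) * τ + γ.1 1 1) ^ 12 * Δ τ := by
  have h := congrFun (slash_eq_self CuspForm.discriminant γ) τ
  rw [ModularForm.SL_slash_apply, CuspForm.coe_discriminant] at h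
  have hd := denom_ne_zero (γ : GL (Fin 2) ℝ) τ
  have e : denom (γ : GL (Fin 2) ℝ) τ = (γ.1 1 0 : ℂ) * τ + γ.1 1 1 := by simp [denom]
  rw [e] at h hd
  rw [← h]
  simp only [zpow_neg, zpow_ofNat]
  field_simp

/-- `SL(2,ℤ)` permutes the functions `unitFun M` as it permutes the triples. -/
theorem unitFun_smul (γ : SL(2, ℤ)) (M : Tri m) (τ : ℍ) :
    unitFun M (γ • τ) = unitFun (Tri.act γ M) τ := by
  obtain ⟨h1, h2⟩ := M.map_smul γ τ
  set g := Tri.actMatrix γ M
  set M' := Tri.act γ M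
  have hd' : (M'.d : ℂ) ≠ 0 := by exact_mod_cast M'.d_pos.ne'
  have hΔ := ModularForm.discriminant_ne_zero τ
  have hγ : (γ.1 1 0 : ℂ) * τ + γ.1 1 1 ≠ 0 := by
    intro h
    refine denom_ne_zero (γ : GL (Fin 2) ℝ) τ ?_
    simp [denom, h]
  have hj : ((g.1 1 0 : ℂ) * (M'.map τ : ℂ) + g.1 1 1) =
      (M.d : ℂ) * ((γ.1 1 0 : ℂ) * τ + γ.1 1 1) / M'.d := by
    rw [h2]; field_simp
  have hm : (M.a : ℂ) * M.d = (M'.a : ℂ) * M'.d := by
    exact_mod_cast M.a_mul_d.trans M'.a_mul_d.symm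
  rw [unitFun, unitFun, h1, discriminant_smul, discriminant_smul, hj]
  field_simp
  have hm12 := congrArg (· ^ 12) hm
  linear_combination (ModularForm.discriminant (M'.map τ)) * hm12

theorem unitFun_mul_unitInvFun (M : Tri m) (τ : ℍ) :
    unitFun M τ * unitInvFun M τ = (m : ℂ) ^ 12 := by
  have h1 := ModularForm.discriminant_ne_zero τ
  have h2 := ModularForm.discriminant_ne_zero (M.map τ)
  have hm : (M.a : ℂ) * M.d = m := by exact_mod_cast M.a_mul_d
  rw [unitFun, unitInvFun, ← hm]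
  field_simp

/-- `SL(2,ℤ)` permutes the functions `unitInvFun M`. -/
theorem unitInvFun_smul (γ : SL(2, ℤ)) (M : Tri m) (τ : ℍ) :
    unitInvFun M (γ • τ) = unitInvFun (Tri.act γ M) τ := by
  have h : unitFun (Tri.act γ M) τ ≠ 0 := by
    refine left_ne_zero_of_mul (b := unitInvFun (Tri.act γ M) τ) ?_
    rw [unitFun_mul_unitInvFun]
    exact pow_ne_zero _ (by exact_mod_cast NeZero.ne m)
  refine mul_left_cancel₀ h ?_
  rw [unitFun_mul_unitInvFun, ← unitFun_smul, unitFun_mul_unitInvFun]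

/-- The series of `unitFun`. -/
def unitSeries (u : Rˣ) (c : ℕ) [NeZero c] (N : ℕ) [NeZero N] (M : Tri m) : LaurentSeries R :=
  HahnSeries.C ((M.a : R) ^ 12) * rootSubst u c M (deltaC R) * qExpand R N (deltaInvC R)

/-- The series of `unitInvFun`. -/
def unitInvSeries (u : Rˣ) (c : ℕ) [NeZero c] (N : ℕ) [NeZero N] (M : Tri m) : LaurentSeries R :=
  HahnSeries.C ((M.d : R) ^ 12) * rootSubst u c M (deltaInvC R) * qExpand R N (deltaC R)

/-- `unitSeries` is natural in the ring. -/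
theorem coeffMap_unitSeries (f : R →+* S) (u : Rˣ) (c : ℕ) [NeZero c] (N : ℕ) [NeZero N]
    (M : Tri m) :
    coeffMap f (unitSeries u c N M) = unitSeries (Units.map (f : R →* S) u) c N M := by
  simp only [unitSeries, map_mul, map_pow, map_natCast, coeffMap_rootSubst,
    coeffMap_qExpand', coeffMap_deltaC, coeffMap_deltaInvC]

/-- `unitInvSeries` is natural in the ring. -/
theorem coeffMap_unitInvSeries (f : R →+* S) (u : Rˣ) (c : ℕ) [NeZero c] (N : ℕ) [NeZero N]
    (M : Tri m) :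
    coeffMap f (unitInvSeries u c N M) = unitInvSeries (Units.map (f : R →* S) u) c N M := by
  simp only [unitInvSeries, map_mul, map_pow, map_natCast, coeffMap_rootSubst,
    coeffMap_qExpand', coeffMap_deltaC, coeffMap_deltaInvC]

/-- The two series of units multiply to `m¹²`. -/
theorem unitSeries_mul_unitInvSeries (u : Rˣ) (c : ℕ) [NeZero c] (N : ℕ) [NeZero N] (M : Tri m) :
    unitSeries u c N M * unitInvSeries u c N M = HahnSeries.C ((m : R) ^ 12) := by
  rw [unitSeries, unitInvSeries]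
  calc _ = (HahnSeries.C ((M.a : R) ^ 12) * HahnSeries.C ((M.d : R) ^ 12)) *
        (rootSubst u c M (deltaC R) * rootSubst u c M (deltaInvC R)) *
        (qExpand R N (deltaC R) * qExpand R N (deltaInvC R)) := by ring
    _ = _ := by
      rw [← map_mul, ← map_mul, ← map_mul, deltaC_mul_deltaInvC, map_one, map_one, mul_one, mul_one,
        ← mul_pow, ← Nat.cast_mul, M.a_mul_d]

/-- `unitSeries` is the expansion of `unitFun`. -/
theorem hasExp_unitFun {N : ℕ} [NeZero N] (c : ℕ) [NeZero c] (hN : m * c = N) (M : Tri m) :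
    HasExp N (unitFun M) (unitSeries (rootUnit N) c N M) :=
  ((HasExp.const N _).mul (hasExp_comp_map c hN M hasExp_discriminant)).mul
    (hasExp_discriminant_inv.qExpand N (one_mul N).symm one_ne_zero)

/-- `unitInvSeries` is the expansion of `unitInvFun`. -/
theorem hasExp_unitInvFun {N : ℕ} [NeZero N] (c : ℕ) [NeZero c] (hN : m * c = N) (M : Tri m) :
    HasExp N (unitInvFun M) (unitInvSeries (rootUnit N) c N M) :=
  ((HasExp.const N _).mul (hasExp_comp_map c hN M hasExp_discriminant_inv)).mul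
    (hasExp_discriminant.qExpand N (one_mul N).symm one_ne_zero)

/-- `1/Δ` is holomorphic. -/
theorem mdiff_discriminant_inv : MDiff fun τ : ℍ => (Δ τ)⁻¹ := by
  rw [UpperHalfPlane.mdifferentiable_iff]
  exact (UpperHalfPlane.mdifferentiable_iff.mp
    (ModularFormClass.holo CuspForm.discriminant)).fun_inv fun z _ => by
      simpa using ModularForm.discriminant_ne_zero (UpperHalfPlane.ofComplex z)

/-- `unitFun` is holomorphic. -/
theorem mdiff_unitFun (M : Tri m) : MDiff (unitFun M) := by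
  have h1 := M.mdiff_comp (ModularFormClass.holo CuspForm.discriminant)
  exact (mdifferentiable_const.mul h1).mul mdiff_discriminant_inv

/-- `unitInvFun` is holomorphic. -/
theorem mdiff_unitInvFun (M : Tri m) : MDiff (unitInvFun M) := by
  exact (mdifferentiable_const.mul (M.mdiff_comp mdiff_discriminant_inv)).mul
    (ModularFormClass.holo CuspForm.discriminant)

end Fermat.Agent.ModularFunctionField
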