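import Mathlib.Algebra.Polynomial.Lifts
import Fermat.Agent.ModularFunctionField.Cyc
import Fermat.Agent.ModularFunctionField.Roots

/-!
# Polynomials attached to families of functions permuted by `SL(2,ℤ)`
-/

set_option autoImplicit false

noncomputable section

open Filter Complex ModularCurve
open UpperHalfPlane hiding I
open scoped Topology MatrixGroups Manifold Polynomial

namespace Fermat.Agent.ModularFunctionField

variable {R S : Type*} [CommRing R] [CommRing S]

/-- Evaluation of a polynomial at `j` in the parameter `q_N`. -/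
def evalJT (R : Type*) [CommRing R] (N : ℕ) [NeZero N] : R[X] →+* LaurentSeries R :=
  Polynomial.eval₂RingHom HahnSeries.C (jT R N)

/-- Evaluation at `j` fixes constants. -/
theorem evalJT_C (N : ℕ) [NeZero N] (r : R) : evalJT R N (Polynomial.C r) = HahnSeries.C r :=
  Polynomial.eval₂_C _ _

/-- Evaluation at `j` sends `X` to `j`. -/
theorem evalJT_X (N : ℕ) [NeZero N] : evalJT R N Polynomial.X = jT R N := Polynomial.eval₂_X _ _

/-- Evaluation at `j` is natural in the ring. -/
theorem coeffMap_evalJT (f : R →+* S) (N : ℕ) [NeZero N] (P : R[X]) :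
    coeffMap f (evalJT R N P) = evalJT S N (P.map f) := by
  refine RingHom.congr_fun (f := (coeffMap f).comp (evalJT R N))
    (g := (evalJT S N).comp (Polynomial.mapRingHom f)) ?_ P
  refine Polynomial.ringHom_ext (fun r => ?_) ?_
  · simp [evalJT_C]
  · simp [evalJT_X, coeffMap_jT]

theorem evalJT_coeff_natDegree (N : ℕ) [NeZero N] (P : R[X]) :
    (evalJT R N P).coeff (-((N * P.natDegree : ℕ) : ℤ)) = P.leadingCoeff := by
  rw [evalJT, Polynomial.coe_eval₂RingHom, Polynomial.eval₂_eq_sum_range, HahnSeries.coeff_sum,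
    Finset.sum_range_succ, Finset.sum_eq_zero, zero_add, HahnSeries.C_mul_eq_smul,
    HahnSeries.coeff_smul, coeff_jT_pow_self, smul_eq_mul, mul_one]
  · rfl
  · intro i hi
    rw [Finset.mem_range] at hi
    rw [HahnSeries.C_mul_eq_smul, HahnSeries.coeff_smul, coeff_jT_pow_of_lt, smul_zero]
    have : N * i < N * P.natDegree := Nat.mul_lt_mul_of_pos_left hi (Nat.pos_of_ne_zero (NeZero.ne N))
    omega

/-- `j` is transcendental over `R`. -/
theorem evalJT_injective (N : ℕ) [NeZero N] : Function.Injective (evalJT R N) := by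
  rw [injective_iff_map_eq_zero]
  intro P hP
  have h := evalJT_coeff_natDegree N P
  rw [hP, HahnSeries.coeff_zero] at h
  exact Polynomial.leadingCoeff_eq_zero.mp h.symm

/-- The expansions of the coefficients of `∏ (X - Fᵢ)`. -/
theorem hasExp_coeff_prod {ι : Type*} {N : ℕ} (I : Finset ι) {F : ι → ℍ → ℂ}
    {S : ι → LaurentSeries ℂ} (h : ∀ i ∈ I, HasExp N (F i) (S i)) (k : ℕ) :
    HasExp N (fun τ => (∏ i ∈ I, (Polynomial.X - Polynomial.C (F i τ))).coeff k)
      ((∏ i ∈ I, (Polynomial.X - Polynomial.C (S i))).coeff k) := by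
  classical
  induction I using Finset.induction_on generalizing k with
  | empty =>
    simp only [Finset.prod_empty, Polynomial.coeff_one]
    split_ifs
    · exact HasExp.one N
    · exact HasExp.zero N
  | insert a I ha ih =>
    simp only [Finset.prod_insert ha, Polynomial.coeff_mul]
    refine HasExp.sum _ fun p _ => HasExp.mul ?_ (ih (fun i hi => h i (Finset.mem_insert_of_mem hi)) _)
    simp only [Polynomial.coeff_sub, Polynomial.coeff_X, Polynomial.coeff_C]
    refine HasExp.sub ?_ ?_
    · split_ifs
      · exact HasExp.one N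
      · exact HasExp.zero N
    · split_ifs
      · exact h a (Finset.mem_insert_self _ _)
      · exact HasExp.zero N

/-- The coefficients of `∏ (X - Fᵢ)` are holomorphic when the `Fᵢ` are. -/
theorem mdiff_coeff_prod {ι : Type*} (I : Finset ι) {F : ι → ℍ → ℂ}
    (h : ∀ i ∈ I, MDiff (F i)) (k : ℕ) :
    MDifferentiable 𝓘(ℂ) 𝓘(ℂ)
      (fun τ : ℍ => (∏ i ∈ I, (Polynomial.X - Polynomial.C (F i τ))).coeff k) := by
  classical
  induction I using Finset.induction_on generalizing k with
  | empty =>
    simp only [Finset.prod_empty, Polynomial.coeff_one]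
    exact mdifferentiable_const
  | insert a I ha ih =>
    simp only [Finset.prod_insert ha, Polynomial.coeff_mul]
    have key : ∀ p ∈ Finset.HasAntidiagonal.antidiagonal k, MDifferentiable 𝓘(ℂ) 𝓘(ℂ) fun τ : ℍ =>
        (Polynomial.X - Polynomial.C (F a τ)).coeff p.1 *
          (∏ i ∈ I, (Polynomial.X - Polynomial.C (F i τ))).coeff p.2 := fun p _ => by
      refine MDifferentiable.mul ?_ (ih (fun i hi => h i (Finset.mem_insert_of_mem hi)) _)
      simp only [Polynomial.coeff_sub, Polynomial.coeff_X, Polynomial.coeff_C]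
      rcases eq_or_ne p.1 0 with hp | hp
      · simp only [hp, if_true]
        exact mdifferentiable_const.sub (h a (Finset.mem_insert_self _ _))
      · simp only [if_neg hp]
        exact mdifferentiable_const
    rw [UpperHalfPlane.mdifferentiable_iff]
    simpa [Function.comp_def] using DifferentiableOn.fun_sum (u := Finset.HasAntidiagonal.antidiagonal k)
      fun p hp => UpperHalfPlane.mdifferentiable_iff.mp (key p hp)

/-- Holomorphic functions with expansions over `R` that are permuted by `SL(2,ℤ)` are the roots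
of a monic polynomial over `R[j]`. -/
theorem exists_familyPoly {m N : ℕ} [NeZero m] [NeZero N] {R : Type*} [CommRing R] [IsDomain R]
    (ι : R →+* ℂ) (hι : Function.Injective ι) (F : Tri m → ℍ → ℂ) (s : Tri m → LaurentSeries R)
    (hol : ∀ M, MDiff (F M)) (hexp : ∀ M, HasExp N (F M) (coeffMap ι (s M)))
    (hperm : ∀ (γ : SL(2, ℤ)) (M : Tri m) (τ : ℍ), F M (γ • τ) = F (Tri.act γ M) τ) :
    ∃ P : Polynomial R[X], P.Monic ∧ P.natDegree = Fintype.card (Tri m) ∧
      P.map (evalJT R N) = ∏ M, (Polynomial.X - Polynomial.C (s M)) ∧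
      ∀ τ, P.map ((Polynomial.evalRingHom (jFun τ)).comp (Polynomial.mapRingHom ι)) =
        ∏ M, (Polynomial.X - Polynomial.C (F M τ)) := by
  classical
  set Q : Polynomial (LaurentSeries R) := ∏ M, (Polynomial.X - Polynomial.C (s M)) with hQ
  set G : ℍ → ℂ[X] := fun τ => ∏ M, (Polynomial.X - Polynomial.C (F M τ)) with hG
  have hQmap : Q.map (coeffMap ι) =
      ∏ M, (Polynomial.X - Polynomial.C (coeffMap ι (s M))) := by
    simp [hQ, Polynomial.map_prod]
  have hGinv : ∀ (γ : SL(2, ℤ)) τ, G (γ • τ) = G τ := fun γ τ => by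
    simp only [hG, hperm γ]
    exact Equiv.prod_comp (Tri.perm γ) fun M => Polynomial.X - Polynomial.C (F M τ)
  choose p hp hpτ using fun k => exists_polynomial_of_invariant ι hι (N := N)
    (f := fun τ => (G τ).coeff k) (s := Q.coeff k) (fun γ τ => by rw [hGinv])
    (mdiff_coeff_prod _ (fun M _ => hol M) k)
    (by
      rw [← Polynomial.coeff_map, hQmap]
      exact hasExp_coeff_prod _ (fun M _ => hexp M) k)
  have hmonQ : Q.Monic := Polynomial.monic_prod_of_monic _ _ fun M _ => Polynomial.monic_X_sub_C _
  have hlift : Q ∈ Polynomial.lifts (evalJT R N) := by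
    rw [Polynomial.lifts_iff_coeff_lifts]
    exact fun k => ⟨p k, (hp k).symm⟩
  obtain ⟨P, hP, hdeg, hmon⟩ := Polynomial.lifts_and_natDegree_eq_and_monic hlift hmonQ
  refine ⟨P, hmon, ?_, hP, fun τ => ?_⟩
  · rw [hdeg, hQ, Polynomial.natDegree_finsetProd_X_sub_C_eq_card, Finset.card_univ]
  · have hcoeff : ∀ k, P.coeff k = p k := fun k => evalJT_injective N (by
      rw [← Polynomial.coeff_map, hP]
      exact hp k)
    ext k
    rw [Polynomial.coeff_map, hcoeff, RingHom.comp_apply, Polynomial.coe_mapRingHom,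
      Polynomial.coe_evalRingHom, ← hpτ k τ]

end Fermat.Agent.ModularFunctionField
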