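import Fermat.Agent.ModularFunctionField.ModularPolynomial

/-!
# Factorisation of a cyclic `N`-isogeny through level `m`

For `N = m·k` the roots `y` of `Φ_m(j, y)` with `Φ_k(y, r_M) = 0` form a single element.
-/

set_option autoImplicit false

noncomputable section

open ModularCurve

namespace Fermat.Agent.ModularFunctionField

variable {R : Type*} [CommRing R] [IsDomain R]

/-- The substitution `q ↦ u qᵏ` is determined by its value on `j`. -/
theorem subst_jq_inj {u v : Rˣ} {k l : ℕ} [NeZero k] [NeZero l]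
    (h : subst u k (jqModC R) = subst v l (jqModC R)) : k = l ∧ u = v := by
  have hlt : ∀ (w : Rˣ) (p : ℕ) [NeZero p] (i : ℤ), i < -(p : ℤ) →
      (subst w p (jqModC R)).coeff i = 0 := fun w p _ _ => coeff_subst_jq_of_lt w p
  have heq : ∀ (w : Rˣ) (p : ℕ) [NeZero p],
      (subst w p (jqModC R)).coeff (-(p : ℤ)) = ((w⁻¹ : Rˣ) : R) := fun w p _ =>
    coeff_subst_jq_self w p
  have hkl : k = l := by
    rcases lt_trichotomy k l with hlt' | he | hlt'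
    · exfalso
      have := heq v l
      rw [← h, hlt u k _ (by omega)] at this
      exact Units.ne_zero _ this.symm
    · exact he
    · exfalso
      have := heq u k
      rw [h, hlt v l _ (by omega)] at this
      exact Units.ne_zero _ this.symm
  subst hkl
  refine ⟨rfl, ?_⟩
  have := heq u k
  rw [h, heq v k, Units.val_inj, inv_inj] at this
  exact this.symm

variable {N : ℕ} [NeZero N] {u : Rˣ}

omit [IsDomain R] [NeZero N] in
theorem pow_eq_pow_iff_dvd (hu : IsPrimitiveRoot u N) (x y : ℕ) :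
    u ^ x = u ^ y ↔ (N : ℤ) ∣ (x : ℤ) - y := by
  rw [← hu.zpow_eq_one_iff_dvd, zpow_sub, zpow_natCast, zpow_natCast, mul_inv_eq_one]

variable {m k : ℕ} [NeZero m] [NeZero k]

/-- The substitution `q_k ↦ ζ^{BA} q_N^{A²}` attached to `M₁`. -/
def liftHom (u : Rˣ) (M₁ : Tri m) : LaurentSeries R →+* LaurentSeries R :=
  subst (u ^ (M₁.b * M₁.a)) (M₁.a * M₁.a)

omit [IsDomain R] in
theorem liftHom_jT (u : Rˣ) (M₁ : Tri m) : liftHom u M₁ (jT R k) = jRoot u k M₁ := by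
  rw [liftHom, jT, ← subst_one, subst_subst, jRoot, rootSubst]
  refine subst_congr ?_ rfl _
  rw [mul_one, ← pow_mul]

/-- Evaluation at `Y = y` for a series `y`. -/
def evalAt (R : Type*) [CommRing R] (y : LaurentSeries R) : Polynomial ℤ →+* LaurentSeries R :=
  Polynomial.eval₂RingHom (Int.castRingHom _) y

omit [IsDomain R] in
/-- Evaluation of `Φ` at `j` is evaluation at the series `j(q_N^N)`. -/
theorem evalPhi_eq_evalAt (N : ℕ) [NeZero N] : evalPhi N R = evalAt R (jT R N) := by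
  refine Polynomial.ringHom_ext' (Subsingleton.elim _ _) ?_
  simp [evalPhi, evalAt, evalJT_X]

omit [IsDomain R] in
theorem ringHom_comp_evalAt {S : Type*} [CommRing S] (f : LaurentSeries R →+* LaurentSeries S)
    (y : LaurentSeries R) : f.comp (evalAt R y) = evalAt S (f y) := by
  refine Polynomial.ringHom_ext' (Subsingleton.elim _ _) ?_
  simp [evalAt]

/-- `Φ_m(j, X)` in `R((q_N))`. -/
theorem modularPoly_map_level (hu : IsPrimitiveRoot u N) (hN : m * k = N) :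
    (modularPoly m).map (evalPhi N R) =
      ∏ M₁ : Tri m, (Polynomial.X - Polynomial.C (jRoot u k M₁)) := by
  have hk : IsPrimitiveRoot (u ^ k) m :=
    hu.pow (Nat.pos_of_ne_zero (NeZero.ne N)) (by rw [← hN, mul_comm])
  have h := congrArg (Polynomial.map (qExpand R k)) (modularPoly_map_evalPhi (R := R) hk)
  rw [Polynomial.map_map] at h
  have h1 : (qExpand R k).comp (evalPhi m R) = evalPhi N R := by
    rw [evalPhi_eq_evalAt, ringHom_comp_evalAt, evalPhi_eq_evalAt, jT, qExpand_qExpand, jT]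
    congr 1
    exact qExpand_congr (by rw [mul_comm]; exact hN) _
  have h2 : ∀ M₁ : Tri m, qExpand R k (jRoot (u ^ k) 1 M₁) = jRoot u k M₁ := by
    intro M₁
    rw [jRoot, rootSubst, subst_apply, qExpand_qExpand, jRoot, rootSubst, subst_apply, ← pow_mul,
      show k * (M₁.b * M₁.a * 1) = M₁.b * M₁.a * k by ring]
    exact qExpand_congr (by ring) _
  rw [h1] at h
  simpa [Polynomial.map_prod, h2] using h

/-- `Φ_k(y, X)` for `y` a root of level `m`. -/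
theorem modularPoly_map_root (hu : IsPrimitiveRoot u N) (hN : m * k = N) (M₁ : Tri m) :
    (modularPoly k).map (evalAt R (jRoot u k M₁)) =
      ∏ M₂ : Tri k, (Polynomial.X - Polynomial.C
        (subst ((u ^ (M₁.b * M₁.a)) ^ (M₂.a * M₂.a * 1) * (u ^ m) ^ (M₂.b * M₂.a * 1))
          (M₁.a * M₁.a * (M₂.a * M₂.a * 1)) (jqModC R))) := by
  have hm : IsPrimitiveRoot (u ^ m) k := hu.pow (Nat.pos_of_ne_zero (NeZero.ne N)) hN.symm
  have h := congrArg (Polynomial.map (liftHom u M₁)) (modularPoly_map_evalPhi (R := R) hm)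
  rw [Polynomial.map_map, evalPhi_eq_evalAt, ringHom_comp_evalAt, liftHom_jT] at h
  simpa [Polynomial.map_prod, jRoot, rootSubst, liftHom, subst_subst] using h

/-- `M₁` is the level-`m` part of `M`. -/
def IsPart (u : Rˣ) (k : ℕ) [NeZero k] (M : Tri N) (M₁ : Tri m) : Prop :=
  ((modularPoly k).map (evalAt R (jRoot u k M₁))).IsRoot (jRoot u 1 M)

/-- The arithmetic relations between a triple and its level-`m` part. -/
theorem IsPart.data (hu : IsPrimitiveRoot u N) (hN : m * k = N) {M : Tri N} {M₁ : Tri m}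
    (h : IsPart u k M M₁) :
    ∃ A₂ : ℕ, M.a = M₁.a * A₂ ∧ M₁.d * M.a = m * A₂ ∧ Nat.Coprime A₂ M₁.d ∧ M₁.d ∣ M.d ∧
      (M₁.d : ℤ) ∣ (M.b : ℤ) - A₂ * M₁.b := by
  rw [IsPart, modularPoly_map_root hu hN, Polynomial.IsRoot, Polynomial.eval_prod,
    Finset.prod_eq_zero_iff] at h
  obtain ⟨M₂, -, h⟩ := h
  rw [Polynomial.eval_sub, Polynomial.eval_X, Polynomial.eval_C, sub_eq_zero, jRoot,
    rootSubst] at h
  obtain ⟨ha, he⟩ := subst_jq_inj h
  simp only [mul_one] at ha he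
  have ha' : M.a = M₁.a * M₂.a := Nat.mul_self_inj.mp (ha.trans (by ring))
  rw [← pow_mul, ← pow_mul, ← pow_add, pow_eq_pow_iff_dvd hu] at he
  have hm : M₁.a * M₁.d = m := M₁.a_mul_d
  have hk : M₂.a * M₂.d = k := M₂.a_mul_d
  have hd : M.d = M₁.d * M₂.d := by
    refine Nat.eq_of_mul_eq_mul_left M.a_pos ?_
    calc M.a * M.d = (M₁.a * M₁.d) * (M₂.a * M₂.d) := by rw [M.a_mul_d, hm, hk, hN]
      _ = M.a * (M₁.d * M₂.d) := by rw [ha']; ring
  have hdvd : (M.d : ℤ) ∣ (M.b : ℤ) - (M₂.a * M₁.b + M₁.d * M₂.b) := by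
    have hNd : (N : ℤ) = (M.a : ℤ) * M.d := by exact_mod_cast M.a_mul_d.symm
    have hfac : ((M.b * M.a : ℕ) : ℤ) - ((M₁.b * M₁.a * (M₂.a * M₂.a) + m * (M₂.b * M₂.a) : ℕ) : ℤ)
        = (M.a : ℤ) * ((M.b : ℤ) - (M₂.a * M₁.b + M₁.d * M₂.b)) := by
      have haz : (M.a : ℤ) = M₁.a * M₂.a := by exact_mod_cast ha'
      have hmz : (m : ℤ) = M₁.a * M₁.d := by exact_mod_cast hm.symm
      push_cast
      linear_combination (M₂.a * M₁.b + M₁.d * M₂.b : ℤ) * haz - (M₂.b * M₂.a : ℤ) * hmz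
    rw [hNd, hfac] at he
    exact (mul_dvd_mul_iff_left (by exact_mod_cast M.a_pos.ne')).mp he
  have hd1 : (M₁.d : ℤ) ∣ (M.b : ℤ) - M₂.a * M₁.b := by
    have h1 : (M₁.d : ℤ) ∣ (M.d : ℤ) := by exact_mod_cast Dvd.intro M₂.d hd.symm
    refine (dvd_add (h1.trans hdvd) (dvd_mul_right (M₁.d : ℤ) M₂.b)).trans (dvd_of_eq ?_)
    ring
  refine ⟨M₂.a, ha', ?_, ?_, Dvd.intro M₂.d hd.symm, hd1⟩
  · calc M₁.d * M.a = M₁.a * M₁.d * M₂.a := by rw [ha']; ring
      _ = m * M₂.a := by rw [hm]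
  · set g := Nat.gcd M₂.a M₁.d
    have g1 : g ∣ M.a := (Nat.gcd_dvd_left _ _).trans (Dvd.intro_left _ ha'.symm)
    have g2 : g ∣ M.d := (Nat.gcd_dvd_right _ _).trans (Dvd.intro M₂.d hd.symm)
    have g3 : (g : ℤ) ∣ (M.b : ℤ) := by
      have h1 : (g : ℤ) ∣ (M₁.d : ℤ) := by exact_mod_cast Nat.gcd_dvd_right _ _
      have h2 : (g : ℤ) ∣ (M₂.a : ℤ) := by exact_mod_cast Nat.gcd_dvd_left _ _
      simpa using dvd_add (h1.trans hd1) (h2.mul_right M₁.b)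
    exact Nat.eq_one_of_dvd_one
      (M.primitive ▸ Nat.dvd_gcd (Nat.dvd_gcd g1 (by exact_mod_cast g3)) g2)

/-- The upper left entry of the level-`m` part is `gcd (m, a)`. -/
theorem IsPart.a_eq (hu : IsPrimitiveRoot u N) (hN : m * k = N) {M : Tri N} {M₁ : Tri m}
    (h : IsPart u k M M₁) : M₁.a = Nat.gcd m M.a := by
  obtain ⟨A₂, ha, -, hc, -, -⟩ := h.data hu hN
  calc M₁.a = M₁.a * Nat.gcd M₁.d A₂ := by rw [Nat.gcd_comm, hc, mul_one]
    _ = Nat.gcd (M₁.a * M₁.d) (M₁.a * A₂) := (Nat.gcd_mul_left _ _ _).symm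
    _ = Nat.gcd m M.a := by rw [M₁.a_mul_d, ha]

/-- The level-`m` part of a triple is unique. -/
theorem IsPart.unique (hu : IsPrimitiveRoot u N) (hN : m * k = N) {M : Tri N} {M₁ M₁' : Tri m}
    (h : IsPart u k M M₁) (h' : IsPart u k M M₁') : M₁ = M₁' := by
  have ha : M₁.a = M₁'.a := (h.a_eq hu hN).trans (h'.a_eq hu hN).symm
  obtain ⟨A, e1, -, hc, -, hb⟩ := h.data hu hN
  obtain ⟨A', e1', -, -, -, hb'⟩ := h'.data hu hN
  have hA : A = A' := Nat.eq_of_mul_eq_mul_left M₁.a_pos (by rw [← e1, ha, ← e1'])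
  have hd : M₁.d = M₁'.d :=
    Nat.eq_of_mul_eq_mul_left M₁.a_pos (by rw [M₁.a_mul_d, ha, M₁'.a_mul_d])
  refine Tri.ext_a_b ha ?_
  rw [← hA, ← hd] at hb'
  have hdiv := dvd_sub hb' hb
  rw [show ((M.b : ℤ) - A * M₁'.b) - ((M.b : ℤ) - A * M₁.b) = (A : ℤ) * ((M₁.b : ℤ) - M₁'.b) by
    ring] at hdiv
  have hc' : IsCoprime (M₁.d : ℤ) (A : ℤ) :=
    Nat.isCoprime_iff_coprime.mpr (Nat.Coprime.symm hc)
  have := Int.eq_zero_of_dvd_of_natAbs_lt_natAbs (hc'.dvd_of_dvd_mul_left hdiv) (by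
    have := M₁.b_lt
    have := M₁'.b_lt
    omega)
  omega

/-- Every triple of determinant `N = m·k` has a level-`m` part. -/
theorem exists_isPart (hu : IsPrimitiveRoot u N) (hN : m * k = N) (M : Tri N) :
    ∃ M₁ : Tri m, IsPart u k M M₁ := by
  set A₁ := Nat.gcd m M.a
  have hA0 : 0 < A₁ := Nat.gcd_pos_of_pos_right _ M.a_pos
  obtain ⟨D₁, hm⟩ : A₁ ∣ m := Nat.gcd_dvd_left _ _
  obtain ⟨A₂, ha⟩ : A₁ ∣ M.a := Nat.gcd_dvd_right _ _
  have hcop : Nat.Coprime D₁ A₂ := by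
    have h : Nat.gcd (A₁ * D₁) (A₁ * A₂) = A₁ := by rw [← hm, ← ha]
    rw [Nat.gcd_mul_left] at h
    exact (Nat.mul_eq_left hA0.ne').mp h
  have hAD : A₂ * M.d = D₁ * k := Nat.eq_of_mul_eq_mul_left hA0 (by
    rw [← mul_assoc, ← ha, M.a_mul_d, ← mul_assoc, ← hm, hN])
  obtain ⟨D₂, hd⟩ : D₁ ∣ M.d := hcop.dvd_of_dvd_mul_left ⟨k, hAD⟩
  have hD₁ : 0 < D₁ := Nat.pos_of_mul_pos_right (hd ▸ M.d_pos)
  have hD₂ : 0 < D₂ := Nat.pos_of_mul_pos_left (hd ▸ M.d_pos)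
  have hk : A₂ * D₂ = k := Nat.eq_of_mul_eq_mul_left hD₁ (by rw [← hAD, hd]; ring)
  obtain ⟨x, y, hxy⟩ := Nat.isCoprime_iff_coprime.mpr hcop.symm
  set B₁ := ((M.b : ℤ) * x) % D₁ with hB₁
  have hB₁0 : 0 ≤ B₁ := Int.emod_nonneg _ (by exact_mod_cast hD₁.ne')
  have hB₁lt : B₁ < D₁ := Int.emod_lt_of_pos _ (by exact_mod_cast hD₁)
  have hdiv : (D₁ : ℤ) ∣ (M.b : ℤ) - A₂ * B₁ :=
    ⟨y * M.b + A₂ * ((M.b : ℤ) * x / D₁), by
      rw [hB₁, Int.emod_def]; linear_combination (-(M.b : ℤ)) * hxy⟩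
  obtain ⟨B₀, hB₀⟩ := hdiv
  set B₂ := B₀ % D₂ with hB₂
  have hB₂0 : 0 ≤ B₂ := Int.emod_nonneg _ (by exact_mod_cast hD₂.ne')
  have hB₂lt : B₂ < D₂ := Int.emod_lt_of_pos _ (by exact_mod_cast hD₂)
  have hb : (M.d : ℤ) ∣ (M.b : ℤ) - (A₂ * B₁ + D₁ * B₂) :=
    ⟨B₀ / D₂, by rw [hB₂, Int.emod_def, hd]; push_cast; linear_combination hB₀⟩
  lift B₁ to ℕ using hB₁0 with b₁ hb₁
  lift B₂ to ℕ using hB₂0 with b₂ hb₂
  have prim : ∀ g : ℕ, g ∣ M.a → g ∣ M.d → (g : ℤ) ∣ (A₂ * b₁ + D₁ * b₂ : ℤ) → g = 1 := by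
    intro g g1 g2 g3
    have h2 : (g : ℤ) ∣ (M.b : ℤ) := by
      have := dvd_add ((Int.natCast_dvd_natCast.mpr g2).trans hb) g3
      simpa using this
    exact Nat.eq_one_of_dvd_one
      (M.primitive ▸ Nat.dvd_gcd (Nat.dvd_gcd g1 (by exact_mod_cast h2)) g2)
  let M₁ : Tri m := Tri.mk A₁ b₁ D₁ hm.symm (by exact_mod_cast hB₁lt) (prim _
    (((Nat.gcd_dvd_left _ _).trans (Nat.gcd_dvd_left _ _)).trans (Dvd.intro _ ha.symm))
    ((Nat.gcd_dvd_right _ _).trans (Dvd.intro _ hd.symm))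
    (dvd_add ((Int.natCast_dvd_natCast.mpr
        ((Nat.gcd_dvd_left _ _).trans (Nat.gcd_dvd_right _ _))).mul_left _)
      ((Int.natCast_dvd_natCast.mpr (Nat.gcd_dvd_right _ _)).mul_right _)))
  let M₂ : Tri k := Tri.mk A₂ b₂ D₂ hk (by exact_mod_cast hB₂lt) (prim _
    (((Nat.gcd_dvd_left _ _).trans (Nat.gcd_dvd_left _ _)).trans (Dvd.intro_left _ ha.symm))
    ((Nat.gcd_dvd_right _ _).trans (Dvd.intro_left _ hd.symm))
    (dvd_add ((Int.natCast_dvd_natCast.mpr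
        ((Nat.gcd_dvd_left _ _).trans (Nat.gcd_dvd_left _ _))).mul_right _)
      ((Int.natCast_dvd_natCast.mpr
        ((Nat.gcd_dvd_left _ _).trans (Nat.gcd_dvd_right _ _))).mul_left _)))
  refine ⟨M₁, ?_⟩
  rw [IsPart, modularPoly_map_root hu hN, Polynomial.IsRoot, Polynomial.eval_prod,
    Finset.prod_eq_zero_iff]
  refine ⟨M₂, Finset.mem_univ _, ?_⟩
  rw [Polynomial.eval_sub, Polynomial.eval_X, Polynomial.eval_C, sub_eq_zero, jRoot, rootSubst]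
  refine subst_congr ?_ ?_ _
  · show u ^ (M.b * M.a * 1) = (u ^ (b₁ * A₁)) ^ (A₂ * A₂ * 1) * (u ^ m) ^ (b₂ * A₂ * 1)
    simp only [mul_one]
    rw [← pow_mul, ← pow_mul, ← pow_add, pow_eq_pow_iff_dvd hu]
    obtain ⟨c, hc⟩ := hb
    refine ⟨c, ?_⟩
    have hNz : (N : ℤ) = (A₁ : ℤ) * A₂ * M.d := by exact_mod_cast (ha ▸ M.a_mul_d).symm
    rw [hNz]
    push_cast [hm, ha]
    linear_combination ((A₁ : ℤ) * A₂) * hc
  · show M.a * M.a * 1 = A₁ * A₁ * (A₂ * A₂ * 1)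
    rw [ha]; ring

end Fermat.Agent.ModularFunctionField
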