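import Mathlib.RingTheory.Derivation.Basic
import Mathlib.FieldTheory.RatFunc.AsPolynomial
import Mathlib.RingTheory.Polynomial.RationalRoot
import Fermat.Agent.ModularFunctionField.Compat

/-!
# The base field `K(j)`, the derivation `d/dj`, and integrality over `K[j]`
-/

set_option autoImplicit false

noncomputable section

open ModularCurve HahnSeries
open scoped Polynomial nonZeroDivisors IntermediateField

namespace Fermat.Agent.ModularFunctionField

variable (K : Type*) [Field K] (N : ℕ) [NeZero N]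

/-- `K(j)` inside `K((q_N))`. -/
def baseField : IntermediateField K (LaurentSeries K) := K⟮jT K N⟯

/-- `j` lies in `K(j)`. -/
theorem jT_mem_baseField : jT K N ∈ baseField K N := IntermediateField.mem_adjoin_simple_self K _

/-- Constants lie in `K(j)`. -/
theorem C_mem_baseField (c : K) : HahnSeries.C c ∈ baseField K N := by
  have h := (baseField K N).algebraMap_mem c
  rwa [algebraMap_laurentSeries_eq_single] at h

/-- `ℤ[Y] → K(j)`. -/
def evalBase : ℤ[X] →+* baseField K N :=
  Polynomial.eval₂RingHom (Int.castRingHom _) ⟨jT K N, jT_mem_baseField K N⟩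

theorem algebraMap_comp_evalBase :
    (algebraMap (baseField K N) (LaurentSeries K)).comp (evalBase K N) = evalPhi N K := by
  refine Polynomial.ringHom_ext' (Subsingleton.elim _ _) ?_
  simp [evalBase, evalPhi, evalJT_X]

/-- `Φ_m(j, X)` over `K(j)`. -/
def phiBase (m : ℕ) [NeZero m] : Polynomial (baseField K N) := (modularPoly m).map (evalBase K N)

/-- `Φ_m(j, X)` is monic. -/
theorem phiBase_monic (m : ℕ) [NeZero m] : (phiBase K N m).Monic := (modularPoly_monic m).map _

variable {K N}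

/-- In `K((q_N))`, `Φ_m(j, X)` has as roots the series of `j ((aτ+b)/d)`, `ad = m`. -/
theorem phiBase_map {u : Kˣ} (hu : IsPrimitiveRoot u N) {m k : ℕ} [NeZero m] [NeZero k]
    (hN : m * k = N) :
    (phiBase K N m).map (algebraMap (baseField K N) (LaurentSeries K)) =
      ∏ M₁ : Tri m, (Polynomial.X - Polynomial.C (jRoot u k M₁)) := by
  rw [phiBase, Polynomial.map_map, algebraMap_comp_evalBase, modularPoly_map_level hu hN]

/-- `Φ_m(j, X)` is separable over `K(j)` for `m ∣ N`. -/
theorem phiBase_separable {u : Kˣ} (hu : IsPrimitiveRoot u N) {m k : ℕ} [NeZero m] [NeZero k]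
    (hN : m * k = N) : (phiBase K N m).Separable := by
  have h : ((phiBase K N m).map (algebraMap (baseField K N) (LaurentSeries K))).Separable := by
    rw [phiBase_map hu hN, Polynomial.separable_prod_X_sub_C_iff]
    exact jRoot_injective hu k hN
  exact Polynomial.separable_map _ |>.mp h

/-- Elements of `K(j)` integral over `K[j]` are polynomials in `j`. -/
theorem mem_range_of_isIntegralElem {x : LaurentSeries K} (hx : x ∈ baseField K N)
    (hi : (evalJT K N).IsIntegralElem x) : ∃ p : K[X], evalJT K N p = x := by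
  have hφ : K[X]⁰ ≤ (LaurentSeries K)⁰.comap (evalJT K N) :=
    nonZeroDivisors_le_comap_nonZeroDivisors_of_injective _ (evalJT_injective N)
  set φ : RatFunc K →+* LaurentSeries K := RatFunc.liftRingHom (evalJT K N) hφ with hφdef
  obtain ⟨y, hy⟩ : ∃ y, φ y = x := by
    have hle : baseField K N ≤
        { φ.fieldRange with
          algebraMap_mem' := fun c => ⟨algebraMap K[X] (RatFunc K) (Polynomial.C c), by
            rw [hφdef, RatFunc.liftRingHom_algebraMap, evalJT_C, algebraMap_laurentSeries_eq_single]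
            rfl⟩ } := by
      rw [baseField, IntermediateField.adjoin_le_iff, Set.singleton_subset_iff]
      exact ⟨algebraMap K[X] (RatFunc K) Polynomial.X, by
        rw [hφdef, RatFunc.liftRingHom_algebraMap, evalJT_X]⟩
    exact hle hx
  have hcomp : φ.comp (algebraMap K[X] (RatFunc K)) = evalJT K N :=
    RingHom.ext fun p => RatFunc.liftRingHom_algebraMap (evalJT K N) hφ p
  rw [← hy, ← hcomp, RingHom.IsIntegralElem.map_iff φ.injective] at hi
  obtain ⟨p, hp⟩ := (IsIntegrallyClosed.isIntegral_iff (R := K[X]) (K := RatFunc K)).mp hi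
  exact ⟨p, by rw [← hcomp, RingHom.comp_apply, hp, hy]⟩

/-- A unit of `K[j]` is a constant. -/
theorem eq_C_of_mul_eq_C {p p' : K[X]} {c : K} (hc : c ≠ 0)
    (h : evalJT K N p * evalJT K N p' = HahnSeries.C c) :
    ∃ c' : K, c' ≠ 0 ∧ evalJT K N p = HahnSeries.C c' := by
  rw [← map_mul, ← evalJT_C N] at h
  have hu : IsUnit p :=
    isUnit_of_mul_isUnit_left (evalJT_injective N h ▸ (isUnit_iff_ne_zero.mpr hc).map Polynomial.C)
  obtain ⟨c', hc', rfl⟩ := Polynomial.isUnit_iff.mp hu
  exact ⟨c', hc'.ne_zero, evalJT_C N c'⟩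

/-! ### The derivation `d/dj` -/

theorem theta_zero' : theta (0 : LaurentSeries K) = 0 := by ext n; simp

/-- The leading coefficient of `θj` in the parameter `q_N` is `-N`. -/
theorem coeff_theta_jT : (theta (jT K N)).coeff (-(N : ℤ)) = -(N : K) := by
  have h := coeff_jT_pow_self K N 1
  rw [pow_one, Nat.mul_one] at h
  rw [theta_coeff, h, mul_one]
  simp

theorem theta_jT_ne_zero (hN : (N : K) ≠ 0) : theta (jT K N) ≠ 0 := fun h => by
  have h1 := coeff_theta_jT (K := K) (N := N)
  rw [h, HahnSeries.coeff_zero] at h1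
  exact hN (neg_eq_zero.mp h1.symm)

variable (K N) in
/-- `d/dj` on `K((q_N))`. -/
def dJ (x : LaurentSeries K) : LaurentSeries K := theta x / theta (jT K N)

theorem dJ_apply (x : LaurentSeries K) : dJ K N x = theta x / theta (jT K N) := rfl

/-- `d/dj` is additive. -/
theorem dJ_add (x y : LaurentSeries K) : dJ K N (x + y) = dJ K N x + dJ K N y := by
  rw [dJ_apply, theta_add, add_div, dJ_apply, dJ_apply]

/-- The Leibniz rule for `d/dj`. -/
theorem dJ_mul (x y : LaurentSeries K) : dJ K N (x * y) = dJ K N x * y + x * dJ K N y := by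
  rw [dJ_apply, theta_mul, dJ_apply, dJ_apply]
  ring

/-- `d/dj` of zero. -/
theorem dJ_zero : dJ K N (0 : LaurentSeries K) = 0 := by rw [dJ_apply, theta_zero', zero_div]

/-- `d/dj` of an inverse. -/
theorem dJ_inv (x : LaurentSeries K) : dJ K N x⁻¹ = -x⁻¹ ^ 2 * dJ K N x := by
  rcases eq_or_ne x 0 with rfl | hx
  · simp [dJ_zero]
  · have h : dJ K N (x * x⁻¹) = 0 := by
      rw [mul_inv_cancel₀ hx, dJ_apply, ← map_one HahnSeries.C, theta_C, zero_div]
    rw [dJ_mul] at h
    field_simp at h ⊢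
    linear_combination h

/-- `d/dj` kills constants. -/
theorem dJ_C (c : K) : dJ K N (HahnSeries.C c) = 0 := by rw [dJ_apply, theta_C, zero_div]

theorem dJ_jT (hN : (N : K) ≠ 0) : dJ K N (jT K N) = 1 := div_self (theta_jT_ne_zero hN)

/-- `d/dj` maps `K(j)` to itself. -/
theorem dJ_mem_baseField (hN : (N : K) ≠ 0) {x : LaurentSeries K} (hx : x ∈ baseField K N) :
    dJ K N x ∈ baseField K N := by
  rw [baseField] at hx
  induction hx using IntermediateField.adjoin_induction with
  | mem x hx =>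
    rw [Set.mem_singleton_iff.mp hx, dJ_jT hN]
    exact one_mem _
  | algebraMap c =>
    rw [algebraMap_laurentSeries_eq_single, show HahnSeries.single (0 : ℤ) c = HahnSeries.C c from rfl,
      dJ_C]
    exact zero_mem _
  | add x y hx hy ihx ihy => rw [dJ_add]; exact add_mem ihx ihy
  | inv x hx ihx =>
    rw [dJ_inv]
    exact mul_mem (neg_mem (pow_mem (inv_mem hx) 2)) ihx
  | mul x y hx hy ihx ihy =>
    rw [dJ_mul]
    exact add_mem (mul_mem ihx hy) (mul_mem hx ihy)

/-! ### The unit identity -/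

variable {m k : ℕ} [NeZero m] [NeZero k]

/-- `m⁶ y'⁶ j⁴(j-1728)³ / (y⁴(y-1728)³)`, `y' = dy/dj`. -/
def unitExpr (K : Type*) [Field K] (N m : ℕ) [NeZero N] (y : LaurentSeries K) : LaurentSeries K :=
  (m : LaurentSeries K) ^ 6 * dJ K N y ^ 6 * (jT K N ^ 4 * (jT K N - 1728) ^ 3) /
    (y ^ 4 * (y - 1728) ^ 3)

theorem jRoot_sub_const_ne_zero (u : Kˣ) (M₁ : Tri m) (c : K) :
    jRoot u k M₁ - HahnSeries.C c ≠ 0 := by
  intro h
  have hlt : -((M₁.a * M₁.a * k : ℕ) : ℤ) < 0 := by
    have := Nat.pos_of_ne_zero (NeZero.ne (M₁.a * M₁.a * k))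
    omega
  have := congrArg (fun s : LaurentSeries K => s.coeff (-((M₁.a * M₁.a * k : ℕ) : ℤ))) h
  rw [HahnSeries.coeff_sub, (coeff_jRoot u k M₁).1, HahnSeries.coeff_zero, HahnSeries.C_apply,
    HahnSeries.coeff_single_of_ne hlt.ne, sub_zero] at this
  exact Units.ne_zero _ this

/-- The series of `a¹² Δ((aτ+b)/d)/Δ(τ)` as a rational function of `j`,
`y = j ((aτ+b)/d)` and `dy/dj`. -/
theorem unitSeries_eq_unitExpr (hN : (N : K) ≠ 0) (hmk : m * k = N) (u : Kˣ) (M₁ : Tri m) :
    unitSeries u k N M₁ = unitExpr K N m (jRoot u k M₁) := by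
  set y := jRoot u k M₁ with hy
  set e := M₁.a * M₁.a * k with he
  set S := rootSubst u k M₁ with hS
  have hSN : S (HahnSeries.C (1728 : K)) = HahnSeries.C 1728 := subst_C _ _ _
  have hy0 : y ≠ 0 := by
    simpa using jRoot_sub_const_ne_zero (k := k) u M₁ (0 : K)
  have hy1 : y - 1728 ≠ 0 := by
    simpa [map_ofNat] using jRoot_sub_const_ne_zero (k := k) u M₁ (1728 : K)
  have hθJ := theta_jT_ne_zero (K := K) hN
  have h1 : theta (jT K N) ^ 6 =
      HahnSeries.C ((N : K) ^ 6) *
        (jT K N ^ 4 * (jT K N - 1728) ^ 3 * qExpand K N (deltaC K)) := by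
    rw [jT, theta_qExpand, mul_pow, ← map_pow, ← map_pow (qExpand K N), theta_jqModC_pow_six]
    simp only [map_mul, map_pow, map_sub, map_ofNat]
  have h2 : theta y ^ 6 = HahnSeries.C ((e : K) ^ 6) *
      (y ^ 4 * (y - 1728) ^ 3 * S (deltaC K)) := by
    rw [hy, jRoot, hS, rootSubst, theta_subst, mul_pow, ← map_pow, ← map_pow (subst _ _),
      theta_jqModC_pow_six, he]
    simp only [map_mul, map_pow, map_sub, map_ofNat]
  have hJJ : jT K N ^ 4 * (jT K N - 1728) ^ 3 ≠ 0 := by
    intro h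
    refine pow_ne_zero 6 hθJ ?_
    rw [h1, h, zero_mul, mul_zero]
  have hd : qExpand K N (deltaC K) * qExpand K N (deltaInvC K) = 1 := by
    rw [← map_mul, deltaC_mul_deltaInvC, map_one]
  have hcast : ∀ n : ℕ, (n : LaurentSeries K) = HahnSeries.C (n : K) := fun n => (map_natCast _ n).symm
  have hN6 : HahnSeries.C ((N : K) ^ 6) ≠ 0 :=
    (map_ne_zero_iff (HahnSeries.C : K →+* LaurentSeries K) HahnSeries.C_injective).mpr (pow_ne_zero 6 hN)
  have hme : (m : K) * (e : K) = (M₁.a : K) ^ 2 * (N : K) := by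
    have : m * e = M₁.a ^ 2 * N := by rw [he, ← hmk]; ring
    exact_mod_cast congrArg (Nat.cast : ℕ → K) this
  rw [unitExpr, unitSeries, dJ_apply, div_pow, h1, h2, hcast, ← map_pow, ← hS,
    eq_div_iff (mul_ne_zero (pow_ne_zero 4 hy0) (pow_ne_zero 3 hy1))]
  have hdne : qExpand K N (deltaC K) ≠ 0 := left_ne_zero_of_mul_eq_one hd
  have h6 : (HahnSeries.C ((M₁.a : K) ^ 12) : LaurentSeries K) * HahnSeries.C ((N : K) ^ 6) =
      HahnSeries.C ((m : K) ^ 6) * HahnSeries.C ((e : K) ^ 6) := by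
    rw [← map_mul, ← map_mul, ← mul_pow, hme]
    congr 1
    ring
  have hJ3 : (jT K N - 1728) ^ 3 ≠ 0 := right_ne_zero_of_mul hJJ
  have hJ4 : jT K N ^ 4 ≠ 0 := left_ne_zero_of_mul hJJ
  have hJ1 : jT K N - 1728 ≠ 0 := (pow_ne_zero_iff three_ne_zero).mp hJ3
  have hJ0 : jT K N ≠ 0 := (pow_ne_zero_iff four_ne_zero).mp hJ4
  field_simp
  linear_combination (S (deltaC K) * (HahnSeries.C ((M₁.a : K) ^ 12) * HahnSeries.C ((N : K) ^ 6))) *
    hd + S (deltaC K) * h6

end Fermat.Agent.ModularFunctionField
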