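import Mathlib.Algebra.BigOperators.Ring.Finset
import Mathlib.Algebra.Order.BigOperators.Group.Finset
import Mathlib.Data.ZMod.Basic
import Mathlib.NumberTheory.Divisors
import Mathlib.Tactic

/-!
# Nondegeneracy of the matrix `gcd(m, a) ^ 2`

The kernel `gcd(m, a) ^ 2` on the divisors of `N` is nondegenerate: it counts the common
annihilated points of `(ℤ/N)²`, so it is positive semidefinite, and Möbius-type downward
induction gives definiteness.
-/

set_option autoImplicit false

namespace Fermat.Agent.ModularFunctionField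

/-- `gcd(m, a)` points of `ℤ/N` are killed by both `m` and `a`. -/
theorem card_zmod_killed_pair {N m a : ℕ} [NeZero N] (hm : m ∣ N) :
    (Finset.univ.filter fun z : ZMod N => m • z = 0 ∧ a • z = 0).card = Nat.gcd m a := by
  obtain ⟨c, hc⟩ := (Nat.gcd_dvd_left m a).trans hm
  set g := Nat.gcd m a with hg
  have hg0 : g ≠ 0 := fun h => NeZero.ne N (by rw [hc, h, zero_mul])
  have hc0 : c ≠ 0 := fun h => NeZero.ne N (by rw [hc, h, mul_zero])
  have key : ∀ z : ZMod N, (m • z = 0 ∧ a • z = 0) ↔ g • z = 0 := fun z => by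
    rw [← addOrderOf_dvd_iff_nsmul_eq_zero, ← addOrderOf_dvd_iff_nsmul_eq_zero,
      ← addOrderOf_dvd_iff_nsmul_eq_zero, hg, Nat.dvd_gcd_iff]
  simp only [key]
  rw [show (Finset.univ.filter fun z : ZMod N => g • z = 0) =
      (Finset.range g).image fun i => ((c * i : ℕ) : ZMod N) from ?_]
  · rw [Finset.card_image_of_injOn, Finset.card_range]
    intro i hi j hj h
    simp only [Finset.coe_range, Set.mem_Iio] at hi hj
    have hlt : ∀ k < g, c * k < N := fun k hk => by
      rw [hc, mul_comm g]; exact Nat.mul_lt_mul_of_pos_left hk (Nat.pos_of_ne_zero hc0)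
    have := congrArg ZMod.val h
    rw [ZMod.val_natCast_of_lt (hlt i hi), ZMod.val_natCast_of_lt (hlt j hj)] at this
    exact Nat.eq_of_mul_eq_mul_left (Nat.pos_of_ne_zero hc0) this
  · ext z
    simp only [Finset.mem_filter, Finset.mem_univ, true_and, Finset.mem_image, Finset.mem_range]
    constructor
    · intro h
      rw [← ZMod.natCast_zmod_val z, nsmul_eq_mul, ← Nat.cast_mul,
        ZMod.natCast_eq_zero_iff] at h
      obtain ⟨i, hi⟩ : c ∣ z.val := Nat.dvd_of_mul_dvd_mul_left (Nat.pos_of_ne_zero hg0)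
        ((dvd_of_eq hc.symm).trans h)
      refine ⟨i, ?_, by rw [← hi, ZMod.natCast_zmod_val]⟩
      have hv := ZMod.val_lt z
      conv_rhs at hv => rw [hc, mul_comm]
      rw [hi] at hv
      exact Nat.lt_of_mul_lt_mul_left hv
    · rintro ⟨i, -, rfl⟩
      rw [nsmul_eq_mul, ← Nat.cast_mul, ZMod.natCast_eq_zero_iff]
      exact ⟨i, by rw [hc]; ring⟩

/-- The matrix `gcd(m, a) ^ 2`, indexed by the divisors of `N`, has trivial kernel. -/
theorem gcdSq_kernel {N : ℕ} (hN : N ≠ 0) (x : ℕ → ℤ)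
    (hx : ∀ m ∈ N.divisors, ∑ a ∈ N.divisors, x a * ((Nat.gcd m a : ℕ) : ℤ) ^ 2 = 0) :
    ∀ a ∈ N.divisors, x a = 0 := by
  have : NeZero N := ⟨hN⟩
  let δ : ℕ → ZMod N × ZMod N → ℤ := fun a z => if a • z = 0 then 1 else 0
  have hgcd : ∀ m ∈ N.divisors, ∀ a, ∑ z, δ m z * δ a z = ((Nat.gcd m a : ℕ) : ℤ) ^ 2 := by
    intro m hm a
    have h1 := card_zmod_killed_pair (a := a) (Nat.dvd_of_mem_divisors hm)
    have h2 : ∀ z : ZMod N × ZMod N, δ m z * δ a z =
        (if m • z.1 = 0 ∧ a • z.1 = 0 then (1 : ℤ) else 0) *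
          (if m • z.2 = 0 ∧ a • z.2 = 0 then 1 else 0) := fun z => by
      simp only [δ, Prod.ext_iff, Prod.smul_fst, Prod.smul_snd, Prod.fst_zero, Prod.snd_zero]
      split_ifs <;> simp_all
    rw [Finset.sum_congr rfl fun z _ => h2 z, Fintype.sum_prod_type]
    dsimp only
    refine (Finset.sum_mul_sum Finset.univ Finset.univ
      (fun z : ZMod N => if m • z = 0 ∧ a • z = 0 then (1 : ℤ) else 0)
      (fun z : ZMod N => if m • z = 0 ∧ a • z = 0 then (1 : ℤ) else 0)).symm.trans ?_
    rw [Finset.sum_boole, h1, sq]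
  -- the quadratic form is a sum of squares
  have hW : ∀ z, ∑ a ∈ N.divisors, x a * δ a z = 0 := by
    have hsq : ∑ z, (∑ a ∈ N.divisors, x a * δ a z) ^ 2 = 0 := by
      calc ∑ z, (∑ a ∈ N.divisors, x a * δ a z) ^ 2
          = ∑ m ∈ N.divisors, x m * ∑ a ∈ N.divisors, x a * ∑ z, δ m z * δ a z := by
            simp only [Finset.mul_sum]
            rw [Finset.sum_congr rfl fun z _ => by rw [sq, Finset.sum_mul_sum], Finset.sum_comm]
            refine Finset.sum_congr rfl fun m _ => ?_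
            rw [Finset.sum_comm]
            exact Finset.sum_congr rfl fun a _ => Finset.sum_congr rfl fun z _ => by ring
        _ = 0 := Finset.sum_eq_zero fun m hm => by
            rw [Finset.sum_congr rfl fun a _ => by rw [hgcd m hm a], hx m hm, mul_zero]
    exact fun z => sq_eq_zero_iff.mp
      ((Finset.sum_eq_zero_iff_of_nonneg fun i _ => sq_nonneg _).mp hsq z (Finset.mem_univ z))
  by_contra hne
  push Not at hne
  obtain ⟨a₀, ha₀, hmax⟩ := (N.divisors.filter fun a => x a ≠ 0).exists_max_image id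
    (by obtain ⟨a, ha, h⟩ := hne; exact ⟨a, Finset.mem_filter.mpr ⟨ha, h⟩⟩)
  obtain ⟨ha₀m, ha₀x⟩ := Finset.mem_filter.mp ha₀
  obtain ⟨c, hc⟩ := Nat.dvd_of_mem_divisors ha₀m
  have hkill : ∀ a, a • ((c : ZMod N), (0 : ZMod N)) = 0 ↔ a₀ ∣ a := fun a => by
    simp only [Prod.ext_iff, Prod.smul_fst, Prod.smul_snd, Prod.fst_zero, Prod.snd_zero, smul_zero,
      and_true]
    rw [nsmul_eq_mul, ← Nat.cast_mul, ZMod.natCast_eq_zero_iff]
    conv_lhs => rw [hc]
    exact Nat.mul_dvd_mul_iff_right (Nat.pos_of_ne_zero fun h => hN (by rw [hc, h, mul_zero]))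
  have h := hW ((c : ZMod N), 0)
  rw [Finset.sum_eq_single a₀] at h
  · simp only [δ, (hkill a₀).mpr dvd_rfl, if_true, mul_one] at h
    exact ha₀x h
  · intro a ha hane
    by_cases hd : a₀ ∣ a
    · have : x a = 0 := by
        by_contra hxa
        have hle : a ≤ a₀ := hmax a (Finset.mem_filter.mpr ⟨ha, hxa⟩)
        exact hane (le_antisymm hle (Nat.le_of_dvd (Nat.pos_of_mem_divisors ha) hd))
      rw [this, zero_mul]
    · simp only [δ]
      rw [if_neg fun h => hd ((hkill a).mp h), mul_zero]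
  · exact fun h' => absurd ha₀m h'

end Fermat.Agent.ModularFunctionField
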