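import Mathlib.FieldTheory.IntermediateField.Adjoin.Basic
import Mathlib.FieldTheory.SeparableDegree
import Mathlib.RingTheory.Norm.Transitivity
import Mathlib.FieldTheory.IsAlgClosed.AlgebraicClosure
import Fermat.Agent.ModularFunctionField.Base
import Fermat.Agent.ModularFunctionField.GcdKernel

/-!
# `Φ_N(j, X)` is irreducible over `K(j)` whenever `N` is invertible in `K`

The roots of an irreducible factor are counted with the norms of the units
`Δ((aτ+b)/d)/Δ(τ)` for every level `m ∣ N`: such a norm is a unit of `K[j]`, hence a constant,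
hence has order zero, which pins the multiset of `a`'s down up to scaling.
-/

set_option autoImplicit false

noncomputable section

open ModularCurve HahnSeries
open scoped Polynomial IntermediateField

namespace Fermat.Agent.ModularFunctionField

variable {K : Type*} [Field K] {N : ℕ} [NeZero N]

theorem natCast_ne_zero_of_primitive {u : Kˣ} (hu : IsPrimitiveRoot u N) : (N : K) ≠ 0 :=
  (IsPrimitiveRoot.coe_units_iff.mpr hu).neZero'.out

theorem order_subst (v : Kˣ) (p : ℕ) [NeZero p] {x : LaurentSeries K} (hx : x ≠ 0) :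
    (subst v p x).order = (p : ℤ) * x.order := by
  have hc : (subst v p x).coeff ((p : ℤ) * x.order) ≠ 0 := by
    rw [subst_coeff_mul]
    exact mul_ne_zero (Units.ne_zero _) (HahnSeries.coeff_order_eq_zero.not.mpr hx)
  refine le_antisymm (HahnSeries.order_le_of_coeff_ne_zero hc) ?_
  by_contra h
  push Not at h
  refine HahnSeries.coeff_order_eq_zero.not.mpr (HahnSeries.ne_zero_of_coeff_ne_zero hc) ?_
  by_cases hd : (p : ℤ) ∣ (subst v p x).order
  · obtain ⟨n, hn⟩ := hd
    rw [hn, subst_coeff_mul, HahnSeries.coeff_eq_zero_of_lt_order, mul_zero]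
    rw [hn] at h
    exact lt_of_mul_lt_mul_left h (Int.natCast_nonneg p)
  · exact subst_coeff_of_not_dvd v p x hd

theorem order_deltaC : (deltaC K).order = 1 := by
  have hc : (deltaC K).coeff 1 ≠ 0 := by rw [deltaC_coeff_one]; exact one_ne_zero
  refine le_antisymm (HahnSeries.order_le_of_coeff_ne_zero hc) ?_
  by_contra h
  exact HahnSeries.coeff_order_eq_zero.not.mpr (HahnSeries.ne_zero_of_coeff_ne_zero hc)
    (deltaC_coeff_of_lt K (not_le.mp h))

theorem order_deltaInvC : (deltaInvC K).order = -1 := by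
  have h := HahnSeries.order_mul (x := deltaC K) (y := deltaInvC K)
    (left_ne_zero_of_mul_eq_one (deltaC_mul_deltaInvC K))
    (right_ne_zero_of_mul_eq_one (deltaC_mul_deltaInvC K))
  rw [deltaC_mul_deltaInvC, order_one, order_deltaC] at h
  omega

theorem order_prod {ι : Type*} (I : Finset ι) (f : ι → LaurentSeries K) (h : ∀ i ∈ I, f i ≠ 0) :
    (∏ i ∈ I, f i).order = ∑ i ∈ I, (f i).order := by
  classical
  induction I using Finset.induction_on with
  | empty => simp
  | insert a I ha ih =>
    have h' : ∀ i ∈ I, f i ≠ 0 := fun i hi => h i (Finset.mem_insert_of_mem hi)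
    rw [Finset.prod_insert ha, Finset.sum_insert ha,
      HahnSeries.order_mul (h a (Finset.mem_insert_self _ _)) (Finset.prod_ne_zero_iff.mpr h'),
      ih h']

/-- The series of `a¹² Δ((aτ+b)/d)/Δ(τ)` has order `a²k - N` in `q_N`. -/
theorem order_unitSeries {m k : ℕ} [NeZero m] [NeZero k] (u : Kˣ) (M₁ : Tri m)
    (ha : (M₁.a : K) ≠ 0) :
    unitSeries u k N M₁ ≠ 0 ∧
      (unitSeries u k N M₁).order = ((M₁.a * M₁.a * k : ℕ) : ℤ) - N := by
  have hd : deltaC K ≠ 0 := left_ne_zero_of_mul_eq_one (deltaC_mul_deltaInvC K)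
  have hi : deltaInvC K ≠ 0 := right_ne_zero_of_mul_eq_one (deltaC_mul_deltaInvC K)
  have hc : (HahnSeries.C ((M₁.a : K) ^ 12) : LaurentSeries K) ≠ 0 :=
    (map_ne_zero_iff (HahnSeries.C : K →+* LaurentSeries K) HahnSeries.C_injective).mpr
      (pow_ne_zero _ ha)
  have hs : rootSubst u k M₁ (deltaC K) ≠ 0 :=
    (map_ne_zero_iff _ (subst_injective _ _)).mpr hd
  have hq : qExpand K N (deltaInvC K) ≠ 0 := (map_ne_zero_iff _ (qExpand_injective N)).mpr hi
  refine ⟨mul_ne_zero (mul_ne_zero hc hs) hq, ?_⟩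
  rw [unitSeries, HahnSeries.order_mul (mul_ne_zero hc hs) hq, HahnSeries.order_mul hc hs,
    rootSubst, order_subst _ _ hd, order_deltaC, ← subst_one, order_subst _ _ hi, order_deltaInvC,
    HahnSeries.C_apply, HahnSeries.order_single (pow_ne_zero _ ha)]
  ring

/-! ### The derivation on a simple extension -/

theorem dJ_pow (z : LaurentSeries K) (n : ℕ) :
    dJ K N (z ^ n) = n * z ^ (n - 1) * dJ K N z := by
  induction n with
  | zero => rw [pow_zero, Nat.cast_zero, zero_mul, zero_mul, ← map_one HahnSeries.C, dJ_C]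
  | succ n ih =>
    rw [pow_succ, dJ_mul, ih]
    rcases n with _ | n
    · simp
    · push_cast
      ring

theorem exists_dJ_aeval (hN : (N : K) ≠ 0) (P : Polynomial (baseField K N)) :
    ∃ PD : Polynomial (baseField K N), ∀ z : LaurentSeries K,
      dJ K N (Polynomial.aeval z P) =
        Polynomial.aeval z PD + Polynomial.aeval z P.derivative * dJ K N z := by
  induction P using Polynomial.induction_on' with
  | add p q hp hq =>
    obtain ⟨p', hp'⟩ := hp
    obtain ⟨q', hq'⟩ := hq
    refine ⟨p' + q', fun z => ?_⟩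
    simp only [map_add, dJ_add, hp', hq']
    ring
  | monomial n c =>
    refine ⟨Polynomial.monomial n ⟨dJ K N c, dJ_mem_baseField hN c.2⟩, fun z => ?_⟩
    rw [Polynomial.aeval_monomial, dJ_mul, dJ_pow, Polynomial.derivative_monomial,
      Polynomial.aeval_monomial, Polynomial.aeval_monomial]
    simp only [map_mul, map_natCast, IntermediateField.algebraMap_apply]
    ring

/-- For separable `x`, `d/dj` preserves `K(j, x)` and commutes with its embeddings. -/
theorem dJ_adjoin (hN : (N : K) ≠ 0) {x : LaurentSeries K}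
    (hsep : IsSeparable (baseField K N) x) {z : LaurentSeries K}
    (hz : z ∈ (baseField K N)⟮x⟯) :
    ∃ h : dJ K N z ∈ (baseField K N)⟮x⟯,
      ∀ σ : (baseField K N)⟮x⟯ →ₐ[baseField K N] LaurentSeries K,
        σ ⟨dJ K N z, h⟩ = dJ K N (σ ⟨z, hz⟩) := by
  induction hz using IntermediateField.adjoin_induction with
  | mem z hz' =>
    obtain rfl := Set.mem_singleton_iff.mp hz'
    obtain ⟨PD, hPD⟩ := exists_dJ_aeval hN (minpoly (baseField K N) z)
    have key : ∀ w : LaurentSeries K, Polynomial.aeval w (minpoly (baseField K N) z) = 0 →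
        dJ K N w = -(Polynomial.aeval w PD) /
          Polynomial.aeval w (minpoly (baseField K N) z).derivative := by
      intro w hw
      have h := hPD w
      rw [hw, dJ_zero] at h
      rw [eq_div_iff (Polynomial.Separable.aeval_derivative_ne_zero hsep hw)]
      linear_combination -h
    set g : (baseField K N)⟮z⟯ := IntermediateField.AdjoinSimple.gen (baseField K N) z
    have hz0 : Polynomial.aeval z (minpoly (baseField K N) z) = 0 := minpoly.aeval _ _
    have hval : dJ K N z = ((-(Polynomial.aeval g PD) /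
        Polynomial.aeval g (minpoly (baseField K N) z).derivative : (baseField K N)⟮z⟯) :
          LaurentSeries K) := by
      rw [key z hz0]
      push_cast
      rw [← IntermediateField.aeval_coe, ← IntermediateField.aeval_coe]
      rfl
    refine ⟨hval ▸ SetLike.coe_mem _, fun σ => ?_⟩
    have hσ0 : Polynomial.aeval (σ g) (minpoly (baseField K N) z) = 0 := by
      have : Polynomial.aeval g (minpoly (baseField K N) z) = 0 := by
        apply Subtype.ext
        rw [← IntermediateField.aeval_coe]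
        exact hz0
      rw [Polynomial.aeval_algHom_apply, this, map_zero]
    show σ ⟨dJ K N z, _⟩ = dJ K N (σ g)
    rw [key _ hσ0, show (⟨dJ K N z, hval ▸ SetLike.coe_mem _⟩ : (baseField K N)⟮z⟯) =
      -(Polynomial.aeval g PD) / Polynomial.aeval g (minpoly (baseField K N) z).derivative from
      Subtype.ext hval, map_div₀, map_neg, Polynomial.aeval_algHom_apply,
      Polynomial.aeval_algHom_apply]
  | algebraMap c =>
    refine ⟨IntermediateField.algebraMap_mem _ (⟨dJ K N c, dJ_mem_baseField hN c.2⟩ : baseField K N),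
      fun σ => ?_⟩
    exact (σ.commutes (⟨dJ K N c, dJ_mem_baseField hN c.2⟩ : baseField K N)).trans
      (congrArg (dJ K N) (σ.commutes c).symm)
  | add a b ha hb iha ihb =>
    obtain ⟨h1, e1⟩ := iha
    obtain ⟨h2, e2⟩ := ihb
    refine ⟨by rw [dJ_add]; exact add_mem h1 h2, fun σ => ?_⟩
    rw [show (⟨a + b, _⟩ : (baseField K N)⟮x⟯) = ⟨a, ha⟩ + ⟨b, hb⟩ from rfl, map_add]
    conv_rhs => rw [dJ_add, ← e1, ← e2, ← map_add]
    exact congrArg σ (Subtype.ext (dJ_add a b))
  | inv a ha iha =>
    obtain ⟨h1, e1⟩ := iha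
    refine ⟨by rw [dJ_inv]; exact mul_mem (neg_mem (pow_mem (inv_mem ha) 2)) h1, fun σ => ?_⟩
    rw [show (⟨a⁻¹, _⟩ : (baseField K N)⟮x⟯) = (⟨a, ha⟩ : (baseField K N)⟮x⟯)⁻¹ from rfl, map_inv₀]
    conv_rhs => rw [dJ_inv, ← e1, ← map_inv₀, ← map_pow, ← map_neg, ← map_mul]
    exact congrArg σ (Subtype.ext (dJ_inv a))
  | mul a b ha hb iha ihb =>
    obtain ⟨h1, e1⟩ := iha
    obtain ⟨h2, e2⟩ := ihb
    refine ⟨by rw [dJ_mul]; exact add_mem (mul_mem h1 hb) (mul_mem ha h2), fun σ => ?_⟩
    rw [show (⟨a * b, _⟩ : (baseField K N)⟮x⟯) = ⟨a, ha⟩ * ⟨b, hb⟩ from rfl, map_mul]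
    conv_rhs => rw [dJ_mul, ← e1, ← e2, ← map_mul, ← map_mul, ← map_add]
    exact congrArg σ (Subtype.ext (dJ_mul a b))

/-! ### Orbits -/

variable {u : Kˣ}

/-- The roots of `Φ_m(j, X)` in `K((q_N))` are the series of `j ((aτ+b)/d)`. -/
theorem aeval_phiBase (hu : IsPrimitiveRoot u N) {m k : ℕ} [NeZero m] [NeZero k] (hN : m * k = N)
    (z : LaurentSeries K) :
    Polynomial.aeval z (phiBase K N m) = 0 ↔ ∃ M₁ : Tri m, jRoot u k M₁ = z := by
  rw [Polynomial.aeval_def, Polynomial.eval₂_eq_eval_map, phiBase_map hu hN, Polynomial.eval_prod,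
    Finset.prod_eq_zero_iff]
  exact ⟨fun ⟨M₁, _, h⟩ => ⟨M₁, (sub_eq_zero.mp (by simpa using h)).symm⟩,
    fun ⟨M₁, h⟩ => ⟨M₁, Finset.mem_univ _, by simp [h]⟩⟩

/-- The series of `j ((aτ+b)/d)` are separable over `K(j)`. -/
theorem isSeparable_jRoot (hu : IsPrimitiveRoot u N) {m k : ℕ} [NeZero m] [NeZero k]
    (hN : m * k = N) (M₁ : Tri m) : IsSeparable (baseField K N) (jRoot u k M₁) :=
  (phiBase_separable hu hN).of_dvd
    (minpoly.dvd _ _ ((aeval_phiBase hu hN _).mpr ⟨M₁, rfl⟩))

/-- The triples `M'` whose root is conjugate to that of `M`. -/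
def orbit (u : Kˣ) (M : Tri N) : Finset (Tri N) :=
  open Classical in Finset.univ.filter fun M' =>
    minpoly (baseField K N) (jRoot u 1 M') = minpoly (baseField K N) (jRoot u 1 M)

/-- The orbit consists of the triples whose root is a root of the same minimal polynomial. -/
theorem mem_orbit (hu : IsPrimitiveRoot u N) {M M' : Tri N} :
    M' ∈ orbit u M ↔
      Polynomial.aeval (jRoot u 1 M') (minpoly (baseField K N) (jRoot u 1 M)) = 0 := by
  classical
  rw [orbit, Finset.mem_filter]
  refine ⟨fun h => h.2 ▸ minpoly.aeval _ _, fun h => ⟨Finset.mem_univ _, ?_⟩⟩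
  have hint := (isSeparable_jRoot hu (mul_one N) M).isIntegral
  exact (minpoly.eq_of_irreducible_of_monic (minpoly.irreducible hint) h (minpoly.monic hint)).symm

theorem self_mem_orbit (M : Tri N) : M ∈ orbit u M := by simp [orbit]

/-- The orbit of a triple has as many elements as the degree of its root over `K(j)`. -/
theorem card_orbit (hu : IsPrimitiveRoot u N) (M : Tri N) :
    (orbit u M).card = (minpoly (baseField K N) (jRoot u 1 M)).natDegree := by
  classical
  set P := minpoly (baseField K N) (jRoot u 1 M)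
  have hdvd : P.map (algebraMap (baseField K N) (LaurentSeries K)) ∣
      ∏ M' : Tri N, (Polynomial.X - Polynomial.C (jRoot u 1 M')) := by
    rw [← phiBase_map hu (mul_one N)]
    exact Polynomial.map_dvd _ (minpoly.dvd _ _ ((aeval_phiBase hu (mul_one N) _).mpr ⟨M, rfl⟩))
  have hint := (isSeparable_jRoot hu (mul_one N) M).isIntegral
  have hne : (∏ M' : Tri N, (Polynomial.X - Polynomial.C (jRoot u 1 M'))) ≠ 0 :=
    Finset.prod_ne_zero_iff.mpr fun M' _ => Polynomial.X_sub_C_ne_zero _
  have hsplit := (Polynomial.Splits.prod fun M' _ => Polynomial.Splits.X_sub_C _).of_dvd hne hdvd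
  have hnd : (P.map (algebraMap (baseField K N) (LaurentSeries K))).roots.Nodup :=
    Polynomial.nodup_roots (Polynomial.Separable.map (isSeparable_jRoot hu (mul_one N) M))
  rw [← Polynomial.natDegree_map (f := algebraMap (baseField K N) (LaurentSeries K)),
    Polynomial.Splits.natDegree_eq_card_roots hsplit, ← Multiset.toFinset_card_of_nodup hnd,
    ← Finset.card_image_of_injective (orbit u M) (jRoot_injective hu 1 (mul_one N))]
  congr 1
  ext z
  rw [Finset.mem_image, Multiset.mem_toFinset,
    Polynomial.mem_roots (Polynomial.map_ne_zero (minpoly.ne_zero hint)), Polynomial.IsRoot,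
    ← Polynomial.eval₂_eq_eval_map, ← Polynomial.aeval_def]
  constructor
  · rintro ⟨M', hM', rfl⟩
    exact (mem_orbit hu).mp hM'
  · intro hz
    obtain ⟨M', rfl⟩ := (aeval_phiBase hu (mul_one N) z).mp
      (by
        obtain ⟨q, hq⟩ := minpoly.dvd (baseField K N) _
          ((aeval_phiBase hu (mul_one N) (jRoot u 1 M)).mpr ⟨M, rfl⟩)
        rw [hq, map_mul, hz, zero_mul])
    exact ⟨M', (mem_orbit hu).mpr hz, rfl⟩

variable {m k : ℕ} [NeZero m] [NeZero k]

/-- The level `m` part of a root lies in the field it generates. -/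
theorem part_mem (hu : IsPrimitiveRoot u N) (hN : m * k = N) {M : Tri N} {M₁ : Tri m}
    (h : IsPart u k M M₁) :
    jRoot u k M₁ ∈ (baseField K N)⟮jRoot u 1 M⟯ := by
  classical
  set L := (baseField K N)⟮jRoot u 1 M⟯
  set x : L := IntermediateField.AdjoinSimple.gen (baseField K N) (jRoot u 1 M)
  set A : Polynomial L := (phiBase K N m).map (algebraMap (baseField K N) L)
  set B : Polynomial L := (modularPoly k).eval₂ (Polynomial.mapRingHom (Int.castRingHom L))
    (Polynomial.C x)
  have hB : ∀ z : LaurentSeries K,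
      Polynomial.aeval z B = ((modularPoly k).map (evalAt K z)).eval (jRoot u 1 M) := by
    intro z
    show (Polynomial.aeval z).toRingHom B = _
    rw [Polynomial.hom_eval₂, Polynomial.eval_map]
    congr 1
    · refine Polynomial.ringHom_ext' (Subsingleton.elim _ _) ?_
      simp [evalAt]
    · simp [x]
  have hA : ∀ z : LaurentSeries K,
      Polynomial.aeval z A = Polynomial.aeval z (phiBase K N m) := fun z =>
    Polynomial.aeval_map_algebraMap _ _ _
  set y := jRoot u k M₁
  have hAy : Polynomial.aeval y A = 0 := by rw [hA, aeval_phiBase hu hN]; exact ⟨M₁, rfl⟩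
  have hBy : Polynomial.aeval y B = 0 := by rw [hB]; exact h
  have hAmon : A.Monic := (phiBase_monic K N m).map _
  have hint : IsIntegral L y := ⟨A, hAmon, hAy⟩
  set q := minpoly L y
  have hqA : q ∣ A := minpoly.dvd L y hAy
  have hqB : q ∣ B := minpoly.dvd L y hBy
  have hAmap : A.map (algebraMap L (LaurentSeries K)) =
      ∏ M₁' : Tri m, (Polynomial.X - Polynomial.C (jRoot u k M₁')) := by
    rw [Polynomial.map_map, ← IsScalarTower.algebraMap_eq, phiBase_map hu hN]
  have hsep : q.Separable := ((phiBase_separable hu hN).map).of_dvd hqA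
  have hne : (∏ M₁' : Tri m, (Polynomial.X - Polynomial.C (jRoot u k M₁'))) ≠ 0 :=
    Finset.prod_ne_zero_iff.mpr fun M' _ => Polynomial.X_sub_C_ne_zero _
  have hsplit := (Polynomial.Splits.prod fun M' _ => Polynomial.Splits.X_sub_C _).of_dvd hne
    (hAmap ▸ Polynomial.map_dvd _ hqA)
  have hroots : (q.map (algebraMap L (LaurentSeries K))).roots.toFinset ⊆ {y} := by
    intro z hz
    rw [Multiset.mem_toFinset, Polynomial.mem_roots (Polynomial.map_ne_zero (minpoly.ne_zero hint)),
      Polynomial.IsRoot, ← Polynomial.eval₂_eq_eval_map, ← Polynomial.aeval_def] at hz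
    obtain ⟨q₁, hq₁⟩ := hqA
    obtain ⟨q₂, hq₂⟩ := hqB
    have h1 : Polynomial.aeval z (phiBase K N m) = 0 := by rw [← hA, hq₁, map_mul, hz, zero_mul]
    obtain ⟨M₁', rfl⟩ := (aeval_phiBase hu hN z).mp h1
    have h2 : IsPart u k M M₁' := by
      rw [IsPart, Polynomial.IsRoot, ← hB, hq₂, map_mul, hz, zero_mul]
    rw [Finset.mem_singleton]
    exact congrArg (jRoot u k) (h.unique hu hN h2).symm
  have hdeg : q.natDegree ≤ 1 := by
    rw [← Polynomial.natDegree_map (f := algebraMap L (LaurentSeries K)),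
      Polynomial.Splits.natDegree_eq_card_roots hsplit,
      ← Multiset.toFinset_card_of_nodup (Polynomial.nodup_roots hsep.map)]
    exact (Finset.card_le_card hroots).trans_eq (Finset.card_singleton y)
  have h1 : q.natDegree = 1 := le_antisymm hdeg (minpoly.natDegree_pos hint)
  obtain ⟨y', hy'⟩ := minpoly.natDegree_eq_one_iff.mp h1
  rw [← hy']
  exact y'.2

/-- `a¹² Δ((aτ+b)/d)/Δ(τ)` and its inverse are integral over `K[j]`. -/
theorem unit_integral (hu : IsPrimitiveRoot u N) (hN : m * k = N) (M₁ : Tri m) :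
    (evalJT K N).IsIntegralElem (unitSeries u k N M₁) ∧
      (evalJT K N).IsIntegralElem (unitInvSeries u k N M₁) := by
  have hu' : IsPrimitiveRoot (u : K) N := IsPrimitiveRoot.coe_units_iff.mpr hu
  have key : ∀ (F : Tri m → UpperHalfPlane → ℂ) (s : Tri m → LaurentSeries (Cyc N)),
      (∀ M, MDifferentiable (modelWithCornersSelf ℂ ℂ) (modelWithCornersSelf ℂ ℂ) (F M)) →
      (∀ M, HasExp N (F M) (coeffMap (cycC N) (s M))) →
      (∀ γ M τ, F M (γ • τ) = F (Tri.act γ M) τ) →
      (evalJT K N).IsIntegralElem (coeffMap (cycHom (u : K) hu') (s M₁)) := by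
    intro F s h1 h2 h3
    obtain ⟨P, hmon, -, hmap, -⟩ := exists_familyPoly (cycC N) cycC_injective F s h1 h2 h3
    refine ⟨P.map (Polynomial.mapRingHom (cycHom (u : K) hu')), hmon.map _, ?_⟩
    have h4 := congrArg (Polynomial.map (coeffMap (cycHom (u : K) hu'))) hmap
    rw [Polynomial.map_map, show (coeffMap (cycHom (u : K) hu')).comp (evalJT (Cyc N) N) =
        (evalJT K N).comp (Polynomial.mapRingHom (cycHom (u : K) hu')) from
      RingHom.ext (coeffMap_evalJT _ N)] at h4
    rw [Polynomial.eval₂_eq_eval_map, Polynomial.map_map, h4, Polynomial.map_prod,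
      Polynomial.eval_prod, Finset.prod_eq_zero (Finset.mem_univ M₁) (by simp)]
  have h1 := key unitFun (fun M => unitSeries (cycUnit N) k N M) mdiff_unitFun
    (fun M => by rw [coeffMap_unitSeries, map_cycUnit_cycC]; exact hasExp_unitFun k hN M)
    unitFun_smul
  have h2 := key unitInvFun (fun M => unitInvSeries (cycUnit N) k N M) mdiff_unitInvFun
    (fun M => by rw [coeffMap_unitInvSeries, map_cycUnit_cycC]; exact hasExp_unitInvFun k hN M)
    unitInvFun_smul
  rw [coeffMap_unitSeries, map_cycUnit] at h1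
  rw [coeffMap_unitInvSeries, map_cycUnit] at h2
  exact ⟨h1, h2⟩

/-- For `m ∣ N`, the sum of `gcd (m, a) ^ 2` over an orbit is `m` times its cardinality: the norm
of the unit of level `m` has order zero. -/
theorem orbit_sum (hu : IsPrimitiveRoot u N) (hN : m * k = N) (M : Tri N) :
    ∑ M' ∈ orbit u M, ((Nat.gcd m M'.a : ℕ) : ℤ) ^ 2 = (orbit u M).card * (m : ℤ) := by
  classical
  choose part hpart using fun M' : Tri N => exists_isPart (m := m) (k := k) hu hN M'
  have hNK := natCast_ne_zero_of_primitive hu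
  have hsep := isSeparable_jRoot hu (mul_one N) M
  have hint := hsep.isIntegral
  set L := (baseField K N)⟮jRoot u 1 M⟯
  have : FiniteDimensional (baseField K N) L := IntermediateField.adjoin.finiteDimensional hint
  have : Algebra.IsSeparable (baseField K N) L :=
    (IntermediateField.isSeparable_adjoin_simple_iff_isSeparable _ _).mpr hsep
  set x : L := IntermediateField.AdjoinSimple.gen (baseField K N) (jRoot u 1 M) with hxdef
  set y : L := ⟨jRoot u k (part M), part_mem hu hN (hpart M)⟩ with hydef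
  obtain ⟨hDy, hcomm⟩ := dJ_adjoin hNK hsep y.2
  set J : L := algebraMap (baseField K N) L ⟨jT K N, jT_mem_baseField K N⟩ with hJ
  set W : L := (m : L) ^ 6 * (⟨_, hDy⟩ : L) ^ 6 * (J ^ 4 * (J - 1728) ^ 3) /
    (y ^ 4 * (y - 1728) ^ 3) with hW
  set pb := IntermediateField.adjoin.powerBasis hint
  have hgen : pb.gen = x := IntermediateField.adjoin.powerBasis_gen hint
  have hmin : minpoly (baseField K N) pb.gen = minpoly (baseField K N) (jRoot u 1 M) := by
    rw [hgen, hxdef, IntermediateField.minpoly_gen]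
  have hroot : ∀ M' : ↥(orbit u M), Polynomial.aeval (jRoot u 1 M'.1)
      (minpoly (baseField K N) pb.gen) = 0 := fun M' => by rw [hmin]; exact (mem_orbit hu).mp M'.2
  set σ : ↥(orbit u M) → (L →ₐ[baseField K N] LaurentSeries K) :=
    fun M' => pb.lift (jRoot u 1 M'.1) (hroot M') with hσ
  have hσx : ∀ M', σ M' x = jRoot u 1 M'.1 := fun M' => by
    rw [← hgen]; exact pb.lift_gen _ _
  have hσW : ∀ M', σ M' W = unitSeries u k N (part M'.1) := by
    intro M'
    obtain ⟨M₁', hM₁'⟩ : ∃ M₁' : Tri m, jRoot u k M₁' = σ M' y := by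
      rw [← aeval_phiBase hu hN, Polynomial.aeval_algHom_apply]
      have : Polynomial.aeval y (phiBase K N m) = 0 := by
        apply Subtype.ext
        rw [← IntermediateField.aeval_coe]
        exact (aeval_phiBase hu hN _).mpr ⟨_, rfl⟩
      rw [this, map_zero]
    have hP : IsPart u k M'.1 M₁' := by
      have h0 := hpart M
      rw [IsPart, Polynomial.IsRoot, Polynomial.eval_map] at h0 ⊢
      have h1 : (modularPoly k).eval₂ (Polynomial.eval₂RingHom (Int.castRingHom L) y) x = 0 := by
        apply Subtype.ext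
        show L.val.toRingHom _ = L.val.toRingHom 0
        rw [Polynomial.hom_eval₂, map_zero]
        convert h0 using 2
        · refine Polynomial.ringHom_ext' (Subsingleton.elim _ _) ?_
          simp [evalAt, hydef]
        · rfl
      have h2 := congrArg (σ M').toRingHom h1
      rw [Polynomial.hom_eval₂, map_zero] at h2
      convert h2 using 2
      · refine Polynomial.ringHom_ext' (Subsingleton.elim _ _) ?_
        simp [evalAt, hM₁']
      · exact (hσx M').symm
    rw [← hP.unique hu hN (hpart M'.1), unitSeries_eq_unitExpr hNK hN u M₁', unitExpr, hM₁', hW,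
      show σ M' y = σ M' ⟨(y : LaurentSeries K), y.2⟩ from rfl, ← hcomm, hJ]
    simp only [map_div₀, map_mul, map_pow, map_sub, map_natCast, map_ofNat, AlgHom.commutes]
    rfl
  set ι : LaurentSeries K →ₐ[baseField K N] AlgebraicClosure (LaurentSeries K) :=
    IsScalarTower.toAlgHom _ _ _
  have hι : Function.Injective ι := (algebraMap (LaurentSeries K) _).injective
  have hbij : Function.Bijective fun M' => ι.comp (σ M') := by
    rw [Fintype.bijective_iff_injective_and_card]
    refine ⟨fun M₁ M₂ h => ?_, ?_⟩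
    · have : σ M₁ x = σ M₂ x := hι (congrFun (congrArg DFunLike.coe h) x)
      rw [hσx, hσx] at this
      exact Subtype.ext (jRoot_injective hu 1 (mul_one N) this)
    · rw [Fintype.card_coe, card_orbit hu, AlgHom.card, IntermediateField.adjoin.finrank hint]
  set n := ∏ M' : ↥(orbit u M), unitSeries u k N (part M'.1) with hn
  set n' := ∏ M' : ↥(orbit u M), unitInvSeries u k N (part M'.1) with hn'
  have hnmem : n ∈ baseField K N := by
    have h := Algebra.norm_eq_prod_embeddings (baseField K N)
      (AlgebraicClosure (LaurentSeries K)) W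
    rw [← Fintype.prod_bijective _ hbij (fun M' => ι (σ M' W)) _ (fun _ => rfl), ← map_prod] at h
    have h2 : ((Algebra.norm (baseField K N) W : baseField K N) : LaurentSeries K) = n := by
      refine hι ?_
      rw [hn, ← Finset.prod_congr rfl fun M' _ => hσW M', ← h]
      exact ι.commutes _
    rw [← h2]
    exact SetLike.coe_mem _
  have hm0 : (m : K) ≠ 0 := left_ne_zero_of_mul (b := (k : K)) (by rw [← Nat.cast_mul, hN]; exact hNK)
  set c := ((m : K) ^ 12) ^ (orbit u M).card
  have hc : c ≠ 0 := pow_ne_zero _ (pow_ne_zero _ hm0)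
  have hnn : n * n' = HahnSeries.C c := by
    rw [hn, hn', ← Finset.prod_mul_distrib, Finset.prod_congr rfl fun M' _ =>
      unitSeries_mul_unitInvSeries u k N (part M'.1), Finset.prod_const, ← map_pow,
      Finset.card_univ, Fintype.card_coe]
  have hn0 : n ≠ 0 := by
    intro h
    rw [h, zero_mul] at hnn
    exact (map_ne_zero_iff (HahnSeries.C : K →+* LaurentSeries K) HahnSeries.C_injective).mpr hc
      hnn.symm
  have hn'mem : n' ∈ baseField K N := by
    rw [show n' = n⁻¹ * HahnSeries.C c by rw [← hnn, inv_mul_cancel_left₀ hn0]]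
    exact mul_mem (inv_mem hnmem) (C_mem_baseField K N c)
  have hprodint : ∀ (f : ↥(orbit u M) → LaurentSeries K), (∀ i, (evalJT K N).IsIntegralElem (f i)) →
      (evalJT K N).IsIntegralElem (∏ i, f i) := fun f hf =>
    Finset.prod_induction f _ (fun a b => RingHom.IsIntegralElem.mul _)
      ((evalJT K N).map_one ▸ RingHom.isIntegralElem_map _) fun i _ => hf i
  obtain ⟨p, hp⟩ := mem_range_of_isIntegralElem hnmem
    (hprodint _ fun M' => (unit_integral hu hN (part M'.1)).1)
  obtain ⟨p', hp'⟩ := mem_range_of_isIntegralElem hn'mem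
    (hprodint _ fun M' => (unit_integral hu hN (part M'.1)).2)
  obtain ⟨c', hc', he⟩ := eq_C_of_mul_eq_C (p := p) (p' := p') hc (by rw [hp, hp', hnn])
  have hord : n.order = 0 := by
    rw [← hp, he, HahnSeries.C_apply, HahnSeries.order_single hc']
  have ha0 : ∀ M₁ : Tri m, (M₁.a : K) ≠ 0 := fun M₁ => left_ne_zero_of_mul (b := (M₁.d : K))
    (by rw [← Nat.cast_mul, M₁.a_mul_d]; exact hm0)
  rw [hn, order_prod _ _ fun M' _ => (order_unitSeries u (part M'.1) (ha0 _)).1,
    Finset.sum_congr rfl fun M' _ => (order_unitSeries (N := N) u (part M'.1) (ha0 _)).2,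
    Finset.sum_coe_sort (orbit u M) fun M' => (((part M').a * (part M').a * k : ℕ) : ℤ) - N,
    Finset.sum_sub_distrib, Finset.sum_const, nsmul_eq_mul, sub_eq_zero] at hord
  have hk : (k : ℤ) ≠ 0 := by exact_mod_cast NeZero.ne k
  refine mul_right_cancel₀ hk ?_
  rw [Finset.sum_mul, mul_assoc, show (m : ℤ) * k = N by exact_mod_cast hN, ← hord]
  refine Finset.sum_congr rfl fun M' _ => ?_
  rw [(hpart M').a_eq hu hN]
  push_cast
  ring

theorem a_eq_self_iff (M : Tri N) : M.a = N ↔ M = Tri.top := by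
  refine ⟨fun h => ?_, fun h => h ▸ rfl⟩
  have hd : M.d = 1 := by
    have := M.a_mul_d
    rw [h] at this
    exact (Nat.mul_eq_left (NeZero.ne N)).mp this
  refine Tri.ext_a_b h ?_
  have := M.b_lt
  show M.b = 0
  omega

/-- **Irreducibility**: every root of `Φ_N(j, X)` is conjugate to `j(Nτ)` over `K(j)`. -/
theorem orbit_top (hu : IsPrimitiveRoot u N) : orbit u (Tri.top : Tri N) = Finset.univ := by
  classical
  set O := orbit u (Tri.top : Tri N)
  set cnt : Finset (Tri N) → ℕ → ℤ := fun S a => ((S.filter fun M' : Tri N => M'.a = a).card : ℤ)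
  have key : ∀ S : Finset (Tri N), ∀ m : ℕ,
      ∑ a ∈ N.divisors, cnt S a * ((Nat.gcd m a : ℕ) : ℤ) ^ 2 =
        ∑ M' ∈ S, ((Nat.gcd m M'.a : ℕ) : ℤ) ^ 2 := by
    intro S m
    rw [← Finset.sum_fiberwise_of_maps_to (g := Tri.a) (t := N.divisors)
      fun M' _ => Nat.mem_divisors.mpr ⟨Dvd.intro _ M'.a_mul_d, NeZero.ne N⟩]
    refine Finset.sum_congr rfl fun a _ => ?_
    rw [Finset.sum_congr rfl fun M' hM' => by rw [(Finset.mem_filter.mp hM').2],
      Finset.sum_const, nsmul_eq_mul]
  have hall : ∀ m ∈ N.divisors, ∑ M' : Tri N, ((Nat.gcd m M'.a : ℕ) : ℤ) ^ 2 =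
      (Fintype.card (Tri N) : ℤ) * m := by
    intro m hm
    obtain ⟨hm, -⟩ := Nat.mem_divisors.mp hm
    obtain ⟨k, hk⟩ := hm
    have : NeZero m := ⟨left_ne_zero_of_mul (hk ▸ NeZero.ne N)⟩
    have : NeZero k := ⟨right_ne_zero_of_mul (hk ▸ NeZero.ne N)⟩
    set g : Tri N → Polynomial (baseField K N) := fun M' => minpoly (baseField K N) (jRoot u 1 M')
    rw [← Finset.sum_fiberwise_of_maps_to (g := g) (t := Finset.univ.image g)
      (fun M' (hM' : M' ∈ (Finset.univ : Finset (Tri N))) => Finset.mem_image_of_mem g hM')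
      (fun M' => ((Nat.gcd m M'.a : ℕ) : ℤ) ^ 2)]
    have hcard : (Fintype.card (Tri N) : ℤ) * m =
        ∑ P ∈ Finset.univ.image g, ((Finset.univ.filter fun M' => g M' = P).card : ℤ) * m := by
      rw [← Finset.sum_mul, ← Nat.cast_sum,
        ← Finset.card_eq_sum_card_fiberwise fun M' _ => Finset.mem_image_of_mem g (Finset.mem_univ M')]
      rfl
    rw [hcard]
    refine Finset.sum_congr rfl fun P hP => ?_
    obtain ⟨M, -, rfl⟩ := Finset.mem_image.mp hP
    have h := orbit_sum hu hk.symm M
    convert h using 4 <;> exact Finset.filter_congr fun _ _ => Iff.rfl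
  have hz := gcdSq_kernel (NeZero.ne N)
    (fun a => (Fintype.card (Tri N) : ℤ) * cnt O a - (O.card : ℤ) * cnt Finset.univ a) fun m hm => by
      simp only [sub_mul, mul_assoc, Finset.sum_sub_distrib, ← Finset.mul_sum, key, hall m hm]
      obtain ⟨k, hk⟩ := (Nat.mem_divisors.mp hm).1
      have : NeZero m := ⟨left_ne_zero_of_mul (hk ▸ NeZero.ne N)⟩
      have : NeZero k := ⟨right_ne_zero_of_mul (hk ▸ NeZero.ne N)⟩
      rw [orbit_sum hu hk.symm]
      ring
  have h := hz N (Nat.mem_divisors.mpr ⟨dvd_rfl, NeZero.ne N⟩)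
  have h1 : cnt O N = 1 := by
    simp only [cnt, a_eq_self_iff]
    rw [Finset.filter_eq' O, if_pos (self_mem_orbit _)]
    rfl
  have h2 : cnt Finset.univ N = 1 := by
    simp only [cnt, a_eq_self_iff]
    rw [Finset.filter_eq' Finset.univ, if_pos (Finset.mem_univ _)]
    rfl
  rw [h1, h2, mul_one, mul_one, sub_eq_zero] at h
  exact Finset.eq_univ_of_card O (by exact_mod_cast h.symm)

/-- `Φ_N(j, X)` is the minimal polynomial over `K(j)` of each of its roots. -/
theorem minpoly_jRoot_eq (hu : IsPrimitiveRoot u N) (M : Tri N) :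
    minpoly (baseField K N) (jRoot u 1 M) = phiBase K N N := by
  classical
  have hM : M ∈ orbit u (Tri.top : Tri N) := orbit_top hu ▸ Finset.mem_univ M
  have heq := (Finset.mem_filter.mp hM).2
  rw [heq]
  refine (Polynomial.eq_of_monic_of_dvd_of_natDegree_le
    (minpoly.monic (isSeparable_jRoot hu (mul_one N) Tri.top).isIntegral) (phiBase_monic K N N)
    (minpoly.dvd _ _ ((aeval_phiBase hu (mul_one N) _).mpr ⟨_, rfl⟩)) ?_).symm
  rw [← card_orbit hu, orbit_top hu, Finset.card_univ, card_tri, phiBase,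
    (modularPoly_monic N).natDegree_map, modularPoly_natDegree]

/-- `j(mτ)` lies in `K(j, j(Nτ))` for `m ∣ N`. -/
theorem jRoot_top_level_mem (hu : IsPrimitiveRoot u N) (hN : m * k = N) :
    jRoot u k (Tri.top : Tri m) ∈ (baseField K N)⟮jRoot u 1 (Tri.top : Tri N)⟯ := by
  obtain ⟨M₁, hM₁⟩ := exists_isPart (m := m) (k := k) hu hN (Tri.top : Tri N)
  have h : M₁ = Tri.top := by
    refine (a_eq_self_iff M₁).mp ((hM₁.a_eq hu hN).trans ?_)
    exact Nat.gcd_eq_left (Dvd.intro k hN)
  exact h ▸ part_mem hu hN hM₁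

end Fermat.Agent.ModularFunctionField
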